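/-
S55 library, interface (helper4, architect).  **Smooth ("level-constant") cohomology**, the common
currency of the profinite layer of the Poitou–Tate sprint.

The Prelude computes the cohomology of `G_S` and of the local Galois groups by *level-constant
inhomogeneous cochains* on abstract groups mapping to `G_ℚ` (`IsLevelConstant₁ r`, `IsLevelConstantS₂ S`,
`continuousH2 r M`, `continuousH2S S M`, `continuousH1S S M`, ...).  This file gives ONE definition that
specialises (definitionally) to all of them and works for every coefficient ring (in particular `ℤ`):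

* a `LevelClass` is a class of finite subextensions of `ℚ̄/ℚ` (closed under `⊔`, subfields, Galois
  closure): `LevelClass.all` (all finite `F`) and `LevelClass.unr S` (finite `F` unramified outside `S`);
* for `r : G →* G_ℚ` a cochain `f : Gⁿ → X` is `(r, 𝓛)`-level-constant if it is right-invariant, in
  every argument, under `r⁻¹(Gal(ℚ̄/F))` for some `F ∈ 𝓛`;
* `Sm.H0/H1/H2 r 𝓛 A` for `A : Rep k G`.

Global `G_S`-cohomology:      `r = MonoidHom.id G_ℚ`, `𝓛 = unr S`.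
Open subgroup `U ≤ G_ℚ`:       `r = U.subtype`, `𝓛 = unr S`.
Local group at `v`:            `r = extArithLoc S v`, `𝓛 = all` (as in the Prelude).
-/
import Mathlib
import Fermat.Prelude.Def_GroupCohomology_ContinuousUnramified

set_option autoImplicit false
set_option linter.style.haveILetI false

noncomputable section

namespace Fermat.Agent.S55lib

open groupCohomology CategoryTheory

/-- `ℚ̄`. -/
abbrev Qbar : Type := AlgebraicClosure ℚ

/-- The absolute Galois group `G_ℚ = Gal(ℚ̄/ℚ)`. -/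
abbrev GQ : Type := AlgebraicClosure ℚ ≃ₐ[ℚ] AlgebraicClosure ℚ

/-- Subextensions of `ℚ̄/ℚ`. -/
abbrev FieldQ : Type := IntermediateField ℚ (AlgebraicClosure ℚ)

/-- A class of admissible finite levels (finite subextensions of `ℚ̄/ℚ`), closed under compositum,
subfields and Galois closure. -/
structure LevelClass where
  /-- the admissible fields -/
  P : FieldQ → Prop
  finite : ∀ F, P F → FiniteDimensional ℚ F
  bot : P ⊥
  sup : ∀ F F', P F → P F' → P (F ⊔ F')
  mono : ∀ F F', F' ≤ F → P F → P F'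
  galoisClosure : ∀ F, P F → ∃ F', P F' ∧ F ≤ F' ∧ Normal ℚ F'

instance isAlgebraicQbar : Algebra.IsAlgebraic ℚ (AlgebraicClosure ℚ) :=
  AlgebraicClosure.isAlgebraic ℚ
instance isAlgClosureQbar : IsAlgClosure ℚ (AlgebraicClosure ℚ) := ⟨inferInstance, inferInstance⟩
instance normalQbar : Normal ℚ (AlgebraicClosure ℚ) := IsAlgClosure.normal ℚ (AlgebraicClosure ℚ)

/-- All finite subextensions. -/
def LevelClass.all : LevelClass where
  P F := FiniteDimensional ℚ F
  finite _ h := h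
  bot := inferInstance
  sup F F' h h' := by
    haveI := h; haveI := h'
    exact IntermediateField.finiteDimensional_sup F F'
  mono F F' hle h := by
    haveI := h
    exact FiniteDimensional.of_injective (IntermediateField.inclusion hle).toLinearMap
      (IntermediateField.inclusion_injective hle)
  galoisClosure F h := by
    haveI := h
    exact ⟨IntermediateField.normalClosure ℚ F (AlgebraicClosure ℚ), normalClosure.is_finiteDimensional ℚ F _,
      IntermediateField.le_normalClosure F, normalClosure.normal ℚ F _⟩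

variable {G : Type} [Group G] (r : G →* GQ) (𝓛 : LevelClass)

namespace Sm

/-- `(r, 𝓛)`-level-constant 1-cochains. -/
def IsLC₁ {X : Type*} (f : G → X) : Prop :=
  ∃ F : FieldQ, 𝓛.P F ∧ ∀ g s : G, r s ∈ F.fixingSubgroup → f (g * s) = f g

/-- `(r, 𝓛)`-level-constant 2-cochains. -/
def IsLC₂ {X : Type*} (f : G × G → X) : Prop :=
  ∃ F : FieldQ, 𝓛.P F ∧ ∀ g g' s s' : G, r s ∈ F.fixingSubgroup → r s' ∈ F.fixingSubgroup →
    f (g * s, g' * s') = f (g, g')

/-- `(r, 𝓛)`-level-constant 3-cochains. -/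
def IsLC₃ {X : Type*} (f : G × G × G → X) : Prop :=
  ∃ F : FieldQ, 𝓛.P F ∧ ∀ g g' g'' s s' s'' : G, r s ∈ F.fixingSubgroup →
    r s' ∈ F.fixingSubgroup → r s'' ∈ F.fixingSubgroup →
      f (g * s, g' * s', g'' * s'') = f (g, g', g'')

variable {r 𝓛}

lemma IsLC₁.add {X : Type*} [Add X] {f f' : G → X} (hf : IsLC₁ r 𝓛 f) (hf' : IsLC₁ r 𝓛 f') :
    IsLC₁ r 𝓛 (f + f') := by
  obtain ⟨F, hF, h⟩ := hf
  obtain ⟨F', hF', h'⟩ := hf'
  refine ⟨F ⊔ F', 𝓛.sup F F' hF hF', fun g s hs => ?_⟩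
  simp only [Pi.add_apply]
  rw [h g s (IntermediateField.fixingSubgroup_antitone le_sup_left hs),
    h' g s (IntermediateField.fixingSubgroup_antitone le_sup_right hs)]

lemma IsLC₂.add {X : Type*} [Add X] {f f' : G × G → X} (hf : IsLC₂ r 𝓛 f) (hf' : IsLC₂ r 𝓛 f') :
    IsLC₂ r 𝓛 (f + f') := by
  obtain ⟨F, hF, h⟩ := hf
  obtain ⟨F', hF', h'⟩ := hf'
  refine ⟨F ⊔ F', 𝓛.sup F F' hF hF', fun g g' s s' hs hs' => ?_⟩
  simp only [Pi.add_apply]
  rw [h g g' s s' (IntermediateField.fixingSubgroup_antitone le_sup_left hs)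
      (IntermediateField.fixingSubgroup_antitone le_sup_left hs'),
    h' g g' s s' (IntermediateField.fixingSubgroup_antitone le_sup_right hs)
      (IntermediateField.fixingSubgroup_antitone le_sup_right hs')]

lemma IsLC₃.add {X : Type*} [Add X] {f f' : G × G × G → X} (hf : IsLC₃ r 𝓛 f)
    (hf' : IsLC₃ r 𝓛 f') : IsLC₃ r 𝓛 (f + f') := by
  obtain ⟨F, hF, h⟩ := hf
  obtain ⟨F', hF', h'⟩ := hf'
  refine ⟨F ⊔ F', 𝓛.sup F F' hF hF', fun g g' g'' s s' s'' hs hs' hs'' => ?_⟩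
  simp only [Pi.add_apply]
  rw [h g g' g'' s s' s'' (IntermediateField.fixingSubgroup_antitone le_sup_left hs)
      (IntermediateField.fixingSubgroup_antitone le_sup_left hs')
      (IntermediateField.fixingSubgroup_antitone le_sup_left hs''),
    h' g g' g'' s s' s'' (IntermediateField.fixingSubgroup_antitone le_sup_right hs)
      (IntermediateField.fixingSubgroup_antitone le_sup_right hs')
      (IntermediateField.fixingSubgroup_antitone le_sup_right hs'')]

variable (r 𝓛)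

lemma isLC₁_const {X : Type*} (x : X) : IsLC₁ r 𝓛 (fun _ : G => x) :=
  ⟨⊥, 𝓛.bot, fun _ _ _ => rfl⟩

lemma isLC₂_const {X : Type*} (x : X) : IsLC₂ r 𝓛 (fun _ : G × G => x) :=
  ⟨⊥, 𝓛.bot, fun _ _ _ _ _ _ => rfl⟩

lemma isLC₃_const {X : Type*} (x : X) : IsLC₃ r 𝓛 (fun _ : G × G × G => x) :=
  ⟨⊥, 𝓛.bot, fun _ _ _ _ _ _ _ _ _ => rfl⟩

variable {r 𝓛}

lemma IsLC₁.comp {X Y : Type*} {f : G → X} (hf : IsLC₁ r 𝓛 f) (φ : X → Y) :
    IsLC₁ r 𝓛 (φ ∘ f) := by
  obtain ⟨F, hF, h⟩ := hf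
  exact ⟨F, hF, fun g s hs => by simp only [Function.comp_apply, h g s hs]⟩

lemma IsLC₂.comp {X Y : Type*} {f : G × G → X} (hf : IsLC₂ r 𝓛 f) (φ : X → Y) :
    IsLC₂ r 𝓛 (φ ∘ f) := by
  obtain ⟨F, hF, h⟩ := hf
  exact ⟨F, hF, fun g g' s s' hs hs' => by simp only [Function.comp_apply, h g g' s s' hs hs']⟩

lemma IsLC₃.comp {X Y : Type*} {f : G × G × G → X} (hf : IsLC₃ r 𝓛 f) (φ : X → Y) :
    IsLC₃ r 𝓛 (φ ∘ f) := by
  obtain ⟨F, hF, h⟩ := hf
  exact ⟨F, hF, fun g g' g'' s s' s'' hs hs' hs'' => by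
    simp only [Function.comp_apply, h g g' g'' s s' s'' hs hs' hs'']⟩

variable (r 𝓛)
variable {k : Type} [CommRing k] (A : Rep k G)

/-- `A` is an `(r, 𝓛)`-smooth (discrete) module: every element is fixed by some level. -/
def IsSmooth : Prop :=
  ∀ a : A, ∃ F : FieldQ, 𝓛.P F ∧ ∀ s : G, r s ∈ F.fixingSubgroup → A.ρ s a = a

/-- Level-constant 1-cochains. -/
def cochains₁ : Submodule k (G → A) where
  carrier := {f | IsLC₁ r 𝓛 f}
  add_mem' hf hf' := hf.add hf'
  zero_mem' := isLC₁_const r 𝓛 (0 : A)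
  smul_mem' c _ hf := hf.comp (c • ·)

/-- Level-constant 2-cochains. -/
def cochains₂ : Submodule k (G × G → A) where
  carrier := {f | IsLC₂ r 𝓛 f}
  add_mem' hf hf' := hf.add hf'
  zero_mem' := isLC₂_const r 𝓛 (0 : A)
  smul_mem' c _ hf := hf.comp (c • ·)

/-- Level-constant 3-cochains. -/
def cochains₃ : Submodule k (G × G × G → A) where
  carrier := {f | IsLC₃ r 𝓛 f}
  add_mem' hf hf' := hf.add hf'
  zero_mem' := isLC₃_const r 𝓛 (0 : A)
  smul_mem' c _ hf := hf.comp (c • ·)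

lemma mem_cochains₁_iff (f : G → A) : f ∈ cochains₁ r 𝓛 A ↔ IsLC₁ r 𝓛 f := Iff.rfl
lemma mem_cochains₂_iff (f : G × G → A) : f ∈ cochains₂ r 𝓛 A ↔ IsLC₂ r 𝓛 f := Iff.rfl
lemma mem_cochains₃_iff (f : G × G × G → A) : f ∈ cochains₃ r 𝓛 A ↔ IsLC₃ r 𝓛 f := Iff.rfl

/-- Level-constant 1-cocycles (as a submodule of all 1-cochains). -/
def Z1 : Submodule k (G → A) := cocycles₁ A ⊓ cochains₁ r 𝓛 A

/-- 1-coboundaries `g ↦ g a - a` (level-constant as soon as `A` is smooth). -/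
def B1 : Submodule k (G → A) := coboundaries₁ A ⊓ cochains₁ r 𝓛 A

/-- Level-constant 2-cocycles. -/
def Z2 : Submodule k (G × G → A) := cocycles₂ A ⊓ cochains₂ r 𝓛 A

/-- Coboundaries of level-constant 1-cochains. -/
def B2 : Submodule k (G × G → A) := (cochains₁ r 𝓛 A).map (d₁₂ A).hom

/-- Level-constant 3-cocycles. -/
def Z3 : Submodule k (G × G × G → A) :=
  LinearMap.ker
    (ModuleCat.Hom.hom ((groupCohomology.cochainsIso₃ A).inv ≫ (inhomogeneousCochains A).d 3 4)) ⊓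
    cochains₃ r 𝓛 A

/-- Coboundaries of level-constant 2-cochains. -/
def B3 : Submodule k (G × G × G → A) := (cochains₂ r 𝓛 A).map (d₂₃ A).hom

lemma mem_Z1_iff (f : G → A) : f ∈ Z1 r 𝓛 A ↔ f ∈ cocycles₁ A ∧ IsLC₁ r 𝓛 f := Iff.rfl
lemma mem_Z2_iff (f : G × G → A) : f ∈ Z2 r 𝓛 A ↔ f ∈ cocycles₂ A ∧ IsLC₂ r 𝓛 f := Iff.rfl
lemma mem_B2_iff (f : G × G → A) :
    f ∈ B2 r 𝓛 A ↔ ∃ x : G → A, IsLC₁ r 𝓛 x ∧ (d₁₂ A).hom x = f := by
  simp only [B2, Submodule.mem_map, mem_cochains₁_iff]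

/-- `H⁰ = A^G`. -/
abbrev H0 : Submodule k A := A.ρ.invariants

/-- Smooth `H¹`. -/
abbrev H1 : Type := ↥(Z1 r 𝓛 A) ⧸ (B1 r 𝓛 A).comap (Z1 r 𝓛 A).subtype

/-- Smooth `H²` (for `r = id`, `𝓛 = unr S` this is literally the Prelude's `continuousH2S S A`; for
`𝓛 = all` the Prelude's `continuousH2 r A`). -/
abbrev H2 : Type := ↥(Z2 r 𝓛 A) ⧸ (B2 r 𝓛 A).comap (Z2 r 𝓛 A).subtype

/-- Smooth `H³`. -/
abbrev H3 : Type := ↥(Z3 r 𝓛 A) ⧸ (B3 r 𝓛 A).comap (Z3 r 𝓛 A).subtype

/-- class of a smooth 1-cocycle -/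
abbrev H1π : ↥(Z1 r 𝓛 A) →ₗ[k] H1 r 𝓛 A := Submodule.mkQ _

/-- class of a smooth 2-cocycle -/
abbrev H2π : ↥(Z2 r 𝓛 A) →ₗ[k] H2 r 𝓛 A := Submodule.mkQ _

/-! ### Comparison with the Prelude (all by unfolding) -/

lemma isLC₁_all_iff {G : Type} [Group G] (r : G →* GQ) {X : Type*} (f : G → X) :
    IsLC₁ r LevelClass.all f ↔ IsLevelConstant₁ r f := Iff.rfl

lemma isLC₂_all_iff {G : Type} [Group G] (r : G →* GQ) {X : Type*} (f : G × G → X) :
    IsLC₂ r LevelClass.all f ↔ IsLevelConstant₂ r f := Iff.rfl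

lemma cochains₁_all_eq : cochains₁ r LevelClass.all A = levelCochains₁ r A := rfl

lemma cochains₂_all_eq : cochains₂ r LevelClass.all A = levelCochains₂ r A := rfl

lemma Z2_all_eq : Z2 r LevelClass.all A = levelCocycles₂ r A := rfl

lemma B2_all_eq : B2 r LevelClass.all A = levelCoboundaries₂ r A := rfl

/-- For `𝓛 = all` the smooth `H²` is the Prelude's `continuousH2 r A`, definitionally. -/
example : H2 r LevelClass.all A = continuousH2 r A := rfl

end Sm

end Fermat.Agent.S55lib
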