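/-
S55 library, interface (helper4).  The level class `unr S` of finite subextensions of `ℚ̄/ℚ` unramified
outside `S`, and the comparison of `Sm.H1/H2 id (unr S)` with the Prelude's `continuousH1S/continuousH2S`.
-/
import Mathlib
import Fermat.Agent.S55lib.Iface.Smooth

set_option autoImplicit false
set_option linter.style.haveILetI false

noncomputable section

namespace Fermat.Agent.S55lib

open groupCohomology CategoryTheory ValuationSubring
open scoped Pointwise

section Inertia

variable {K : Type*} {L : Type*} [Field K] [Field L] [Algebra K L]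

/-- `v(x) < 1` in terms of membership. -/
lemma valuation_lt_one_iff_mem (A : ValuationSubring L) (x : L) :
    A.valuation x < 1 ↔ x = 0 ∨ x⁻¹ ∉ A := by
  rcases eq_or_ne x 0 with rfl | hx
  · simp
  · simp only [hx, false_or]
    rw [← A.valuation_le_one_iff, map_inv₀, ← not_le]
    have h0 : A.valuation x ≠ 0 := (A.valuation.ne_zero_iff).2 hx
    rw [not_iff_not]
    exact (inv_le_one₀ (zero_lt_iff.2 h0)).symm

lemma valuation_smul_lt_one_iff (A : ValuationSubring L) (g : L ≃ₐ[K] L) (x : L) :
    (g • A).valuation (g x) < 1 ↔ A.valuation x < 1 := by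
  rw [valuation_lt_one_iff_mem, valuation_lt_one_iff_mem, ← map_inv₀]
  have h1 : g x = 0 ↔ x = 0 := by simp
  have h2 : g x⁻¹ ∈ g • A ↔ x⁻¹ ∈ A := by
    rw [← AlgEquiv.smul_def]
    exact ValuationSubring.smul_mem_pointwise_smul_iff
  rw [h1, h2]

/-- Characterisation of the Prelude's inertia subgroup. -/
lemma mem_inertiaSubgroupIn_iff (A : ValuationSubring L) (σ : L ≃ₐ[K] L) :
    σ ∈ A.inertiaSubgroupIn K ↔ σ • A = A ∧ ∀ x ∈ A, A.valuation (σ x - x) < 1 := by
  constructor
  · intro hσ
    obtain ⟨τ, hτ, rfl⟩ := hσ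
    refine ⟨τ.2, fun x hx => ?_⟩
    have hker : MulSemiringAction.toRingAut (A.decompositionSubgroup K)
        (IsLocalRing.ResidueField A) τ = 1 := hτ
    have h1 : τ • IsLocalRing.residue A ⟨x, hx⟩ = IsLocalRing.residue A ⟨x, hx⟩ :=
      congrArg (fun f => f (IsLocalRing.residue A ⟨x, hx⟩)) hker
    rw [← IsLocalRing.ResidueField.residue_smul] at h1
    have h2 : IsLocalRing.residue A (τ • (⟨x, hx⟩ : A) - ⟨x, hx⟩) = 0 := by
      rw [map_sub, h1, sub_self]
    rw [IsLocalRing.residue_eq_zero_iff] at h2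
    exact (A.valuation_lt_one_iff _).mp h2
  · rintro ⟨hA, h⟩
    refine ⟨⟨σ, hA⟩, ?_, rfl⟩
    change MulSemiringAction.toRingAut (A.decompositionSubgroup K)
        (IsLocalRing.ResidueField A) ⟨σ, hA⟩ = 1
    ext y
    obtain ⟨⟨x, hx⟩, rfl⟩ := IsLocalRing.residue_surjective y
    change (⟨σ, hA⟩ : A.decompositionSubgroup K) • IsLocalRing.residue A ⟨x, hx⟩
      = IsLocalRing.residue A ⟨x, hx⟩
    rw [← IsLocalRing.ResidueField.residue_smul, ← sub_eq_zero, ← map_sub,
      IsLocalRing.residue_eq_zero_iff]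
    exact (A.valuation_lt_one_iff _).mpr (h x hx)

/-- Conjugation of inertia subgroups. -/
lemma conj_mem_inertiaSubgroupIn (A : ValuationSubring L) (g σ : L ≃ₐ[K] L)
    (hσ : σ ∈ A.inertiaSubgroupIn K) : g * σ * g⁻¹ ∈ (g • A).inertiaSubgroupIn K := by
  rw [mem_inertiaSubgroupIn_iff] at hσ ⊢
  obtain ⟨hA, h⟩ := hσ
  refine ⟨?_, fun x hx => ?_⟩
  · rw [mul_smul, mul_smul, inv_smul_smul, hA]
  · obtain ⟨y, hy, rfl⟩ : ∃ y ∈ A, g y = x := by
      refine ⟨g⁻¹ x, ?_, by simp [AlgEquiv.aut_inv]⟩
      have : g⁻¹ • x ∈ A := by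
        rwa [← ValuationSubring.mem_pointwise_smul_iff_inv_smul_mem]
      exact this
    have : (g * σ * g⁻¹) (g y) - g y = g (σ y - y) := by
      simp [AlgEquiv.mul_apply, AlgEquiv.aut_inv]
    rw [this, valuation_smul_lt_one_iff]
    exact h y hy

lemma liesOverPrime_smul (A : ValuationSubring L) (g : L ≃ₐ[K] L) (q : ℕ)
    (hA : A.LiesOverPrime q) : (g • A).LiesOverPrime q := by
  change (g • A).valuation (q : L) < 1
  have : (q : L) = g (q : L) := by simp
  rw [this, valuation_smul_lt_one_iff]
  exact hA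

end Inertia

/-- The Galois closure of `F` inside `ℚ̄`, as the compositum of the conjugates. -/
def galClosure (F : FieldQ) : FieldQ :=
  ⨆ f : GQ, F.map (f : AlgebraicClosure ℚ →ₐ[ℚ] AlgebraicClosure ℚ)

lemma galClosure_eq (F : FieldQ) :
    galClosure F = IntermediateField.normalClosure ℚ F (AlgebraicClosure ℚ) :=
  (IntermediateField.normalClosure_def'' F).symm

lemma le_galClosure (F : FieldQ) : F ≤ galClosure F := by
  rw [galClosure_eq]; exact IntermediateField.le_normalClosure F

instance normal_galClosure (F : FieldQ) : Normal ℚ (galClosure F) := by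
  rw [galClosure_eq]; exact normalClosure.normal ℚ F _

lemma finiteDimensional_galClosure (F : FieldQ) [FiniteDimensional ℚ F] :
    FiniteDimensional ℚ (galClosure F) := by
  rw [galClosure_eq]; exact normalClosure.is_finiteDimensional ℚ F _

/-- the Galois closure of a field unramified outside `S` is unramified outside `S` -/
lemma isUnramifiedOutside_galClosure (S : Finset Nat.Primes) (F : FieldQ)
    (hF : F.IsUnramifiedOutside S) : (galClosure F).IsUnramifiedOutside S := by
  haveI := hF.1
  refine ⟨finiteDimensional_galClosure F, fun q hq A hA σ hσ => ?_⟩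
  rw [IntermediateField.mem_fixingSubgroup_iff]
  intro x hx
  -- it suffices to treat the generators
  have key : ∀ g : GQ, ∀ y ∈ F, σ (g y) = g y := by
    intro g y hy
    -- `g⁻¹ σ g` is in the inertia group of `g⁻¹ • A`
    have h1 : g⁻¹ * σ * g⁻¹⁻¹ ∈ (g⁻¹ • A).inertiaSubgroupIn ℚ :=
      conj_mem_inertiaSubgroupIn A g⁻¹ σ hσ
    rw [inv_inv] at h1
    have h2 := hF.2 q hq (g⁻¹ • A) (liesOverPrime_smul A g⁻¹ q hA) h1
    rw [IntermediateField.mem_fixingSubgroup_iff] at h2
    have h3 := h2 y hy
    have h4 : g ((g⁻¹ * σ * g) y) = g y := by rw [h3]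
    simpa [AlgEquiv.mul_apply, AlgEquiv.aut_inv] using h4
  -- the fixed field of `σ` contains all conjugates of `F`
  have hle : galClosure F ≤ IntermediateField.fixedField (Subgroup.zpowers σ) := by
    refine iSup_le fun g => ?_
    rintro z ⟨y, hy, rfl⟩
    rw [IntermediateField.mem_fixedField_iff]
    rintro τ ⟨n, rfl⟩
    have hfix : σ (g y) = g y := key g y hy
    have hfix' : σ⁻¹ (g y) = g y := by
      rw [AlgEquiv.aut_inv]; exact (AlgEquiv.symm_apply_eq σ).2 hfix.symm
    have hall : ∀ n : ℤ, (σ ^ n) (g y) = g y := by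
      intro n
      induction n using Int.induction_on with
      | zero => simp
      | succ n ih => rw [zpow_add_one, AlgEquiv.mul_apply, hfix]; exact ih
      | pred n ih => rw [zpow_sub_one, AlgEquiv.mul_apply, hfix']; exact ih
    exact hall n
  have := hle hx
  rw [IntermediateField.mem_fixedField_iff] at this
  exact this σ (Subgroup.mem_zpowers σ)

/-- Finite subextensions unramified outside `S`. -/
def LevelClass.unr (S : Finset Nat.Primes) : LevelClass where
  P F := F.IsUnramifiedOutside S
  finite _ h := h.1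
  bot := IntermediateField.isUnramifiedOutside_bot S
  sup _ _ h h' := h.sup h'
  mono _ _ hle h := h.of_le hle
  galoisClosure F h :=
    ⟨galClosure F, isUnramifiedOutside_galClosure S F h, le_galClosure F, normal_galClosure F⟩

namespace Sm

variable (S : Finset Nat.Primes) {k : Type} [CommRing k] (A : Rep k GQ)

lemma isLC₁_unr_iff {X : Type*} (f : GQ → X) :
    IsLC₁ (MonoidHom.id GQ) (LevelClass.unr S) f ↔ IsLevelConstantS₁ S f := Iff.rfl

lemma isLC₂_unr_iff {X : Type*} (f : GQ × GQ → X) :
    IsLC₂ (MonoidHom.id GQ) (LevelClass.unr S) f ↔ IsLevelConstantS₂ S f := Iff.rfl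

lemma cochains₁_unr_eq : cochains₁ (MonoidHom.id GQ) (LevelClass.unr S) A = levelCochainsS₁ S A := rfl

lemma cochains₂_unr_eq : cochains₂ (MonoidHom.id GQ) (LevelClass.unr S) A = levelCochainsS₂ S A := rfl

lemma Z2_unr_eq : Z2 (MonoidHom.id GQ) (LevelClass.unr S) A = levelCocyclesS₂ S A := rfl

lemma B2_unr_eq : B2 (MonoidHom.id GQ) (LevelClass.unr S) A = levelCoboundariesS₂ S A := rfl

/-- For `r = id`, `𝓛 = unr S` the smooth `H²` is the Prelude's `continuousH2S S A`, definitionally. -/
example : H2 (MonoidHom.id GQ) (LevelClass.unr S) A = continuousH2S S A := rfl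

end Sm

end Fermat.Agent.S55lib
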