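/-
S55 library, interface (helper4).  **The global modules `E_S ⊂ J_S ↠ C_S` as `Rep ℤ G_ℚ`**
(decision Δ5: `C_S := J_S/E_S`, exact by definition), all smooth for the level class `unr S`.

* `ES S : Subgroup ℚ̄ˣ` : the `S`-units of `ℚ_S` (elements of some `F` unramified outside `S` which have
  norm `1` at every embedding `ℚ̄ → ℚ̄_q`, `q ∉ S`);
* `JSq S q : Subgroup (G_ℚ → (ℚ̄_q)ˣ)` : functions `f` with `f (r_q(d) g) = d (f g)` (`d ∈ G_q`,
  `r_q` = Prelude `localGaloisToGlobal q`) which are level-constant for `unr S`; `G_ℚ` acts by right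
  translation.  `JSq S q = colim_L J_q(L)` over `L ⊂ ℚ_S` (`Iface/Layers.lean`): `X_q(L) = G_ℚ/U_L` via
  `g ↦ τ_q ∘ g|_L`.
* `JS S := ∀ q : S, JSq S q`, `ESJS S : ES S →* JS S`, `u ↦ (g ↦ τ_q (g u))_q`.
* `ESrep S`, `JSrep S`, `CSrep S : Rep ℤ G_ℚ`, `iES : ESrep S ⟶ JSrep S`, `pCS : JSrep S ⟶ CSrep S` with
  `iES_injective`, `pCS_surjective`, `pCS_eq_zero_iff` (exactness), smoothness of all three.
-/
import Mathlib
import Fermat.Agent.S55lib.Iface.Unr
import Fermat.Agent.S55lib.Iface.Layers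

set_option autoImplicit false
set_option linter.style.haveILetI false

noncomputable section

namespace Fermat.Agent.S55lib

open groupCohomology CategoryTheory

/-- primes are prime (as a `Fact`, for `PadicAlgCl q`, `q : Nat.Primes`) -/
instance factPrimes (q : Nat.Primes) : Fact (q : ℕ).Prime := ⟨q.2⟩

/-! ### Generic: an equivariant injection of multiplicative modules gives a short exact sequence in `Rep ℤ G` -/

section Generic

variable {G E J : Type} [Group G] [CommGroup E] [CommGroup J] [MulDistribMulAction G E]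
  [MulDistribMulAction G J] (i : E →* J) (hi : ∀ (g : G) (x : E), i (g • x) = g • i x)

/-- the `Rep ℤ G`-morphism attached to an equivariant monoid hom -/
def mdRepHom : Rep.ofMulDistribMulAction G E ⟶ Rep.ofMulDistribMulAction G J :=
  Rep.ofHom (LinearMap.intertwiningMap_of_isIntertwiningMap
    (ρ := Representation.ofMulDistribMulAction G E) (σ := Representation.ofMulDistribMulAction G J)
    (f := (MonoidHom.toAdditive i).toIntLinearMap)
    (fun g v => congrArg Additive.ofMul (hi g v.toMul)))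

@[simp] lemma mdRepHom_apply (x : Additive E) :
    (mdRepHom i hi).hom x = Additive.ofMul (i x.toMul) := rfl

/-- the image, as a `G`-stable `ℤ`-submodule -/
def mdRange : Submodule ℤ (Rep.ofMulDistribMulAction G J) :=
  LinearMap.range (mdRepHom i hi).hom.toLinearMap

lemma mem_mdRange_iff (y : Rep.ofMulDistribMulAction G J) :
    y ∈ mdRange i hi ↔ ∃ x : Rep.ofMulDistribMulAction G E, (mdRepHom i hi).hom x = y := Iff.rfl

lemma mdRange_stable (g : G) :
    mdRange i hi ≤ (mdRange i hi).comap ((Rep.ofMulDistribMulAction G J).ρ g) := by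
  rintro _ ⟨x, rfl⟩
  exact ⟨(Rep.ofMulDistribMulAction G E).ρ g x, congrArg Additive.ofMul (hi g x.toMul)⟩

/-- the cokernel representation `J/E` -/
def mdCoker : Rep ℤ G := Rep.quotient (Rep.ofMulDistribMulAction G J) (mdRange i hi) (mdRange_stable i hi)

/-- the projection `J → J/E` -/
def mdProj : Rep.ofMulDistribMulAction G J ⟶ mdCoker i hi :=
  Rep.mkQ (Rep.ofMulDistribMulAction G J) (mdRange i hi) (mdRange_stable i hi)

lemma mdProj_surjective : Function.Surjective (mdProj i hi).hom :=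
  Submodule.mkQ_surjective _

lemma mdProj_eq_zero_iff (y : Rep.ofMulDistribMulAction G J) :
    (mdProj i hi).hom y = 0 ↔ ∃ x : Rep.ofMulDistribMulAction G E, (mdRepHom i hi).hom x = y := by
  change (Submodule.Quotient.mk y : _ ⧸ mdRange i hi) = 0 ↔ _
  rw [Submodule.Quotient.mk_eq_zero]
  rfl

lemma mdRepHom_injective (hinj : Function.Injective i) : Function.Injective (mdRepHom i hi).hom :=
  fun x y h => congrArg Additive.ofMul (hinj (congrArg Additive.toMul h) : x.toMul = y.toMul)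

end Generic

/-! ### Normal levels -/

/-- the fixing subgroup of a normal subfield is stable under conjugation -/
lemma conj_mem_fixingSubgroup (F : FieldQ) [Normal ℚ F] (h s : GQ) (hs : s ∈ F.fixingSubgroup) :
    h * s * h⁻¹ ∈ F.fixingSubgroup := by
  rw [IntermediateField.mem_fixingSubgroup_iff] at hs ⊢
  intro x hx
  have hx' : h⁻¹ x ∈ F := by
    have := (IntermediateField.normal_iff_forall_map_le'.1 ‹Normal ℚ F›) h⁻¹
    exact this ⟨x, hx, rfl⟩
  simp only [AlgEquiv.mul_apply, hs _ hx']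
  simp [AlgEquiv.aut_inv]

/-- every level is contained in a normal level -/
lemma LevelClass.exists_normal (𝓛 : LevelClass) {F : FieldQ} (hF : 𝓛.P F) :
    ∃ F' : FieldQ, 𝓛.P F' ∧ F ≤ F' ∧ Normal ℚ F' := 𝓛.galoisClosure F hF

/-- right translates of level-constant functions on `G_ℚ` are level-constant -/
lemma Sm.IsLC₁.rightTranslate {𝓛 : LevelClass} {X : Type*} {f : GQ → X}
    (hf : Sm.IsLC₁ (MonoidHom.id GQ) 𝓛 f) (h : GQ) :
    Sm.IsLC₁ (MonoidHom.id GQ) 𝓛 (fun g => f (g * h)) := by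
  obtain ⟨F, hF, hc⟩ := hf
  obtain ⟨F', hF', hle, hn⟩ := 𝓛.exists_normal hF
  refine ⟨F', hF', fun g s hs => ?_⟩
  have h1 : h⁻¹ * s * h⁻¹⁻¹ ∈ F'.fixingSubgroup := conj_mem_fixingSubgroup F' h⁻¹ s hs
  rw [inv_inv] at h1
  have h2 : g * s * h = g * h * (h⁻¹ * s * h) := by group
  change f (g * s * h) = f (g * h)
  rw [h2]
  exact hc (g * h) _ (IntermediateField.fixingSubgroup_antitone hle h1)

/-! ### `E_S` -/

variable (S : Finset Nat.Primes)

/-- `u ∈ ℚ̄` is an `S`-unit: norm `1` at every embedding into `ℚ̄_q`, `q ∉ S` -/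
def IsSUnit (u : Qbar) : Prop :=
  ∀ q : Nat.Primes, q ∉ S → ∀ ι : Qbar →ₐ[ℚ] PadicAlgCl (q : ℕ), ‖ι u‖ = 1

/-- `E_S`: the `S`-units of `ℚ_S` -/
def ES : Subgroup Qbarˣ where
  carrier := {u | IsSUnit S (u : Qbar) ∧ ∃ F : FieldQ, F.IsUnramifiedOutside S ∧ (u : Qbar) ∈ F}
  one_mem' := ⟨fun q _ ι => by simp, ⊥, IntermediateField.isUnramifiedOutside_bot S, by simp⟩
  mul_mem' := by
    rintro u v ⟨hu, F, hF, huF⟩ ⟨hv, F', hF', hvF'⟩
    refine ⟨fun q hq ι => ?_, F ⊔ F', hF.sup hF', ?_⟩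
    · simp [hu q hq ι, hv q hq ι]
    · rw [Units.val_mul]
      exact mul_mem ((le_sup_left : F ≤ F ⊔ F') huF) ((le_sup_right : F' ≤ F ⊔ F') hvF')
  inv_mem' := by
    rintro u ⟨hu, F, hF, huF⟩
    refine ⟨fun q hq ι => ?_, F, hF, ?_⟩
    · simp [hu q hq ι]
    · rw [Units.val_inv_eq_inv_val]; exact inv_mem huF

lemma mem_ES_iff (u : Qbarˣ) : u ∈ ES S ↔
    IsSUnit S (u : Qbar) ∧ ∃ F : FieldQ, F.IsUnramifiedOutside S ∧ (u : Qbar) ∈ F := Iff.rfl

/-- conjugates of fields unramified outside `S` are unramified outside `S` -/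
lemma isUnramifiedOutside_map {F : FieldQ} (hF : F.IsUnramifiedOutside S) (g : GQ) :
    (F.map (g : AlgebraicClosure ℚ →ₐ[ℚ] AlgebraicClosure ℚ)).IsUnramifiedOutside S :=
  (isUnramifiedOutside_galClosure S F hF).of_le (le_iSup (fun f : GQ =>
    F.map (f : AlgebraicClosure ℚ →ₐ[ℚ] AlgebraicClosure ℚ)) g)

/-- `G_ℚ` acts on `E_S` -/
instance esAction : MulDistribMulAction GQ (ES S) where
  smul g u := ⟨Units.map (g : Qbar →* Qbar) u.1, by
    obtain ⟨hu, F, hF, huF⟩ := u.2
    refine ⟨fun q hq ι => ?_, F.map (g : AlgebraicClosure ℚ →ₐ[ℚ] AlgebraicClosure ℚ),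
      isUnramifiedOutside_map S hF g, ⟨(u.1 : Qbar), huF, rfl⟩⟩
    exact hu q hq (ι.comp (g : AlgebraicClosure ℚ →ₐ[ℚ] AlgebraicClosure ℚ))⟩
  one_smul u := by ext; rfl
  mul_smul g h u := by ext; rfl
  smul_mul g u v := Subtype.ext (Units.ext (map_mul g _ _))
  smul_one g := Subtype.ext (Units.ext (map_one g))

/-- shortcut instance -/
instance esSMul : SMul GQ (ES S) := (esAction S).toSMul

@[simp] lemma ES.coe_smul (g : GQ) (u : ES S) : (((g • u : ES S) : Qbarˣ) : Qbar) = g (u : Qbarˣ) := rfl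

/-- `E_S` as a `ℤ[G_ℚ]`-module -/
def ESrep : Rep ℤ GQ := Rep.ofMulDistribMulAction GQ (ES S)

/-! ### `J_S` -/

/-- the `q`-component of `J_S` -/
def JSq (q : Nat.Primes) : Subgroup (GQ → (PadicAlgCl (q : ℕ))ˣ) where
  carrier := {f | (∀ (d : GalQq (q : ℕ)) (g : GQ),
      ((f (localGaloisToGlobal (q : ℕ) d * g) : (PadicAlgCl (q : ℕ))ˣ) : PadicAlgCl (q : ℕ)) = d (f g)) ∧
    Sm.IsLC₁ (MonoidHom.id GQ) (LevelClass.unr S) f}
  one_mem' := ⟨fun d g => by simp, Sm.isLC₁_const _ _ 1⟩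
  mul_mem' := by
    rintro f f' ⟨hf, hfc⟩ ⟨hf', hfc'⟩
    refine ⟨fun d g => by simp [hf d g, hf' d g], ?_⟩
    obtain ⟨F, hF, h⟩ := hfc
    obtain ⟨F', hF', h'⟩ := hfc'
    refine ⟨F ⊔ F', (LevelClass.unr S).sup F F' hF hF', fun g s hs => ?_⟩
    simp only [Pi.mul_apply]
    rw [h g s (IntermediateField.fixingSubgroup_antitone le_sup_left hs),
      h' g s (IntermediateField.fixingSubgroup_antitone le_sup_right hs)]
  inv_mem' := by
    rintro f ⟨hf, hfc⟩
    exact ⟨fun d g => by simp [hf d g], hfc.comp (·⁻¹)⟩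

lemma mem_JSq_iff (q : Nat.Primes) (f : GQ → (PadicAlgCl (q : ℕ))ˣ) : f ∈ JSq S q ↔
    (∀ (d : GalQq (q : ℕ)) (g : GQ),
      ((f (localGaloisToGlobal (q : ℕ) d * g) : (PadicAlgCl (q : ℕ))ˣ) : PadicAlgCl (q : ℕ)) = d (f g)) ∧
    Sm.IsLC₁ (MonoidHom.id GQ) (LevelClass.unr S) f := Iff.rfl

/-- `G_ℚ` acts on `J_{S,q}` by right translation -/
instance jsqAction (q : Nat.Primes) : MulDistribMulAction GQ (JSq S q) where
  smul h f := ⟨fun g => f.1 (g * h), fun d g => by
    have := f.2.1 d (g * h)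
    rwa [← mul_assoc] at this, f.2.2.rightTranslate h⟩
  one_smul f := by ext g; simp only [HSMul.hSMul, mul_one]
  mul_smul h h' f := by ext g; simp only [HSMul.hSMul, mul_assoc]
  smul_mul h f f' := by ext g; rfl
  smul_one h := by ext g; rfl

/-- shortcut instance -/
instance jsqSMul (q : Nat.Primes) : SMul GQ (JSq S q) := (jsqAction S q).toSMul

@[simp] lemma JSq.smul_apply (q : Nat.Primes) (h : GQ) (f : JSq S q) (g : GQ) :
    (h • f).1 g = f.1 (g * h) := rfl

/-- `J_S = ∏_{q ∈ S} J_{S,q}` (a `def`, to keep instance search away from the Pi instances) -/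
def JS : Type := ∀ q : S, JSq S q.1

instance jsCommGroup : CommGroup (JS S) :=
  inferInstanceAs (CommGroup (∀ q : S, JSq S q.1))

instance jsAction : MulDistribMulAction GQ (JS S) :=
  Pi.mulDistribMulAction (I := S) (f := fun q => ↥(JSq S q.1)) GQ

/-- shortcut instance -/
instance jsSMul : SMul GQ (JS S) := (jsAction S).toSMul

/-- components -/
def JS.comp (q : S) : JS S →* JSq S q.1 := Pi.evalMonoidHom (fun q : S => ↥(JSq S q.1)) q

@[ext] lemma JS.ext {f f' : JS S} (h : ∀ q : S, JS.comp S q f = JS.comp S q f') : f = f' := funext h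

@[simp] lemma JS.comp_smul (h : GQ) (f : JS S) (q : S) : JS.comp S q (h • f) = h • JS.comp S q f := rfl

/-- build an element of `J_S` from its components -/
def JS.mk (f : ∀ q : S, JSq S q.1) : JS S := f

@[simp] lemma JS.comp_mk (f : ∀ q : S, JSq S q.1) (q : S) : JS.comp S q (JS.mk S f) = f q := rfl

/-- `J_S` as a `ℤ[G_ℚ]`-module -/
def JSrep : Rep ℤ GQ := Rep.ofMulDistribMulAction GQ (JS S)

/-- `E_S → J_S`, `u ↦ (g ↦ τ_q (g u))_q` -/
def ESJS : ES S →* JS S where
  toFun u := JS.mk S fun q => ⟨fun g => Units.map ((padicEmbedding (q.1 : ℕ)).toRingHom.comp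
      (g : Qbar →+* Qbar) : Qbar →* PadicAlgCl (q.1 : ℕ)) u.1, by
    refine ⟨fun d g => ?_, ?_⟩
    · exact padicEmbedding_localGaloisToGlobal (q.1 : ℕ) d (g (u.1 : Qbar))
    · obtain ⟨-, F, hF, huF⟩ := u.2
      refine ⟨F, hF, fun g s hs => ?_⟩
      ext
      have : s (u.1 : Qbar) = (u.1 : Qbar) := (IntermediateField.mem_fixingSubgroup_iff _ s).1 hs _ huF
      simp [AlgEquiv.mul_apply, this]⟩
  map_one' := by
    apply JS.ext S; intro q; ext g
    simp [JS.comp_mk]
  map_mul' u v := by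
    apply JS.ext S; intro q; ext g
    simp [JS.comp_mk]

@[simp] lemma ESJS_apply (u : ES S) (q : S) (g : GQ) :
    (((JS.comp S q (ESJS S u)).1 g : (PadicAlgCl (q.1 : ℕ))ˣ) : PadicAlgCl (q.1 : ℕ)) =
      padicEmbedding (q.1 : ℕ) (g (u : Qbarˣ)) := rfl

lemma ESJS_smul (g : GQ) (u : ES S) : ESJS S (g • u) = g • ESJS S u := by
  apply JS.ext S; intro q
  ext h
  rfl

lemma ESJS_injective (hS : S.Nonempty) : Function.Injective (ESJS S) := by
  intro u v h
  obtain ⟨q, hq⟩ := hS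
  have := congrArg (fun f => ((JS.comp S ⟨q, hq⟩ f).1 1 : (PadicAlgCl (q : ℕ))ˣ)) h
  have h2 : padicEmbedding (q : ℕ) ((1 : GQ) (u : Qbarˣ)) = padicEmbedding (q : ℕ) ((1 : GQ) (v : Qbarˣ)) :=
    congrArg Units.val this
  exact Subtype.ext (Units.ext ((padicEmbedding (q : ℕ)).injective h2))

/-! ### The exact sequence `0 → E_S → J_S → C_S → 0` in `Rep ℤ G_ℚ` -/

/-- `C_S := J_S / E_S` -/
def CSrep : Rep ℤ GQ := mdCoker (ESJS S) (ESJS_smul S)

/-- `E_S → J_S` -/
def iES : ESrep S ⟶ JSrep S := mdRepHom (ESJS S) (ESJS_smul S)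

/-- `J_S → C_S` -/
def pCS : JSrep S ⟶ CSrep S := mdProj (ESJS S) (ESJS_smul S)

lemma iES_injective (hS : S.Nonempty) : Function.Injective (iES S).hom :=
  mdRepHom_injective _ _ (ESJS_injective S hS)

lemma pCS_surjective : Function.Surjective (pCS S).hom := mdProj_surjective _ _

lemma pCS_eq_zero_iff (y : JSrep S) : (pCS S).hom y = 0 ↔ ∃ x : ESrep S, (iES S).hom x = y :=
  mdProj_eq_zero_iff _ _ y

/-! ### Smoothness -/

/-- finite suprema of levels are levels -/
lemma LevelClass.finset_sup (𝓛 : LevelClass) {ι : Type*} (s : Finset ι) (F : ι → FieldQ)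
    (hF : ∀ i ∈ s, 𝓛.P (F i)) : 𝓛.P (s.sup F) := by
  classical
  induction s using Finset.induction_on with
  | empty => exact 𝓛.bot
  | insert a s ha ih =>
    rw [Finset.sup_insert]
    exact 𝓛.sup _ _ (hF a (Finset.mem_insert_self a s))
      (ih fun i hi => hF i (Finset.mem_insert_of_mem hi))

lemma ESrep_isSmooth : Sm.IsSmooth (MonoidHom.id GQ) (LevelClass.unr S) (ESrep S) := by
  intro a
  obtain ⟨-, F, hF, huF⟩ := (Additive.toMul a : ES S).2
  refine ⟨F, hF, fun s hs => ?_⟩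
  have : s ((Additive.toMul a : ES S) : Qbarˣ) = ((Additive.toMul a : ES S) : Qbarˣ) :=
    (IntermediateField.mem_fixingSubgroup_iff _ s).1 hs _ huF
  exact congrArg Additive.ofMul (Subtype.ext (Units.ext this))

lemma JSrep_isSmooth : Sm.IsSmooth (MonoidHom.id GQ) (LevelClass.unr S) (JSrep S) := by
  classical
  intro a
  set f : JS S := Additive.toMul a with hf
  choose F hF hc using fun q : S => (JS.comp S q f).2.2
  refine ⟨Finset.univ.sup F, (LevelClass.unr S).finset_sup _ F (fun q _ => hF q), fun s hs => ?_⟩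
  refine congrArg Additive.ofMul (JS.ext S fun q => ?_)
  ext g
  have hs' : s ∈ (F q).fixingSubgroup :=
    IntermediateField.fixingSubgroup_antitone (Finset.le_sup (f := F) (Finset.mem_univ q)) hs
  exact congrArg Units.val (hc q g s hs')

lemma CSrep_isSmooth : Sm.IsSmooth (MonoidHom.id GQ) (LevelClass.unr S) (CSrep S) := by
  intro a
  obtain ⟨x, rfl⟩ := pCS_surjective S a
  obtain ⟨F, hF, h⟩ := JSrep_isSmooth S x
  refine ⟨F, hF, fun s hs => ?_⟩
  have := (pCS S).hom.isIntertwining' s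
  have h2 := congrArg (fun φ => φ x) this
  simp only [LinearMap.coe_comp, Function.comp_apply] at h2
  exact h2.symm.trans (congrArg (pCS S).hom.toLinearMap (h s hs))

end Fermat.Agent.S55lib
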