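/-
S55 library, interface (helper4).  **Finite levels of `J_S`**: for `L ⊂ ℚ̄` normal over `ℚ` and unramified
outside `S`, the `U_L`-invariants of `JSq S q` (`Iface/Modules`) are the intrinsic semilocal group
`Jq q L` (`Iface/Layers`), compatibly with `G_ℚ → Aut(L)`.
-/
import Mathlib
import Fermat.Agent.S55lib.Iface.Modules

set_option autoImplicit false
set_option linter.style.haveILetI false

noncomputable section

namespace Fermat.Agent.S55lib

variable (L : FieldQ) [Normal ℚ L]

/-- restriction `G_ℚ → Aut(L/ℚ)` -/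
def resL : GQ →* (L ≃ₐ[ℚ] L) := AlgEquiv.restrictNormalHom L

lemma resL_apply (g : GQ) (x : L) : ((resL L g x : L) : Qbar) = g (x : Qbar) :=
  AlgEquiv.restrictNormal_commutes g L x

lemma resL_surjective : Function.Surjective (resL L) :=
  AlgEquiv.restrictNormalHom_surjective (F := ℚ) (K₁ := L) (AlgebraicClosure ℚ)

lemma resL_eq_one_iff (s : GQ) : resL L s = 1 ↔ s ∈ L.fixingSubgroup := by
  rw [IntermediateField.mem_fixingSubgroup_iff]
  constructor
  · intro h x hx
    have := resL_apply L s ⟨x, hx⟩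
    rw [h] at this
    exact this.symm
  · intro h
    ext x
    exact (resL_apply L s x).trans (h x x.2)

variable (q : ℕ) [Fact q.Prime]

/-- the embedding `τ_q ∘ g|_L` of `L` attached to `g ∈ G_ℚ` -/
def embOf (g : GQ) : Emb q L := (Emb.canon q L).comp ((resL L g : L ≃ₐ[ℚ] L) : L →ₐ[ℚ] L)

@[simp] lemma embOf_apply (g : GQ) (x : L) : embOf L q g x = padicEmbedding q (g (x : Qbar)) := by
  change padicEmbedding q ((resL L g x : L) : Qbar) = _
  rw [resL_apply]

lemma embOf_mul (g h : GQ) :
    embOf L q (g * h) = (embOf L q g).comp ((resL L h : L ≃ₐ[ℚ] L) : L →ₐ[ℚ] L) := by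
  ext x
  simp only [embOf_apply, AlgHom.comp_apply, AlgEquiv.mul_apply]
  exact congrArg (fun y => padicEmbedding q (g y)) (resL_apply L h x).symm

lemma embOf_local_mul (d : GalQq q) (g : GQ) :
    embOf L q (localGaloisToGlobal q d * g) = d • embOf L q g := by
  ext x
  simp only [embOf_apply, Emb.smul_apply, AlgEquiv.mul_apply, padicEmbedding_localGaloisToGlobal]

lemma embOf_mul_of_mem (g s : GQ) (hs : s ∈ L.fixingSubgroup) : embOf L q (g * s) = embOf L q g := by
  ext x
  simp only [embOf_apply, AlgEquiv.mul_apply]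
  rw [(IntermediateField.mem_fixingSubgroup_iff _ s).1 hs _ x.2]

lemma embOf_surjective : Function.Surjective (embOf L q) := by
  intro ι
  obtain ⟨γ, rfl⟩ := Emb.exists_aut_canon q L ι
  obtain ⟨g, rfl⟩ := resL_surjective L γ
  exact ⟨g, rfl⟩

lemma embOf_eq_iff (g g' : GQ) : embOf L q g = embOf L q g' ↔ g⁻¹ * g' ∈ L.fixingSubgroup := by
  rw [← resL_eq_one_iff, map_mul, map_inv, inv_mul_eq_one]
  constructor
  · intro h
    ext x
    have := congrArg (fun ι => ι x) h
    simp only [embOf_apply] at this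
    exact ((resL_apply L g x).trans ((padicEmbedding q).injective this)).trans
      (resL_apply L g' x).symm
  · intro h
    rw [embOf, embOf, h]

variable (S : Finset Nat.Primes) (q' : Nat.Primes)

/-- `J_q(L) → J_{S,q}`: functions on `X_q(L) = G_ℚ/U_L` as level-constant functions on `G_ℚ` -/
def JSq.ofLevel (hL : L.IsUnramifiedOutside S) : Jq (q' : ℕ) L →* JSq S q' where
  toFun f := ⟨fun g => f.1 (embOf L (q' : ℕ) g), fun d g =>
      (congrArg (fun ι => ((f.1 ι : (PadicAlgCl (q' : ℕ))ˣ) : PadicAlgCl (q' : ℕ)))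
        (embOf_local_mul L (q' : ℕ) d g)).trans (f.2 d _),
    ⟨L, hL, fun g s hs => congrArg f.1 (embOf_mul_of_mem L (q' : ℕ) g s hs)⟩⟩
  map_one' := by ext g; rfl
  map_mul' f f' := by ext g; rfl

@[simp] lemma JSq.ofLevel_apply (hL : L.IsUnramifiedOutside S) (f : Jq (q' : ℕ) L) (g : GQ) :
    (JSq.ofLevel L S q' hL f).1 g = f.1 (embOf L (q' : ℕ) g) := rfl

lemma JSq.ofLevel_injective (hL : L.IsUnramifiedOutside S) :
    Function.Injective (JSq.ofLevel L S q' hL) := by
  intro f f' h
  ext ι
  obtain ⟨g, rfl⟩ := embOf_surjective L (q' : ℕ) ι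
  exact congrArg Units.val (congrArg (fun F => F.1 g) h)

/-- compatibility of the actions along `G_ℚ → Aut(L)` -/
lemma JSq.ofLevel_smul (hL : L.IsUnramifiedOutside S) (h : GQ) (f : Jq (q' : ℕ) L) :
    JSq.ofLevel L S q' hL (resL L h • f) = h • JSq.ofLevel L S q' hL f := by
  ext g
  simp only [JSq.ofLevel_apply, JSq.smul_apply, Jq.smul_apply, embOf_mul]

/-- the image of `J_q(L)` is the group of `U_L`-invariants of `J_{S,q}` -/
lemma JSq.mem_range_ofLevel_iff (hL : L.IsUnramifiedOutside S) (F : JSq S q') :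
    F ∈ (JSq.ofLevel L S q' hL).range ↔ ∀ s ∈ L.fixingSubgroup, s • F = F := by
  classical
  constructor
  · rintro ⟨f, rfl⟩ s hs
    ext g
    simp only [JSq.smul_apply, JSq.ofLevel_apply, embOf_mul_of_mem L (q' : ℕ) g s hs]
  · intro hF
    -- `F` is right-invariant under `U_L`, hence factors through `embOf`
    have hconst : ∀ g g' : GQ, embOf L (q' : ℕ) g = embOf L (q' : ℕ) g' → F.1 g = F.1 g' := by
      intro g g' h
      have hs := (embOf_eq_iff L (q' : ℕ) g g').1 h
      have := congrArg (fun Φ => Φ.1 g) (hF _ hs)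
      simp only [JSq.smul_apply, mul_inv_cancel_left] at this
      exact this.symm
    have hsurj := embOf_surjective L (q' : ℕ)
    refine ⟨⟨fun ι => F.1 (Function.surjInv hsurj ι), ?_⟩, ?_⟩
    · intro d ι
      have h1 : embOf L (q' : ℕ) (Function.surjInv hsurj (d • ι)) =
          embOf L (q' : ℕ) (localGaloisToGlobal (q' : ℕ) d * Function.surjInv hsurj ι) := by
        rw [Function.surjInv_eq hsurj, embOf_local_mul, Function.surjInv_eq hsurj]
      beta_reduce
      rw [hconst _ _ h1]
      exact F.2.1 d _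
    · ext g
      simp only [JSq.ofLevel_apply]
      exact congrArg Units.val (hconst _ _ (Function.surjInv_eq hsurj _))

omit [Normal ℚ L] in
/-- the `U_L`-invariants of `E_S` are the elements of `E_S` lying in `L` -/
lemma ES.mem_iff_of_invariant (u : ES S) :
    (u : Qbarˣ).1 ∈ L ↔ ∀ s ∈ L.fixingSubgroup, s • u = u := by
  constructor
  · intro hu s hs
    apply Subtype.ext
    apply Units.ext
    exact (IntermediateField.mem_fixingSubgroup_iff _ s).1 hs _ hu
  · intro h
    rw [← InfiniteGalois.fixedField_fixingSubgroup L, IntermediateField.mem_fixedField_iff]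
    intro s hs
    exact congrArg (fun v : ES S => ((v : Qbarˣ) : Qbar)) (h s hs)

end Fermat.Agent.S55lib
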