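/-
S55 library, interface (helper4).  **The ramification bridge**: a number field `L ⊂ ℚ̄` which is unramified
outside `S` in the Prelude's sense (inertia groups of valuation subrings of `ℚ̄`) has local fields
`ℚ_q(ι L)`, `q ∉ S`, with value group `q^ℤ` (`FirstIneq.UnramAt`, helper2).

Route: an automorphism `d` of `ℚ̄_q/ℚ_q` fixing all roots of unity of order prime to `q` acts trivially
on the residue field (Teichmüller representatives exist in the algebraically closed `ℚ̄_q`, no Hensel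
needed); its image in `G_ℚ` lies in the inertia group of `τ_q⁻¹(unit ball)`, hence fixes `L`; so
`ℚ_q(τ_q L) ⊂ Fix(Gal(ℚ̄_q/ℚ_q^{nr})) = ℚ_q^{nr}`, hence `⊂ ℚ_q(ζ_N)` for one `N` prime to `q`,
which is unramified (helper3).
-/
import Mathlib
import Fermat.Agent.S55lib.Iface.ModulesLevel
import Fermat.Agent.S55lib.LocalUnr.UnrExistAmbient
import Fermat.Agent.S55lib.FirstIneq.UnitsLocal
import Fermat.Agent.S55lib.Places.Basic
import Fermat.Agent.S55lib.Recip.LocalBridge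

set_option autoImplicit false
set_option linter.style.haveILetI false

noncomputable section

namespace Fermat.Agent.S55lib

open IntermediateField Polynomial ValuationSubring
open scoped NormedField Valued NNReal

variable (q : ℕ) [Fact q.Prime]

local notation "Ω" => PadicAlgCl q

/-! ### Teichmüller representatives in `ℚ̄_q` -/

/-- a unit `y` of a finite `E/ℚ_q` satisfies `‖y^(Q-1) - 1‖ < 1`, `Q` the residue cardinality -/
lemma norm_pow_card_sub_one_sub_one_lt (E : IntermediateField ℚ_[q] Ω) [FiniteDimensional ℚ_[q] E]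
    (y : E) (hy : ‖y‖ = 1) : ‖y ^ (Nat.card 𝓀[E] - 1) - 1‖ < 1 := by
  haveI := LocalUnr.finite_residue E
  letI := Fintype.ofFinite 𝓀[E]
  let Y : 𝒪[E] := ⟨y, Valued.integer.mem_iff.mpr hy.le⟩
  have hne : IsLocalRing.residue 𝒪[E] Y ≠ 0 := by
    intro h0
    have := (LocalUnr.residue_eq_zero_iff Y).mp h0
    change ‖y‖ < 1 at this
    rw [hy] at this
    exact lt_irrefl _ this
  have h1 : (IsLocalRing.residue 𝒪[E] Y) ^ (Nat.card 𝓀[E] - 1) = 1 := by
    rw [Nat.card_eq_fintype_card]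
    exact FiniteField.pow_card_sub_one_eq_one _ hne
  have key : IsLocalRing.residue 𝒪[E] (Y ^ (Nat.card 𝓀[E] - 1) - 1) = 0 := by
    rw [map_sub, map_pow, h1, map_one, sub_self]
  have := (LocalUnr.residue_eq_zero_iff _).mp key
  exact this

/-- a natural number which is a unit in a subfield `E` is a unit in `ℚ̄_q` (same norm) -/
lemma norm_natCast_coe (E : IntermediateField ℚ_[q] Ω) (n : ℕ) : ‖((n : E) : Ω)‖ = ‖(n : E)‖ := rfl

/-- **Teichmüller representatives**: every unit of `ℚ̄_q` is congruent to a root of unity of order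
prime to `q`. -/
theorem exists_rootOfUnity_norm_sub_lt (y : Ω) (hy : ‖y‖ = 1) :
    ∃ N : ℕ, N ≠ 0 ∧ ‖(N : Ω)‖ = 1 ∧ ∃ ζ : Ω, ζ ^ N = 1 ∧ ‖y - ζ‖ < 1 := by
  classical
  have hint : IsIntegral ℚ_[q] y := Algebra.IsIntegral.isIntegral y
  let E : IntermediateField ℚ_[q] Ω := ℚ_[q]⟮y⟯
  haveI : FiniteDimensional ℚ_[q] E := IntermediateField.adjoin.finiteDimensional hint
  let y' : E := ⟨y, IntermediateField.mem_adjoin_simple_self ℚ_[q] y⟩
  have hy' : ‖y'‖ = 1 := hy
  set N := Nat.card 𝓀[E] - 1 with hN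
  have h2 := LocalUnr.two_le_card_residue (K := E)
  have hN0 : N ≠ 0 := by omega
  have hNunit : ‖(N : Ω)‖ = 1 := by
    have := LocalUnr.norm_natCast_card_pow_sub_one (K := E) 1 Nat.one_pos
    rw [pow_one] at this
    rw [← this]
    have hc : ((N : E) : Ω) = (N : Ω) := by simp
    rw [← hc]
    rfl
  have hlt : ‖y ^ N - 1‖ < 1 := norm_pow_card_sub_one_sub_one_lt q E y' hy'
  refine ⟨N, hN0, hNunit, ?_⟩
  -- factor `X^N - 1` over the algebraically closed `Ω`
  haveI : NeZero N := ⟨hN0⟩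
  obtain ⟨ζ₀, hζ₀⟩ := HasEnoughRootsOfUnity.exists_primitiveRoot Ω N
  have hfac := X_pow_sub_one_eq_prod (Nat.pos_of_ne_zero hN0) hζ₀
  have hev : y ^ N - 1 = ∏ ζ ∈ nthRootsFinset N (1 : Ω), (y - ζ) := by
    have := congrArg (Polynomial.eval y) hfac
    rw [eval_sub, eval_pow, eval_X, eval_one, eval_prod] at this
    rw [this]
    refine Finset.prod_congr rfl (fun ζ _ => ?_)
    rw [eval_sub, eval_X, eval_C]
  -- all factors have norm `≤ 1`; if all were `= 1` the product would have norm `1`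
  by_contra hcon
  push Not at hcon
  have hall : ∀ ζ ∈ nthRootsFinset N (1 : Ω), ‖y - ζ‖ = 1 := by
    intro ζ hζ
    have hζN : ζ ^ N = 1 := (mem_nthRootsFinset (Nat.pos_of_ne_zero hN0) (1 : Ω)).1 hζ
    have hζ1 : ‖ζ‖ = 1 := LocalUnr.norm_eq_one_of_pow_eq_one hN0 hζN
    refine le_antisymm ?_ (hcon ζ hζN)
    calc ‖y - ζ‖ ≤ max ‖y‖ ‖ζ‖ := LocalUnr.norm_sub_le_max' _ _
      _ = 1 := by rw [hy, hζ1, max_self]
  have : ‖y ^ N - 1‖ = 1 := by
    rw [hev, norm_prod]
    exact Finset.prod_eq_one hall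
  rw [this] at hlt
  exact lt_irrefl _ hlt

/-- `d` fixes all roots of unity of order prime to `q` -/
def FixesTame (d : Ω ≃ₐ[ℚ_[q]] Ω) : Prop :=
  ∀ (N : ℕ) (ζ : Ω), N ≠ 0 → ‖(N : Ω)‖ = 1 → ζ ^ N = 1 → d ζ = ζ

/-- an automorphism fixing the tame roots of unity acts trivially on the residue field -/
theorem norm_sub_lt_one_of_fixesTame {d : Ω ≃ₐ[ℚ_[q]] Ω} (hd : FixesTame q d) (y : Ω)
    (hy : ‖y‖ ≤ 1) : ‖d y - y‖ < 1 := by
  rcases lt_or_eq_of_le hy with hlt | heq
  · calc ‖d y - y‖ ≤ max ‖d y‖ ‖y‖ := LocalUnr.norm_sub_le_max' _ _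
      _ < 1 := by rw [Places.norm_algEquiv d y, max_self]; exact hlt
  · obtain ⟨N, hN0, hNu, ζ, hζN, hζ⟩ := exists_rootOfUnity_norm_sub_lt q y heq
    have h1 : d y - y = d (y - ζ) - (y - ζ) := by
      rw [map_sub, hd N ζ hN0 hNu hζN]; ring
    rw [h1]
    calc ‖d (y - ζ) - (y - ζ)‖ ≤ max ‖d (y - ζ)‖ ‖y - ζ‖ := LocalUnr.norm_sub_le_max' _ _
      _ < 1 := by rw [Places.norm_algEquiv d, max_self]; exact hζ

/-! ### The Prelude's inertia group at `padicPlace q` -/

lemma mem_padicPlace_iff_norm {x : Qbar} : x ∈ padicPlace q ↔ ‖padicEmbedding q x‖ ≤ 1 := by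
  rw [mem_padicPlace_iff]
  exact Iff.rfl

/-- `padicPlace q` lies over `q` -/
lemma padicPlace_liesOverPrime : (padicPlace q).LiesOverPrime q := by
  change ((q : ℕ) : Qbar) ∈ (padicPlace q).nonunits
  rw [ValuationSubring.mem_nonunits_iff, valuation_lt_one_iff_mem]
  right
  rw [mem_padicPlace_iff_norm, map_inv₀, map_natCast, norm_inv, not_le]
  have h := Places.norm_natCast_self_lt_one (q := q)
  have h0 : 0 < ‖((q : ℕ) : Ω)‖ := by
    rw [norm_pos_iff]
    exact_mod_cast (Fact.out : q.Prime).ne_zero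
  exact (one_lt_inv₀ h0).2 h

/-- in `padicPlace q`: `v(x) < 1` iff `‖τ_q x‖ < 1` -/
lemma padicPlace_valuation_lt_one_iff (x : Qbar) :
    (padicPlace q).valuation x < 1 ↔ ‖padicEmbedding q x‖ < 1 := by
  rw [valuation_lt_one_iff_mem]
  constructor
  · rintro (rfl | h)
    · rw [map_zero, norm_zero]; exact zero_lt_one
    · rw [mem_padicPlace_iff_norm, map_inv₀, norm_inv, not_le] at h
      by_contra hcon
      rw [not_lt] at hcon
      have h0 : 0 < ‖padicEmbedding q x‖ := lt_of_lt_of_le zero_lt_one hcon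
      exact absurd h (not_lt.2 (inv_le_one_of_one_le₀ hcon))
  · intro h
    rcases eq_or_ne x 0 with rfl | hx
    · left; rfl
    · right
      rw [mem_padicPlace_iff_norm, map_inv₀, norm_inv, not_le]
      have h0 : 0 < ‖padicEmbedding q x‖ := by
        rw [norm_pos_iff]
        exact (_root_.map_ne_zero _).2 hx
      exact (one_lt_inv₀ h0).2 h

/-- **local tame-fixing automorphisms land in the Prelude's inertia group** -/
theorem localGaloisToGlobal_mem_inertia {d : Ω ≃ₐ[ℚ_[q]] Ω} (hd : FixesTame q d) :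
    localGaloisToGlobal q d ∈ (padicPlace q).inertiaSubgroupIn ℚ := by
  rw [mem_inertiaSubgroupIn_iff]
  refine ⟨localGaloisToGlobal_mem_decompositionSubgroup q d, fun x hx => ?_⟩
  rw [padicPlace_valuation_lt_one_iff, map_sub, padicEmbedding_localGaloisToGlobal]
  exact norm_sub_lt_one_of_fixesTame q hd _ ((mem_padicPlace_iff_norm q).1 hx)

/-! ### The maximal unramified extension `ℚ_q^{nr} = ℚ_q(μ_{q'})` -/

/-- the roots of unity of order prime to `q` -/
def tameRoots : Set Ω := {ζ | ∃ N : ℕ, N ≠ 0 ∧ ‖(N : Ω)‖ = 1 ∧ ζ ^ N = 1}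

/-- `ℚ_q^{nr}`: generated by the roots of unity of order prime to `q` -/
def nrField : IntermediateField ℚ_[q] Ω := adjoin ℚ_[q] (tameRoots q)

lemma fixesTame_of_mem_fixingSubgroup {d : Ω ≃ₐ[ℚ_[q]] Ω} (hd : d ∈ (nrField q).fixingSubgroup) :
    FixesTame q d := by
  intro N ζ hN0 hNu hζ
  rw [IntermediateField.mem_fixingSubgroup_iff] at hd
  exact hd ζ (subset_adjoin _ _ ⟨N, hN0, hNu, hζ⟩)

/-- a finite set of tame roots of unity lies in one `ℚ_q(ζ_N)`, `N` prime to `q` -/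
lemma exists_primitiveRoot_adjoin_le (T : Finset Ω) (hT : (T : Set Ω) ⊆ tameRoots q) :
    ∃ (N : ℕ) (ζ : Ω), N ≠ 0 ∧ ‖(N : Ω)‖ = 1 ∧ IsPrimitiveRoot ζ N ∧
      adjoin ℚ_[q] (T : Set Ω) ≤ ℚ_[q]⟮ζ⟯ := by
  classical
  choose! ord hord using fun t (ht : t ∈ (T : Set Ω)) => hT ht
  set N := ∏ t ∈ T, ord t with hN
  have hN0 : N ≠ 0 := Finset.prod_ne_zero_iff.2 fun t ht => (hord t ht).1
  have hNu : ‖(N : Ω)‖ = 1 := by
    rw [hN, Nat.cast_prod, norm_prod]
    exact Finset.prod_eq_one fun t ht => (hord t ht).2.1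
  haveI : NeZero N := ⟨hN0⟩
  obtain ⟨ζ, hζ⟩ := HasEnoughRootsOfUnity.exists_primitiveRoot Ω N
  refine ⟨N, ζ, hN0, hNu, hζ, ?_⟩
  rw [adjoin_le_iff]
  intro t ht
  have htN : t ^ N = 1 := by
    obtain ⟨k, hk⟩ := Finset.dvd_prod_of_mem ord ht
    rw [hN, hk, pow_mul, (hord t ht).2.2, one_pow]
  obtain ⟨i, -, rfl⟩ := hζ.eq_pow_of_pow_eq_one htN
  exact pow_mem (mem_adjoin_simple_self ℚ_[q] ζ) i

/-- **`ℚ_q^{nr}` has value group `q^ℤ`** -/
theorem unramAt_nrField : FirstIneq.UnramAt q (nrField q) := by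
  intro y hy hy0
  obtain ⟨T, hT, hyT⟩ := exists_finset_of_mem_adjoin hy
  obtain ⟨N, ζ, hN0, hNu, hζ, hle⟩ := exists_primitiveRoot_adjoin_le q T hT
  have hNu' : ‖((N : ℕ) : ℚ_[q])‖ = 1 := by
    have h : ((N : ℚ_[q]) : Ω) = (N : Ω) := map_natCast (algebraMap ℚ_[q] Ω) N
    rw [← hNu, ← h, PadicAlgCl.norm_extends]
  obtain ⟨hfd, hgal, hprop, hunr⟩ :=
    LocalUnr.adjoin_primitiveRoot_isUnramified_of_unit (K := ℚ_[q]) hN0 hNu' hζ
  exact FirstIneq.unramAt_of_isUnramified (q := q) (ℚ_[q]⟮ζ⟯) hunr y (hle hyT) hy0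

lemma FirstIneq.UnramAt.mono {E E' : IntermediateField ℚ_[q] Ω} (h : FirstIneq.UnramAt q E')
    (hle : E ≤ E') : FirstIneq.UnramAt q E := fun y hy hy0 => h y (hle hy) hy0

/-! ### The bridge -/

variable {q}

/-- an automorphism fixing a set pointwise fixes the field it generates -/
lemma apply_eq_of_mem_adjoin {T : Set Ω} {d : Ω ≃ₐ[ℚ_[q]] Ω} (hd : ∀ t ∈ T, d t = t) {y : Ω}
    (hy : y ∈ adjoin ℚ_[q] T) : d y = y := by
  have hle : adjoin ℚ_[q] T ≤ IntermediateField.fixedField (Subgroup.zpowers d) := by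
    rw [adjoin_le_iff]
    intro t ht
    rintro ⟨τ, hτ⟩
    obtain ⟨k, rfl⟩ := Subgroup.mem_zpowers_iff.mp hτ
    change (d ^ k) t = t
    have h1 : d ∈ MulAction.stabilizer (Ω ≃ₐ[ℚ_[q]] Ω) t := MulAction.mem_stabilizer_iff.mpr (hd t ht)
    exact MulAction.mem_stabilizer_iff.mp (Subgroup.zpow_mem _ h1 k)
  exact hle hy ⟨d, Subgroup.mem_zpowers d⟩

variable (S : Finset Nat.Primes)

/-- **the local field of a field unramified at `q` (Prelude sense) lies in `ℚ_q^{nr}`** (canonical embedding) -/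
theorem localField_canon_le_nrField (L : FieldQ) (hL : L.IsUnramifiedOutside S) (q : Nat.Primes)
    (hq : q ∉ S) : localField (q : ℕ) L (Emb.canon (q : ℕ) L) ≤ nrField (q : ℕ) := by
  intro y hy
  rw [← InfiniteGalois.fixedField_fixingSubgroup (nrField (q : ℕ)),
    IntermediateField.mem_fixedField_iff]
  intro d hd
  have hin := localGaloisToGlobal_mem_inertia (q : ℕ) (fixesTame_of_mem_fixingSubgroup (q : ℕ) hd)
  have hfix := hL.2 q hq (padicPlace (q : ℕ)) (padicPlace_liesOverPrime (q : ℕ)) hin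
  rw [IntermediateField.mem_fixingSubgroup_iff] at hfix
  refine apply_eq_of_mem_adjoin (T := Set.range (Emb.canon (q : ℕ) L)) ?_ hy
  rintro _ ⟨x, rfl⟩
  rw [Emb.canon_apply, ← padicEmbedding_localGaloisToGlobal, hfix _ x.2]

/-- **Ram-bridge**: for `L` normal over `ℚ` and unramified outside `S` (Prelude sense), every local field
`ℚ_q(ι L)`, `q ∉ S`, has value group `q^ℤ`. -/
theorem unramAt_localField (L : FieldQ) [Normal ℚ L] (hL : L.IsUnramifiedOutside S) (q : Nat.Primes)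
    (hq : q ∉ S) (ι : Emb (q : ℕ) L) : FirstIneq.UnramAt (q : ℕ) (localField (q : ℕ) L ι) := by
  obtain ⟨γ, rfl⟩ := Emb.exists_aut_canon (q : ℕ) L ι
  rw [Recip.localField_comp_aut]
  exact (unramAt_nrField (q : ℕ)).mono (q : ℕ) (localField_canon_le_nrField S L hL q hq)

end Fermat.Agent.S55lib
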