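/-
S55 library, interface (helper4).  **The intrinsic semilocal model** (binding currency (c3)/(c4) of the
sprint, decision D1).

For a field `M` algebraic over `ℚ` (in practice a number field) and a prime `q`:
* `Emb q M := M →ₐ[ℚ] PadicAlgCl q`, the finite set of embeddings of `M` into `ℚ̄_q`;
* `GalQq q := PadicAlgCl q ≃ₐ[ℚ_[q]] PadicAlgCl q` (the Prelude's local Galois group) acts on it by
  post-composition; the orbits are the places of `M` above `q`;
* `Jq q M` := the `G_q`-equivariant functions `Emb q M → (PadicAlgCl q)ˣ`  (`≅ ∏_{w ∣ q} M_w^×`);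
  `(M ≃ₐ[ℚ] M)` acts on it by pre-composition; `Uq q M` the units, `diag : Mˣ →* Jq q M`;
* for `φ : F →ₐ[ℚ] M`: restriction `Emb.res`, `Jq.incl φ : Jq q F →* Jq q M`, `Jq.norm φ`.
-/
import Mathlib
import Fermat.Prelude.Def_GaloisRep_CompletionBridge

set_option autoImplicit false
set_option linter.style.haveILetI false

noncomputable section

namespace Fermat.Agent.S55lib

variable (q : ℕ) [Fact q.Prime]

/-- the local absolute Galois group `G_q = Gal(ℚ̄_q/ℚ_q)` -/
abbrev GalQq : Type := PadicAlgCl q ≃ₐ[ℚ_[q]] PadicAlgCl q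

instance towerQQqPadic : IsScalarTower ℚ ℚ_[q] (PadicAlgCl q) :=
  IsScalarTower.of_algebraMap_eq' (Subsingleton.elim _ _)

instance isGaloisPadicAlgCl : IsGalois ℚ_[q] (PadicAlgCl q) where
  to_isSeparable := inferInstance
  to_normal := IsAlgClosure.normal ℚ_[q] (PadicAlgCl q)

/-- an element of `G_q` as a `ℚ`-algebra automorphism -/
def GalQq.toQ : GalQq q →* (PadicAlgCl q ≃ₐ[ℚ] PadicAlgCl q) :=
  MonoidHom.mk' (fun d => d.restrictScalars ℚ) (fun _ _ => rfl)

@[simp] lemma GalQq.toQ_apply (d : GalQq q) (x : PadicAlgCl q) : GalQq.toQ q d x = d x := rfl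

variable (M : Type*) [Field M] [Algebra ℚ M]

/-- embeddings of `M` into `ℚ̄_q` -/
abbrev Emb : Type _ := M →ₐ[ℚ] PadicAlgCl q

/-- `G_q` acts on the embeddings by post-composition -/
instance embMulAction : MulAction (GalQq q) (Emb q M) where
  smul d ι := ((GalQq.toQ q d : PadicAlgCl q ≃ₐ[ℚ] PadicAlgCl q) : PadicAlgCl q →ₐ[ℚ] PadicAlgCl q).comp ι
  one_smul ι := by ext x; rfl
  mul_smul d d' ι := by ext x; rfl

variable {q M}

@[simp] lemma Emb.smul_apply (d : GalQq q) (ι : Emb q M) (x : M) : (d • ι) x = d (ι x) := rfl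

variable (q M)

/-- the local field `ℚ_q(ι M) ⊂ ℚ̄_q` at the embedding `ι` -/
def localField (ι : Emb q M) : IntermediateField ℚ_[q] (PadicAlgCl q) :=
  IntermediateField.adjoin ℚ_[q] (Set.range ι)

variable {q M}

lemma Emb.smul_eq_self_iff (d : GalQq q) (ι : Emb q M) :
    d • ι = ι ↔ d ∈ (localField q M ι).fixingSubgroup := by
  rw [localField, IntermediateField.mem_fixingSubgroup_iff]
  constructor
  · intro h x hx
    -- the fixed field of `d` contains `ι M`
    have hle : IntermediateField.adjoin ℚ_[q] (Set.range ι) ≤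
        IntermediateField.fixedField (Subgroup.zpowers d) := by
      rw [IntermediateField.adjoin_le_iff]
      rintro _ ⟨y, rfl⟩
      rw [SetLike.mem_coe, IntermediateField.mem_fixedField_iff]
      rintro τ ⟨n, rfl⟩
      have hfix : d (ι y) = ι y := by rw [← Emb.smul_apply, h]
      have hfix' : d⁻¹ (ι y) = ι y := by
        rw [AlgEquiv.aut_inv]; exact (AlgEquiv.symm_apply_eq d).2 hfix.symm
      have hall : ∀ n : ℤ, (d ^ n) (ι y) = ι y := by
        intro n
        induction n using Int.induction_on with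
        | zero => simp
        | succ n ih => rw [zpow_add_one, AlgEquiv.mul_apply, hfix]; exact ih
        | pred n ih => rw [zpow_sub_one, AlgEquiv.mul_apply, hfix']; exact ih
      exact hall n
    have := hle hx
    rw [IntermediateField.mem_fixedField_iff] at this
    exact this d (Subgroup.mem_zpowers d)
  · intro h
    ext x
    exact h (ι x) (IntermediateField.subset_adjoin _ _ ⟨x, rfl⟩)

variable (q M)

/-- The semilocal multiplicative group `J_q(M) ≅ ∏_{w ∣ q} M_w^×`: `G_q`-equivariant functions on the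
embeddings. -/
def Jq : Subgroup (Emb q M → (PadicAlgCl q)ˣ) where
  carrier := {f | ∀ (d : GalQq q) (ι : Emb q M), ((f (d • ι) : (PadicAlgCl q)ˣ) : PadicAlgCl q) = d (f ι)}
  one_mem' := fun d ι => by simp
  mul_mem' := fun {f g} hf hg d ι => by simp [hf d ι, hg d ι]
  inv_mem' := fun {f} hf d ι => by simp [hf d ι]

variable {q M}

lemma mem_Jq_iff (f : Emb q M → (PadicAlgCl q)ˣ) :
    f ∈ Jq q M ↔ ∀ (d : GalQq q) (ι : Emb q M), ((f (d • ι) : (PadicAlgCl q)ˣ) : PadicAlgCl q) = d (f ι) :=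
  Iff.rfl

/-- the values of an equivariant function lie in the local field -/
lemma Jq.val_mem_localField {f : Emb q M → (PadicAlgCl q)ˣ} (hf : f ∈ Jq q M) (ι : Emb q M) :
    ((f ι : (PadicAlgCl q)ˣ) : PadicAlgCl q) ∈ localField q M ι := by
  rw [← InfiniteGalois.fixedField_fixingSubgroup (localField q M ι),
    IntermediateField.mem_fixedField_iff]
  intro d hd
  have h := hf d ι
  rw [(Emb.smul_eq_self_iff d ι).2 hd] at h
  exact h.symm

/-! ### The action of `Aut(M)` and the diagonal embedding -/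

/-- `Aut(M/ℚ)` acts on `J_q(M)` by pre-composition: `(γ • f) ι = f (ι ∘ γ)`. -/
instance jqAction : MulDistribMulAction (M ≃ₐ[ℚ] M) (Jq q M) where
  smul γ f := ⟨fun ι => f.1 (ι.comp (γ : M →ₐ[ℚ] M)), fun d ι => f.2 d (ι.comp (γ : M →ₐ[ℚ] M))⟩
  one_smul f := by ext ι; rfl
  mul_smul γ γ' f := by ext ι; rfl
  smul_mul γ f g := by ext ι; rfl
  smul_one γ := by ext ι; rfl

/-- shortcut instance (keeps instance search away from the Pi/Subgroup instances) -/
instance jqSMul : SMul (M ≃ₐ[ℚ] M) (Jq q M) := jqAction.toSMul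

@[simp] lemma Jq.smul_apply (γ : M ≃ₐ[ℚ] M) (f : Jq q M) (ι : Emb q M) :
    (γ • f).1 ι = f.1 (ι.comp (γ : M →ₐ[ℚ] M)) := rfl

variable (q M)

/-- the diagonal embedding `M^× → J_q(M)`, `x ↦ (ι ↦ ι x)` -/
def diag : Mˣ →* Jq q M where
  toFun x := ⟨fun ι => Units.map (ι : M →* PadicAlgCl q) x, fun d ι => rfl⟩
  map_one' := by ext ι; simp
  map_mul' x y := by ext ι; simp

variable {q M}

@[simp] lemma diag_apply (x : Mˣ) (ι : Emb q M) :
    (((diag q M x).1 ι : (PadicAlgCl q)ˣ) : PadicAlgCl q) = ι x := rfl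

lemma diag_injective [Nonempty (Emb q M)] : Function.Injective (diag q M) := by
  intro x y h
  obtain ⟨ι⟩ := ‹Nonempty (Emb q M)›
  have := congrArg (fun f => ((f.1 ι : (PadicAlgCl q)ˣ) : PadicAlgCl q)) h
  simp only [diag_apply] at this
  exact Units.ext (ι.injective this)

/-- the diagonal embedding is `Aut(M)`-equivariant -/
lemma diag_smul (γ : M ≃ₐ[ℚ] M) (x : Mˣ) :
    γ • diag q M x = diag q M (Units.map (γ : M →* M) x) := by
  ext ι; rfl

variable (q M)

/-- the units `U_q(M) ≅ ∏_{w ∣ q} 𝒪_w^×` -/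
def Uq : Subgroup (Jq q M) where
  carrier := {f | ∀ ι : Emb q M, ‖((f.1 ι : (PadicAlgCl q)ˣ) : PadicAlgCl q)‖ = 1}
  one_mem' := fun ι => by simp
  mul_mem' := fun {f g} hf hg ι => by
    simp only [Subgroup.coe_mul, Pi.mul_apply, Units.val_mul, norm_mul, hf ι, hg ι, mul_one]
  inv_mem' := fun {f} hf ι => by
    simp only [InvMemClass.coe_inv, Pi.inv_apply, Units.val_inv_eq_inv_val, norm_inv, hf ι, inv_one]

variable {q M}

lemma mem_Uq_iff (f : Jq q M) :
    f ∈ Uq q M ↔ ∀ ι : Emb q M, ‖((f.1 ι : (PadicAlgCl q)ˣ) : PadicAlgCl q)‖ = 1 := Iff.rfl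

/-- `U_q(M)` is stable under `Aut(M)` -/
lemma smul_mem_Uq (γ : M ≃ₐ[ℚ] M) {f : Jq q M} (hf : f ∈ Uq q M) : γ • f ∈ Uq q M :=
  fun ι => hf (ι.comp (γ : M →ₐ[ℚ] M))

/-! ### Functoriality in the field -/

section Functoriality

variable {F : Type*} [Field F] [Algebra ℚ F] (φ : F →ₐ[ℚ] M)

/-- restriction of embeddings along `φ : F → M` -/
def Emb.res (ι : Emb q M) : Emb q F := ι.comp φ

@[simp] lemma Emb.res_apply (ι : Emb q M) (x : F) : Emb.res φ ι x = ι (φ x) := rfl

lemma Emb.res_smul (d : GalQq q) (ι : Emb q M) : Emb.res φ (d • ι) = d • Emb.res φ ι := rfl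

/-- every embedding of `F` extends to `M` (for `M/F` algebraic) -/
lemma Emb.res_surjective [Algebra.IsAlgebraic ℚ M] : Function.Surjective (Emb.res (q := q) φ) := by
  intro κ
  letI := φ.toRingHom.toAlgebra
  haveI : IsScalarTower ℚ F M := IsScalarTower.of_algebraMap_eq (fun x => (φ.commutes x).symm)
  haveI : Algebra.IsAlgebraic F M := Algebra.IsAlgebraic.tower_top (K := ℚ) F
  obtain ⟨ι, hι⟩ := IsAlgClosed.surjective_domRestrict_of_isAlgebraic (K := ℚ) (L := F)
    (M := PadicAlgCl q) (E := M) κ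
  refine ⟨ι, ?_⟩
  ext x
  have := congrArg (fun g => g x) hι
  exact this

/-- `J_q(F) → J_q(M)`, `f ↦ f ∘ res` -/
def Jq.incl : Jq q F →* Jq q M where
  toFun f := ⟨fun ι => f.1 (Emb.res φ ι), fun d ι => f.2 d (Emb.res φ ι)⟩
  map_one' := by ext ι; rfl
  map_mul' f g := by ext ι; rfl

@[simp] lemma Jq.incl_apply (f : Jq q F) (ι : Emb q M) : (Jq.incl φ f).1 ι = f.1 (Emb.res φ ι) := rfl

lemma Jq.incl_injective [Algebra.IsAlgebraic ℚ M] : Function.Injective (Jq.incl (q := q) φ) := by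
  intro f g h
  ext κ
  obtain ⟨ι, rfl⟩ := Emb.res_surjective (q := q) φ κ
  have := congrArg (fun f => f.1 ι) h
  simpa using congrArg Units.val this

/-- the diagonal embeddings are compatible -/
lemma Jq.incl_diag (x : Fˣ) : Jq.incl φ (diag q F x) = diag q M (Units.map (φ : F →* M) x) := by
  ext ι; rfl

lemma Jq.incl_mem_Uq {f : Jq q F} (hf : f ∈ Uq q F) : Jq.incl φ f ∈ Uq q M :=
  fun ι => hf (Emb.res φ ι)

/-! ### Norm -/

section Norm
variable [FiniteDimensional ℚ M]

open Classical in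
/-- the norm `J_q(M) → J_q(F)`, `(N f)(κ) = ∏_{ι ∣ κ} f(ι)` -/
def Jq.norm : Jq q M →* Jq q F where
  toFun f := ⟨fun κ => ∏ ι ∈ Finset.univ.filter (fun ι : Emb q M => Emb.res φ ι = κ), f.1 ι, by
    intro d κ
    have hbij : ∏ ι ∈ Finset.univ.filter (fun ι : Emb q M => Emb.res φ ι = d • κ), f.1 ι =
        ∏ ι ∈ Finset.univ.filter (fun ι : Emb q M => Emb.res φ ι = κ), f.1 (d • ι) := by
      refine (Finset.prod_bij' (fun ι _ => d • ι) (fun ι _ => d⁻¹ • ι) ?_ ?_ ?_ ?_ ?_).symm
      · intro ι hι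
        simp only [Finset.mem_filter, Finset.mem_univ, true_and] at hι ⊢
        rw [Emb.res_smul, hι]
      · intro ι hι
        simp only [Finset.mem_filter, Finset.mem_univ, true_and] at hι ⊢
        rw [Emb.res_smul, hι, inv_smul_smul]
      · intro ι _; exact inv_smul_smul d ι
      · intro ι _; exact smul_inv_smul d ι
      · intro ι _; rfl
    beta_reduce
    rw [hbij, Units.coe_prod, Units.coe_prod, map_prod]
    exact Finset.prod_congr rfl fun ι _ => f.2 d ι⟩
  map_one' := by ext κ; simp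
  map_mul' f g := by
    ext κ
    simp [Finset.prod_mul_distrib]

open Classical in
lemma Jq.norm_apply (f : Jq q M) (κ : Emb q F) :
    (Jq.norm φ f).1 κ = ∏ ι ∈ Finset.univ.filter (fun ι : Emb q M => Emb.res φ ι = κ), f.1 ι := rfl

end Norm

/-! ### Galois extensions: transitivity on the fibres, invariants -/

section Galois
variable (F) [Algebra F M] [IsScalarTower ℚ F M]

/-- `Aut(M/F) → Aut(M/ℚ)` -/
def autToQ : (M ≃ₐ[F] M) →* (M ≃ₐ[ℚ] M) :=
  MonoidHom.mk' (fun γ => γ.restrictScalars ℚ) (fun _ _ => rfl)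

@[simp] lemma autToQ_apply (γ : M ≃ₐ[F] M) (x : M) : autToQ F γ x = γ x := rfl

variable {F}

/-- two embeddings of `M` with the same restriction to `F` differ by an element of `Aut(M/F)`
(`M/F` normal) -/
lemma Emb.exists_aut_of_res_eq [Normal F M] (ι₁ ι₂ : Emb q M)
    (h : Emb.res (IsScalarTower.toAlgHom ℚ F M) ι₁ = Emb.res (IsScalarTower.toAlgHom ℚ F M) ι₂) :
    ∃ γ : M ≃ₐ[F] M, ι₂ = ι₁.comp ((autToQ F γ : M ≃ₐ[ℚ] M) : M →ₐ[ℚ] M) := by
  letI algM : Algebra M (PadicAlgCl q) := ι₁.toRingHom.toAlgebra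
  letI algF : Algebra F (PadicAlgCl q) := (ι₁.toRingHom.comp (algebraMap F M)).toAlgebra
  haveI : IsScalarTower F M (PadicAlgCl q) := IsScalarTower.of_algebraMap_eq (fun _ => rfl)
  -- `ι₂` is an `F`-algebra map
  let σ : M →ₐ[F] PadicAlgCl q :=
    { ι₂.toRingHom with
      commutes' := fun x => by
        have := congrArg (fun g => g x) h
        simp only [Emb.res_apply, IsScalarTower.coe_toAlgHom'] at this
        exact this.symm }
  refine ⟨Normal.algHomEquivAut F (PadicAlgCl q) M σ, ?_⟩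
  have hleft := (Normal.algHomEquivAut F (PadicAlgCl q) M).left_inv σ
  ext x
  have := congrArg (fun g => g x) hleft
  exact this.symm

/-- an `Aut(M/F)`-invariant element of `J_q(M)` comes from `J_q(F)` (`M/F` normal and algebraic) -/
lemma Jq.exists_incl_eq_of_invariant [Normal F M] [Algebra.IsAlgebraic ℚ M] (f : Jq q M)
    (hf : ∀ γ : M ≃ₐ[F] M, autToQ F γ • f = f) :
    ∃ f' : Jq q F, Jq.incl (IsScalarTower.toAlgHom ℚ F M) f' = f := by
  classical
  set φ := IsScalarTower.toAlgHom ℚ F M with hφ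
  have hsurj := Emb.res_surjective (q := q) φ
  -- `f` is constant on the fibres of `res`
  have hconst : ∀ ι₁ ι₂ : Emb q M, Emb.res φ ι₁ = Emb.res φ ι₂ → f.1 ι₁ = f.1 ι₂ := by
    intro ι₁ ι₂ h
    obtain ⟨γ, rfl⟩ := Emb.exists_aut_of_res_eq ι₁ ι₂ h
    have := congrArg (fun g => g.1 ι₁) (hf γ)
    simpa using this.symm
  refine ⟨⟨fun κ => f.1 (Function.surjInv hsurj κ), ?_⟩, ?_⟩
  · intro d κ
    have h1 : Emb.res φ (Function.surjInv hsurj (d • κ)) = Emb.res φ (d • Function.surjInv hsurj κ) := by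
      rw [Function.surjInv_eq hsurj, Emb.res_smul, Function.surjInv_eq hsurj]
    beta_reduce
    rw [hconst _ _ h1]
    exact f.2 d _
  · ext ι
    simp only [Jq.incl_apply]
    exact congrArg Units.val (hconst _ _ (Function.surjInv_eq hsurj _))

/-- elements of `J_q(F)` are `Aut(M/F)`-invariant in `J_q(M)` -/
lemma Jq.smul_incl (γ : M ≃ₐ[F] M) (f' : Jq q F) :
    autToQ F γ • Jq.incl (IsScalarTower.toAlgHom ℚ F M) f' = Jq.incl (IsScalarTower.toAlgHom ℚ F M) f' := by
  ext ι
  simp only [Jq.smul_apply, Jq.incl_apply]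
  have : Emb.res (IsScalarTower.toAlgHom ℚ F M)
      (ι.comp ((autToQ F γ : M ≃ₐ[ℚ] M) : M →ₐ[ℚ] M)) = Emb.res (IsScalarTower.toAlgHom ℚ F M) ι := by
    ext x
    simp [Emb.res_apply]
  rw [this]

end Galois

end Functoriality

/-! ### Subfields of `ℚ̄`: the canonical embedding given by the Prelude's `padicEmbedding q` -/

section Canonical

variable (q)
variable (L : IntermediateField ℚ (AlgebraicClosure ℚ))

/-- the canonical embedding `L ⊂ ℚ̄ → ℚ̄_q` (the Prelude's place of `ℚ̄` above `q`) -/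
def Emb.canon : Emb q L := (padicEmbedding q).comp L.val

@[simp] lemma Emb.canon_apply (x : L) : Emb.canon q L x = padicEmbedding q (x : AlgebraicClosure ℚ) := rfl

/-- `G_q` acts on the canonical embedding through `localGaloisToGlobal` -/
lemma Emb.smul_canon [Normal ℚ L] (d : GalQq q) :
    d • Emb.canon q L = (Emb.canon q L).comp
      ((AlgEquiv.restrictNormalHom L (localGaloisToGlobal q d) : L ≃ₐ[ℚ] L) : L →ₐ[ℚ] L) := by
  ext x
  change d (padicEmbedding q (x : AlgebraicClosure ℚ)) = padicEmbedding q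
    ((AlgEquiv.restrictNormalHom L (localGaloisToGlobal q d) x : L) : AlgebraicClosure ℚ)
  have h : ((AlgEquiv.restrictNormalHom L (localGaloisToGlobal q d) x : L) : AlgebraicClosure ℚ) =
      localGaloisToGlobal q d x := AlgEquiv.restrictNormal_commutes (localGaloisToGlobal q d) L x
  exact ((congrArg (padicEmbedding q) h).trans (padicEmbedding_localGaloisToGlobal q d x)).symm

/-- every embedding of a normal `L` is the canonical one composed with an automorphism -/
lemma Emb.exists_aut_canon [Normal ℚ L] (ι : Emb q L) :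
    ∃ γ : L ≃ₐ[ℚ] L, ι = (Emb.canon q L).comp (γ : L →ₐ[ℚ] L) := by
  obtain ⟨γ, hγ⟩ := Emb.exists_aut_of_res_eq (F := ℚ) (Emb.canon q L) ι (Subsingleton.elim _ _)
  refine ⟨γ, ?_⟩
  rw [hγ]
  rfl

end Canonical

end Fermat.Agent.S55lib
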