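/-
S55 library, interface (helper4).  Restriction maps for smooth cohomology, the comparison map
`Sm.H1 → H¹` (Mathlib's abstract `H¹`), and the agreement with the Prelude's `locRes₂S`, `locRes`.
-/
import Mathlib
import Fermat.Agent.S55lib.Iface.Unr

set_option autoImplicit false
set_option linter.style.haveILetI false

noncomputable section

namespace Fermat.Agent.S55lib

open groupCohomology CategoryTheory

namespace Sm

variable {G G' : Type} [Group G] [Group G'] (f : G' →* G)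
  {r : G →* GQ} {r' : G' →* GQ} (hf : ∀ g, r (f g) = r' g)
  {𝓛 𝓛' : LevelClass} (h𝓛 : ∀ F, 𝓛.P F → 𝓛'.P F)

section precomp
include hf h𝓛

lemma IsLC₁.precomp {X : Type*} {x : G → X} (hx : IsLC₁ r 𝓛 x) : IsLC₁ r' 𝓛' (x ∘ f) := by
  obtain ⟨F, hF, h⟩ := hx
  refine ⟨F, h𝓛 F hF, fun g s hs => ?_⟩
  simp only [Function.comp_apply, map_mul]
  exact h (f g) (f s) (by rwa [hf])

lemma IsLC₂.precomp {X : Type*} {x : G × G → X} (hx : IsLC₂ r 𝓛 x) :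
    IsLC₂ r' 𝓛' (x ∘ Prod.map f f) := by
  obtain ⟨F, hF, h⟩ := hx
  refine ⟨F, h𝓛 F hF, fun g g' s s' hs hs' => ?_⟩
  simp only [Function.comp_apply, Prod.map_apply, map_mul]
  exact h (f g) (f g') (f s) (f s') (by rwa [hf]) (by rwa [hf])

end precomp

variable {k : Type} [CommRing k] (A : Rep k G)

/-- restriction of 1-cochains along `f` -/
def pull₁ : (G → A) →ₗ[k] (G' → Rep.res f A) where
  toFun x := x ∘ f
  map_add' _ _ := rfl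
  map_smul' _ _ := rfl

/-- restriction of 2-cochains along `f` -/
def pull₂ : (G × G → A) →ₗ[k] (G' × G' → Rep.res f A) where
  toFun x := x ∘ Prod.map f f
  map_add' _ _ := rfl
  map_smul' _ _ := rfl

@[simp] lemma pull₁_apply (x : G → A) (g : G') : pull₁ f A x g = x (f g) := rfl
@[simp] lemma pull₂_apply (x : G × G → A) (g : G' × G') : pull₂ f A x g = x (f g.1, f g.2) := rfl

lemma pull₁_d₀₁ (a : A) : pull₁ f A ((d₀₁ A).hom a) = (d₀₁ (Rep.res f A)).hom a := by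
  ext g; rfl

lemma pull₂_d₁₂ (x : G → A) : pull₂ f A ((d₁₂ A).hom x) = (d₁₂ (Rep.res f A)).hom (pull₁ f A x) := by
  ext ⟨g, g'⟩
  simp [d₁₂_hom_apply, map_mul]

lemma pull₁_mem_cocycles₁ {x : G → A} (hx : x ∈ cocycles₁ A) :
    pull₁ f A x ∈ cocycles₁ (Rep.res f A) := by
  rw [mem_cocycles₁_iff] at hx ⊢
  intro g h
  simp only [pull₁_apply, map_mul, hx]
  rfl

lemma pull₁_mem_coboundaries₁ {x : G → A} (hx : x ∈ coboundaries₁ A) :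
    pull₁ f A x ∈ coboundaries₁ (Rep.res f A) := by
  obtain ⟨a, rfl⟩ := hx
  exact ⟨a, (pull₁_d₀₁ f A a).symm⟩

lemma pull₂_mem_cocycles₂ {x : G × G → A} (hx : x ∈ cocycles₂ A) :
    pull₂ f A x ∈ cocycles₂ (Rep.res f A) := by
  rw [mem_cocycles₂_iff] at hx ⊢
  intro g h j
  simp only [pull₂_apply, map_mul]
  exact hx (f g) (f h) (f j)

section
include hf h𝓛

lemma pull₁_mem_Z1 {x : G → A} (hx : x ∈ Z1 r 𝓛 A) : pull₁ f A x ∈ Z1 r' 𝓛' (Rep.res f A) :=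
  ⟨pull₁_mem_cocycles₁ f A hx.1, IsLC₁.precomp f hf h𝓛 hx.2⟩

lemma pull₁_mem_B1 {x : G → A} (hx : x ∈ B1 r 𝓛 A) : pull₁ f A x ∈ B1 r' 𝓛' (Rep.res f A) :=
  ⟨pull₁_mem_coboundaries₁ f A hx.1, IsLC₁.precomp f hf h𝓛 hx.2⟩

lemma pull₂_mem_Z2 {x : G × G → A} (hx : x ∈ Z2 r 𝓛 A) : pull₂ f A x ∈ Z2 r' 𝓛' (Rep.res f A) :=
  ⟨pull₂_mem_cocycles₂ f A hx.1, IsLC₂.precomp f hf h𝓛 hx.2⟩

lemma pull₂_mem_B2 {x : G × G → A} (hx : x ∈ B2 r 𝓛 A) : pull₂ f A x ∈ B2 r' 𝓛' (Rep.res f A) := by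
  obtain ⟨y, hy, rfl⟩ := (mem_B2_iff r 𝓛 A x).1 hx
  exact (mem_B2_iff r' 𝓛' _ _).2 ⟨pull₁ f A y, IsLC₁.precomp f hf h𝓛 hy, (pull₂_d₁₂ f A y).symm⟩

end

/-- restriction on smooth 1-cocycles -/
def resZ1 : ↥(Z1 r 𝓛 A) →ₗ[k] ↥(Z1 r' 𝓛' (Rep.res f A)) :=
  (pull₁ f A).restrict fun _ hx => pull₁_mem_Z1 f hf h𝓛 A hx

/-- restriction on smooth 2-cocycles -/
def resZ2 : ↥(Z2 r 𝓛 A) →ₗ[k] ↥(Z2 r' 𝓛' (Rep.res f A)) :=
  (pull₂ f A).restrict fun _ hx => pull₂_mem_Z2 f hf h𝓛 A hx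

/-- restriction on smooth `H¹` -/
def resH1 : H1 r 𝓛 A →ₗ[k] H1 r' 𝓛' (Rep.res f A) :=
  Submodule.mapQ _ _ (resZ1 f hf h𝓛 A) fun _ hx => pull₁_mem_B1 f hf h𝓛 A hx

/-- restriction on smooth `H²` -/
def resH2 : H2 r 𝓛 A →ₗ[k] H2 r' 𝓛' (Rep.res f A) :=
  Submodule.mapQ _ _ (resZ2 f hf h𝓛 A) fun _ hx => pull₂_mem_B2 f hf h𝓛 A hx

@[simp] lemma resH1_mk (x : ↥(Z1 r 𝓛 A)) :
    resH1 f hf h𝓛 A (H1π r 𝓛 A x) = H1π r' 𝓛' _ (resZ1 f hf h𝓛 A x) := rfl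

@[simp] lemma resH2_mk (x : ↥(Z2 r 𝓛 A)) :
    resH2 f hf h𝓛 A (H2π r 𝓛 A x) = H2π r' 𝓛' _ (resZ2 f hf h𝓛 A x) := rfl

/-! ### Comparison with the abstract `H¹` -/

variable (r 𝓛)

/-- smooth 1-cocycles as abstract 1-cocycles -/
def Z1ToCocycles : ↥(Z1 r 𝓛 A) →ₗ[k] ↥(cocycles₁ A) :=
  Submodule.inclusion (inf_le_left : Z1 r 𝓛 A ≤ cocycles₁ A)

/-- the comparison map from smooth `H¹` to Mathlib's `H¹` -/
def H1ToH1 : H1 r 𝓛 A →ₗ[k] groupCohomology.H1 A :=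
  Submodule.liftQ _ ((groupCohomology.H1π A).hom ∘ₗ Z1ToCocycles r 𝓛 A) (fun c hc => by
    rw [LinearMap.mem_ker, LinearMap.comp_apply]
    exact (groupCohomology.H1π_eq_zero_iff _).2 hc.1)

@[simp] lemma H1ToH1_mk (x : ↥(Z1 r 𝓛 A)) :
    H1ToH1 r 𝓛 A (H1π r 𝓛 A x) = (groupCohomology.H1π A).hom (Z1ToCocycles r 𝓛 A x) := rfl

lemma H1ToH1_injective : Function.Injective (H1ToH1 r 𝓛 A) := by
  rw [← LinearMap.ker_eq_bot, LinearMap.ker_eq_bot']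
  intro x hx
  obtain ⟨c, rfl⟩ := Submodule.mkQ_surjective _ x
  rw [Submodule.mkQ_apply] at hx ⊢
  change (groupCohomology.H1π A).hom (Z1ToCocycles r 𝓛 A c) = 0 at hx
  rw [groupCohomology.H1π_eq_zero_iff] at hx
  rw [Submodule.Quotient.mk_eq_zero]
  exact ⟨hx, c.2.2⟩

/-- the image of the comparison map: classes having a level-constant representative -/
lemma mem_range_H1ToH1_iff (x : groupCohomology.H1 A) :
    x ∈ LinearMap.range (H1ToH1 r 𝓛 A) ↔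
      ∃ c : cocycles₁ A, IsLC₁ r 𝓛 (c : G → A) ∧ (groupCohomology.H1π A).hom c = x := by
  constructor
  · rintro ⟨y, rfl⟩
    obtain ⟨c, rfl⟩ := Submodule.mkQ_surjective _ y
    exact ⟨Z1ToCocycles r 𝓛 A c, c.2.2, rfl⟩
  · rintro ⟨c, hc, rfl⟩
    exact ⟨H1π r 𝓛 A ⟨c, c.2, hc⟩, rfl⟩

variable {r 𝓛}

/-- the comparison map commutes with restriction -/
lemma H1ToH1_resH1 (x : H1 r 𝓛 A) :
    H1ToH1 r' 𝓛' (Rep.res f A) (resH1 f hf h𝓛 A x) =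
      (groupCohomology.map f (𝟙 (Rep.res f A)) 1).hom (H1ToH1 r 𝓛 A x) := by
  obtain ⟨c, rfl⟩ := Submodule.mkQ_surjective _ x
  rw [Submodule.mkQ_apply]
  change (groupCohomology.H1π _).hom _ = (groupCohomology.map f (𝟙 (Rep.res f A)) 1).hom ((groupCohomology.H1π A).hom _)
  rw [H1π_comp_map_apply]
  congr 1

end Sm

end Fermat.Agent.S55lib
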