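/-
S55 library, interface (helper4).  **Finite levels of `CSfull S`**: for `L ⊂ ℚ̄` normal over `ℚ` and unramified
outside `S`, the finite idele group `Dev.Idele L` (`Dev/Idele.lean`, helper5) embeds into `JSfull S`
(`Iface/ClassLimit.lean`) with image the `Gal(ℚ̄/L)`-invariants, compatibly with `G_ℚ → Aut(L)`, with the
diagonal embeddings and with the units outside `S`; the induced map
`Dev.ClassGrpS L S → CSfull S` is injective (`S ≠ ∅`).
-/
import Mathlib
import Fermat.Agent.S55lib.Iface.ClassLimit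

set_option autoImplicit false
set_option linter.style.haveILetI false

noncomputable section

namespace Fermat.Agent.S55lib

open IntermediateField

variable (S : Finset Nat.Primes) (L : FieldQ) [Normal ℚ L] (hL : L.IsUnramifiedOutside S)

/-- `I_L → ∏_q J_{S,q}` -/
def ofLevelProd (x : Dev.Idele L) : JSprod S := fun q => JSq.ofLevel L S q hL (x.1 q)

@[simp] lemma ofLevelProd_val (x : Dev.Idele L) (q : Nat.Primes) (g : GQ) :
    (ofLevelProd S L hL x).val S q g =
      (((x.1 q).1 (embOf L (q : ℕ) g) : (PadicAlgCl (q : ℕ))ˣ) : PadicAlgCl (q : ℕ)) := rfl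

lemma ofLevelProd_hasLevel (x : Dev.Idele L) : (ofLevelProd S L hL x).HasLevel S L := by
  intro q g s hs
  rw [ofLevelProd_val, ofLevelProd_val, embOf_mul_of_mem L (q : ℕ) g s hs]

lemma ofLevelProd_isUnitAt_iff (x : Dev.Idele L) (q : Nat.Primes) :
    (ofLevelProd S L hL x).IsUnitAt S q ↔ x.1 q ∈ Uq (q : ℕ) L := by
  rw [mem_Uq_iff]
  constructor
  · intro h ι
    obtain ⟨g, rfl⟩ := embOf_surjective L (q : ℕ) ι
    exact h g
  · intro h g
    exact h _

lemma ofLevelProd_mem (x : Dev.Idele L) : ofLevelProd S L hL x ∈ JSfull S := by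
  refine ⟨⟨L, hL, ofLevelProd_hasLevel S L hL x⟩, x.2.subset ?_⟩
  intro q hq hcon
  exact hq ((ofLevelProd_isUnitAt_iff S L hL x q).2 hcon)

/-- **`I_L → JSfull S`** -/
def ofLevelFull : Dev.Idele L →* JSfull S where
  toFun x := ⟨ofLevelProd S L hL x, ofLevelProd_mem S L hL x⟩
  map_one' := by
    apply Subtype.ext
    apply JSprod.ext S
    intro q g
    rfl
  map_mul' x y := by
    apply Subtype.ext
    apply JSprod.ext S
    intro q g
    rfl

@[simp] lemma ofLevelFull_val (x : Dev.Idele L) (q : Nat.Primes) (g : GQ) :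
    (ofLevelFull S L hL x).1.val S q g =
      (((x.1 q).1 (embOf L (q : ℕ) g) : (PadicAlgCl (q : ℕ))ˣ) : PadicAlgCl (q : ℕ)) := rfl

lemma ofLevelFull_injective : Function.Injective (ofLevelFull S L hL) := by
  intro x y h
  apply Dev.Idele.ext
  intro q
  ext ι
  obtain ⟨g, rfl⟩ := embOf_surjective L (q : ℕ) ι
  exact congrArg (fun z : JSfull S => z.1.val S q g) h

/-- compatibility of the actions along `G_ℚ → Aut(L)` -/
lemma ofLevelFull_smul (h : GQ) (x : Dev.Idele L) :
    ofLevelFull S L hL (resL L h • x) = h • ofLevelFull S L hL x := by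
  apply Subtype.ext
  apply JSprod.ext S
  intro q g
  change _ = (ofLevelFull S L hL x).1.val S q (g * h)
  rw [ofLevelFull_val, ofLevelFull_val, Dev.Idele.smul_apply, Jq.smul_apply, embOf_mul]

/-- the image of `I_L` is the group of `Gal(ℚ̄/L)`-invariants of `JSfull S` -/
lemma mem_range_ofLevelFull_iff (y : JSfull S) :
    y ∈ (ofLevelFull S L hL).range ↔ ∀ s ∈ L.fixingSubgroup, s • y = y := by
  constructor
  · rintro ⟨x, rfl⟩ s hs
    apply Subtype.ext
    apply JSprod.ext S
    intro q g
    change (ofLevelFull S L hL x).1.val S q (g * s) = _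
    rw [ofLevelFull_val, ofLevelFull_val, embOf_mul_of_mem L (q : ℕ) g s hs]
  · intro hy
    have hcomp : ∀ q : Nat.Primes, y.1 q ∈ (JSq.ofLevel L S q hL).range := by
      intro q
      rw [JSq.mem_range_ofLevel_iff]
      intro s hs
      have := congrArg (fun z : JSfull S => z.1 q) (hy s hs)
      exact this
    choose x hx using hcomp
    have hxmem : (fun q => x q) ∈ Dev.Idele (↥L) := by
      rw [Dev.mem_Idele_iff]
      refine y.2.2.subset ?_
      intro q hq hcon
      apply hq
      rw [mem_Uq_iff]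
      intro ι
      obtain ⟨g, rfl⟩ := embOf_surjective L (q : ℕ) ι
      have := hcon g
      unfold JSprod.val at this
      rw [← hx q] at this
      exact this
    refine ⟨⟨fun q => x q, hxmem⟩, ?_⟩
    apply Subtype.ext
    funext q
    exact hx q

/-! ### Diagonal embeddings and units -/

omit [Normal ℚ L] in
/-- `L^× → ℚ_S^×` -/
def unitsToQS : (↥L)ˣ →* QSunits S where
  toFun a := ⟨Units.map (L.val : ↥L →* Qbar) a, ⟨L, hL, (a : ↥L).2⟩⟩
  map_one' := by apply Subtype.ext; exact map_one _
  map_mul' a b := by apply Subtype.ext; exact map_mul _ a b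

omit [Normal ℚ L] in
@[simp] lemma coe_unitsToQS (a : (↥L)ˣ) :
    (((unitsToQS S L hL a : QSunits S) : Qbarˣ) : Qbar) = ((a : ↥L) : Qbar) := rfl

lemma ofLevelFull_diagI (a : (↥L)ˣ) :
    ofLevelFull S L hL (Dev.diagI (↥L) a) = diagFull S (unitsToQS S L hL a) := by
  apply Subtype.ext
  apply JSprod.ext S
  intro q g
  rw [ofLevelFull_val, diagFull_val, Dev.diagI_apply, diag_apply, embOf_apply, coe_unitsToQS]

lemma ofLevelFull_mem_USfull_iff (x : Dev.Idele L) :
    ofLevelFull S L hL x ∈ USfull S ↔ x ∈ Dev.unitsOutside (↥L) (S : Set Nat.Primes) := by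
  rw [mem_USfull_iff, Dev.mem_unitsOutside_iff]
  constructor
  · rintro ⟨h1, h2⟩
    refine ⟨fun q hq => ?_, fun q hq => ?_⟩
    · exact (ofLevelProd_isUnitAt_iff S L hL x q).1 (h2 q (by simpa using hq))
    · ext ι
      obtain ⟨g, rfl⟩ := embOf_surjective L (q : ℕ) ι
      have := h1 q (by simpa using hq) g
      rw [ofLevelFull_val] at this
      exact this
  · rintro ⟨h1, h2⟩
    refine ⟨fun q hq g => ?_, fun q hq => ?_⟩
    · rw [ofLevelFull_val, h2 q (by simpa using hq)]
      rfl
    · exact (ofLevelProd_isUnitAt_iff S L hL x q).2 (h1 q (by simpa using hq))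

/-- a diagonal element which is trivial at a prime is trivial -/
lemma diagFull_eq_one_of_val {u : QSunits S} {q : Nat.Primes}
    (h : (diagFull S u).1.val S q 1 = 1) : u = 1 := by
  rw [diagFull_val] at h
  apply Subtype.ext
  apply Units.ext
  have h1 : padicEmbedding (q : ℕ) ((u : Qbarˣ) : Qbar) = padicEmbedding (q : ℕ) 1 := by
    rw [map_one]; exact h
  exact (padicEmbedding (q : ℕ)).injective h1

/-- `USfull S ∩ diag(ℚ_S^×) = 1` (`S ≠ ∅`) -/
lemma eq_one_of_diagFull_mem_USfull (hS : S.Nonempty) {u : QSunits S}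
    (h : diagFull S u ∈ USfull S) : u = 1 := by
  obtain ⟨q, hq⟩ := hS
  exact diagFull_eq_one_of_val S (h.1 q hq 1)

/-- **descent of the relations**: an idele of level `L` which is a unit outside `S` times a principal
idele of `ℚ_S` is a unit outside `S` times a principal idele of `L`. -/
lemma mem_principalUnits_of_ofLevelFull (hS : S.Nonempty) (x : Dev.Idele L) (v : USfull S)
    (u : QSunits S) (h : ofLevelFull S L hL x = (v : JSfull S) * diagFull S u) :
    x ∈ Dev.principalUnits (↥L) (S : Set Nat.Primes) := by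
  -- `u` and `v` are `Gal(ℚ̄/L)`-invariant
  have hinv : ∀ s ∈ L.fixingSubgroup, s • u = u ∧ s • (v : JSfull S) = v := by
    intro s hs
    have h1 : s • ofLevelFull S L hL x = ofLevelFull S L hL x :=
      (mem_range_ofLevelFull_iff S L hL _).1 ⟨x, rfl⟩ s hs
    rw [h, smul_mul', ← diagFull_smul] at h1
    -- `(s•v)/v = diag (u/(s•u))`
    have h2 : diagFull S (u * (s • u)⁻¹) = (s • (v : JSfull S)) * (v : JSfull S)⁻¹ := by
      rw [map_mul, map_inv]
      have := h1
      rw [eq_comm, ← div_eq_iff_eq_mul'] at this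
      rw [← this]
      rw [div_eq_mul_inv, mul_inv, mul_comm (s • (v : JSfull S)) _]
      group
    have h3 : diagFull S (u * (s • u)⁻¹) ∈ USfull S := by
      rw [h2]
      exact (USfull S).mul_mem (smul_mem_USfull S s v.2) ((USfull S).inv_mem v.2)
    have h4 := eq_one_of_diagFull_mem_USfull S hS h3
    have h5 : s • u = u := (mul_inv_eq_one.1 h4).symm
    refine ⟨h5, ?_⟩
    rw [h5] at h1
    exact mul_right_cancel h1
  -- `u ∈ L`
  have huL : ((u : Qbarˣ) : Qbar) ∈ L := by
    rw [← InfiniteGalois.fixedField_fixingSubgroup L, IntermediateField.mem_fixedField_iff]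
    intro s hs
    exact congrArg (fun w : QSunits S => ((w : Qbarˣ) : Qbar)) (hinv s hs).1
  have hu0 : (⟨(u : Qbarˣ), huL⟩ : ↥L) ≠ 0 := by
    intro h0
    exact Units.ne_zero (u : Qbarˣ) (congrArg Subtype.val h0)
  set a : (↥L)ˣ := Units.mk0 ⟨(u : Qbarˣ), huL⟩ hu0 with ha
  have hau : unitsToQS S L hL a = u := by
    apply Subtype.ext
    apply Units.ext
    rfl
  -- `v` comes from level `L`
  obtain ⟨y, hy⟩ := (mem_range_ofLevelFull_iff S L hL (v : JSfull S)).2 (fun s hs => (hinv s hs).2)
  have hyU : y ∈ Dev.unitsOutside (↥L) (S : Set Nat.Primes) := by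
    rw [← ofLevelFull_mem_USfull_iff S L hL, hy]
    exact v.2
  have hx : x = Dev.diagI (↥L) a * y := by
    apply ofLevelFull_injective S L hL
    rw [map_mul, ofLevelFull_diagI, hau, hy, h, mul_comm]
  rw [hx]
  exact Subgroup.mul_mem_sup ⟨a, rfl⟩ hyU

/-! ### The class map `𝒞_S(L) → CSfull S` -/

/-- `I_L → CSfull S` -/
def ideleToCSfull : Dev.Idele L →* Multiplicative (CSfull S) where
  toFun x := Multiplicative.ofAdd
    ((pCSfull S).hom ((Additive.ofMul (ofLevelFull S L hL x) : Additive (JSfull S)) : JSfullRep S))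
  map_one' := by
    rw [map_one]
    exact congrArg Multiplicative.ofAdd (map_zero (pCSfull S).hom.toLinearMap)
  map_mul' x y := by
    rw [map_mul]
    exact congrArg Multiplicative.ofAdd (map_add (pCSfull S).hom.toLinearMap
      ((Additive.ofMul (ofLevelFull S L hL x) : Additive (JSfull S)) : JSfullRep S)
      ((Additive.ofMul (ofLevelFull S L hL y) : Additive (JSfull S)) : JSfullRep S))

lemma ideleToCSfull_apply (x : Dev.Idele L) :
    (ideleToCSfull S L hL x).toAdd = (pCSfull S).hom (Additive.ofMul (ofLevelFull S L hL x)) := rfl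

lemma ideleToCSfull_eq_one_iff (hS : S.Nonempty) (x : Dev.Idele L) :
    ideleToCSfull S L hL x = 1 ↔ x ∈ Dev.principalUnits (↥L) (S : Set Nat.Primes) := by
  constructor
  · intro h
    have h1 : (pCSfull S).hom (Additive.ofMul (ofLevelFull S L hL x)) = 0 :=
      congrArg Multiplicative.toAdd h
    obtain ⟨v, u, hvu⟩ := (pCSfull_eq_zero_iff S _).1 h1
    exact mem_principalUnits_of_ofLevelFull S L hL hS x v u hvu.symm
  · intro hx
    unfold Dev.principalUnits at hx
    rw [Subgroup.mem_sup] at hx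
    obtain ⟨y, ⟨a, rfl⟩, z, hz, rfl⟩ := hx
    have h1 : (pCSfull S).hom (Additive.ofMul (ofLevelFull S L hL (Dev.diagI (↥L) a * z))) = 0 := by
      refine (pCSfull_eq_zero_iff S _).2 ⟨⟨ofLevelFull S L hL z,
        (ofLevelFull_mem_USfull_iff S L hL z).2 hz⟩, unitsToQS S L hL a, ?_⟩
      rw [map_mul, ofLevelFull_diagI, mul_comm]
      rfl
    exact congrArg Multiplicative.ofAdd h1

/-- **`𝒞_S(L) → CSfull S`** (as a monoid hom into `Multiplicative`) -/
def clsLevelHom (hS : S.Nonempty) :
    Dev.ClassGrpS (↥L) (S : Set Nat.Primes) →* Multiplicative (CSfull S) :=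
  QuotientGroup.lift (Dev.principalUnits (↥L) (S : Set Nat.Primes)) (ideleToCSfull S L hL)
    (fun x hx => (ideleToCSfull_eq_one_iff S L hL hS x).2 hx)

@[simp] lemma clsLevelHom_mk (hS : S.Nonempty) (x : Dev.Idele L) :
    clsLevelHom S L hL hS (QuotientGroup.mk x) = ideleToCSfull S L hL x := rfl

/-- the class map is injective -/
theorem clsLevelHom_injective (hS : S.Nonempty) : Function.Injective (clsLevelHom S L hL hS) := by
  rw [injective_iff_map_eq_one]
  intro c hc
  obtain ⟨x, rfl⟩ := QuotientGroup.mk_surjective c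
  rw [clsLevelHom_mk, ideleToCSfull_eq_one_iff S L hL hS] at hc
  exact (QuotientGroup.eq_one_iff x).2 hc

/-- the class map is equivariant along `G_ℚ → Aut(L)` -/
theorem clsLevelHom_smul (hS : S.Nonempty) (h : GQ) (c : Dev.ClassGrpS (↥L) (S : Set Nat.Primes)) :
    (clsLevelHom S L hL hS (resL L h • c)).toAdd = (CSfull S).ρ h (clsLevelHom S L hL hS c).toAdd := by
  obtain ⟨x, rfl⟩ := QuotientGroup.mk_surjective c
  rw [Dev.ClassGrpS.smul_mk, clsLevelHom_mk, clsLevelHom_mk, ideleToCSfull_apply,
    ideleToCSfull_apply, ofLevelFull_smul]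
  exact Rep.hom_comm_apply (pCSfull S) h (Additive.ofMul (ofLevelFull S L hL x))

/-- the image of the class map consists of `Gal(ℚ̄/L)`-invariants -/
theorem clsLevelHom_invariant (hS : S.Nonempty) (c : Dev.ClassGrpS (↥L) (S : Set Nat.Primes))
    (s : GQ) (hs : s ∈ L.fixingSubgroup) :
    (CSfull S).ρ s (clsLevelHom S L hL hS c).toAdd = (clsLevelHom S L hL hS c).toAdd := by
  rw [← clsLevelHom_smul, (resL_eq_one_iff L s).2 hs, one_smul]

end Fermat.Agent.S55lib
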