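/-
S55 library, interface (helper4).  **`Ext(N, −)` does not see uniquely `p`-divisible cokernels**
(`N = coker d` killed by `p`), in helper7's `ExtC` model (`Cpx/HomRep.lean`).

If `0 → A → B → Q → 0` is a short exact sequence of smooth `G`-modules with multiplication by `p`
bijective on `Q`, and `d : P₁ ⟶ P₀` is injective with `p·P₀ ⊆ d P₁`, then
`ExtH 𝒰 d A n → ExtH 𝒰 d B n` is bijective for all `n`.
Application (`Iface/ClassCompare.lean`): `A = CSrep S = J_S/E_S`, `B = CSfull S`.
-/
import Mathlib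
import Fermat.Agent.S55lib.Cpx.HomRep
import Fermat.Agent.S55lib.Cpx.Inflate

set_option autoImplicit false

noncomputable section

namespace Fermat.Agent.S55lib

universe u

open CategoryTheory

variable {k : Type u} [CommRing k]

namespace Cpx

/-- the fibre of a degreewise bijective morphism is acyclic -/
theorem Fib.H_eq_zero_of_bijective {K L : Cpx k} (φ : Hom K L)
    (hφ : ∀ n, Function.Bijective (φ.f n)) (n : ℕ) (h : (Fib φ).H n) : h = 0 := by
  have hH := fun m => Hom.mapH_bijective_of_bijective φ hφ m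
  have hπ : Fib.π φ n h = 0 := by
    apply (hH n).1
    rw [map_zero]
    exact (Fib.exact_φ φ n _).2 ⟨h, rfl⟩
  cases n with
  | zero => exact Fib.π_zero_injective φ (hπ.trans (map_zero _).symm)
  | succ n =>
    obtain ⟨h', rfl⟩ := (Fib.exact_π φ n h).1 hπ
    obtain ⟨h'', rfl⟩ := (hH n).2 h'
    exact (Fib.exact_ι φ n _).2 ⟨h'', rfl⟩

end Cpx

variable {G : Type u} [Group G] (𝒰 : OpenBasis G)

/-- a bijective morphism of representations is degreewise bijective on smooth cochains -/
theorem Csm.map_bijective {A B : Rep.{u} k G} (φ : A ⟶ B) (hφ : Function.Bijective φ.hom) (n : ℕ) :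
    Function.Bijective ((Csm.map 𝒰 φ).f n) := by
  constructor
  · intro x y hxy
    apply Subtype.ext
    funext g
    apply hφ.1
    exact congrFun (congrArg Subtype.val hxy) g
  · intro z
    obtain ⟨U, hU, h1, h2⟩ := z.2
    let e := Equiv.ofBijective _ hφ
    refine ⟨⟨fun g => e.symm (z.1 g), U, hU, h1.comp _, fun g s hs => ?_⟩, ?_⟩
    · apply hφ.1
      rw [Rep.hom_comm_apply]
      change B.ρ s (e (e.symm (z.1 g))) = e (e.symm (z.1 g))
      rw [e.apply_symm_apply]
      exact h2 g s hs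
    · apply Subtype.ext
      funext g
      exact e.apply_symm_apply (z.1 g)

variable {P0 P1 : Rep.{u} k G} (d : P1 ⟶ P0)

/-- if `p·P₀ ⊆ d P₁`, `d` injective, and `p` is bijective on `Q`, then `Hom(P₀,Q) → Hom(P₁,Q)` is bijective -/
theorem homRep.mapL_bijective_of_pdiv (hd : Function.Injective d.hom) (p : ℕ)
    (hdp : ∀ x : P0, ∃ y, d.hom y = p • x) (Q : Rep.{u} k G)
    (hQ : Function.Bijective fun w : Q => p • w) :
    Function.Bijective (homRep.mapL d Q).hom := by
  constructor
  · intro φ φ' h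
    apply LinearMap.ext
    intro x
    obtain ⟨y, hy⟩ := hdp x
    apply hQ.1
    change p • (φ : P0 →ₗ[k] Q) x = p • (φ' : P0 →ₗ[k] Q) x
    rw [← map_nsmul, ← map_nsmul, ← hy]
    exact congrArg (fun θ : P1 →ₗ[k] Q => θ y) h
  · intro ψ
    -- `s : P₀ → P₁` with `d ∘ s = p`
    have hr : ∀ x : P0, (p • x) ∈ LinearMap.range d.hom.toLinearMap := fun x => by
      obtain ⟨y, hy⟩ := hdp x
      exact ⟨y, hy⟩
    let e := LinearEquiv.ofInjective d.hom.toLinearMap hd
    let s : P0 →ₗ[k] P1 := e.symm.toLinearMap ∘ₗ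
      (LinearMap.codRestrict (LinearMap.range d.hom.toLinearMap)
        ((p : k) • (LinearMap.id : P0 →ₗ[k] P0)) (fun x => by
          have := hr x
          rwa [LinearMap.smul_apply, LinearMap.id_apply, Nat.cast_smul_eq_nsmul]))
    have hds : ∀ x, d.hom (s x) = p • x := by
      intro x
      have h1 := congrArg Subtype.val (e.apply_symm_apply
        ⟨((p : k) • (LinearMap.id : P0 →ₗ[k] P0)) x, by
          have := hr x
          rwa [LinearMap.smul_apply, LinearMap.id_apply, Nat.cast_smul_eq_nsmul]⟩)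
      refine h1.trans ?_
      change ((p : k) • (LinearMap.id : P0 →ₗ[k] P0)) x = p • x
      rw [LinearMap.smul_apply, LinearMap.id_apply, Nat.cast_smul_eq_nsmul]
    have hsd : ∀ y, s (d.hom y) = p • y := by
      intro y
      apply hd
      rw [hds, map_nsmul]
    -- the inverse of `p` on `Q`
    let μ : Q →ₗ[k] Q := (p : k) • (LinearMap.id : Q →ₗ[k] Q)
    have hμ : ∀ w, μ w = p • w := fun w => by
      change ((p : k) • (LinearMap.id : Q →ₗ[k] Q)) w = p • w
      rw [LinearMap.smul_apply, LinearMap.id_apply, Nat.cast_smul_eq_nsmul]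
    have hμb : Function.Bijective μ := by
      have : (μ : Q → Q) = fun w => p • w := funext hμ
      rw [this]; exact hQ
    let ε := LinearEquiv.ofBijective μ hμb
    refine ⟨ε.symm.toLinearMap ∘ₗ (ψ : P1 →ₗ[k] Q) ∘ₗ s, ?_⟩
    apply LinearMap.ext
    intro y
    change ε.symm ((ψ : P1 →ₗ[k] Q) (s (d.hom y))) = (ψ : P1 →ₗ[k] Q) y
    rw [hsd, map_nsmul, LinearEquiv.symm_apply_eq]
    exact (hμ _).symm

/-- `ExtC 𝒰 d Q` is acyclic when `p` is bijective on `Q` and `coker d` is killed by `p` -/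
theorem ExtH_eq_zero_of_pdiv (hd : Function.Injective d.hom) (p : ℕ)
    (hdp : ∀ x : P0, ∃ y, d.hom y = p • x) (Q : Rep.{u} k G)
    (hQ : Function.Bijective fun w : Q => p • w) (n : ℕ) (h : ExtH 𝒰 d Q n) : h = 0 :=
  Cpx.Fib.H_eq_zero_of_bijective _
    (Csm.map_bijective 𝒰 _ (homRep.mapL_bijective_of_pdiv d hd p hdp Q hQ)) n h

/-- **`Ext(coker d, A) ≅ Ext(coker d, B)`** when `B/A` is uniquely `p`-divisible and `coker d` is killed
by `p`. -/
theorem ExtC.mapR_bijective_of_pdiv [Module.Finite k P0] [Module.Projective k P0]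
    [Module.Finite k P1] [Module.Projective k P1] (hP0 : IsSm 𝒰 P0) (hP1 : IsSm 𝒰 P1)
    (hd : Function.Injective d.hom) (p : ℕ) (hdp : ∀ x : P0, ∃ y, d.hom y = p • x)
    {A B Q : Rep.{u} k G} (i : A ⟶ B) (π : B ⟶ Q) (hB : IsSm 𝒰 B)
    (hi : Function.Injective i.hom) (hπ : Function.Surjective π.hom)
    (hex : ∀ b : B, π.hom b = 0 ↔ ∃ a, i.hom a = b)
    (hQ : Function.Bijective fun w : Q => p • w) (n : ℕ) :
    Function.Bijective ((ExtC.mapR 𝒰 d i).mapH n) := by
  have S := ExtC.mapR_isSES 𝒰 d hP0 hP1 i π hB hi hπ hex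
  have h0 := ExtH_eq_zero_of_pdiv 𝒰 d hd p hdp Q hQ
  constructor
  · cases n with
    | zero => exact S.mapH_zero_injective
    | succ n =>
      rw [← LinearMap.ker_eq_bot, LinearMap.ker_eq_bot']
      intro h hh
      obtain ⟨h', rfl⟩ := (S.exact_left n h).1 hh
      rw [h0 n h', map_zero]
  · intro h
    exact (S.exact_mid n h).1 (h0 n _)

end Fermat.Agent.S55lib
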