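/-
S55 library, interface (helper4).  Bridge between the two languages for "unit at the places above `q`":
* embeddings `ι : ℚ̄ →ₐ[ℚ] PadicAlgCl q` with `‖ι u‖ ≤ 1` (used in `Iface/Layers`, `Iface/Modules`), and
* valuation subrings `A` of `ℚ̄` with `A.LiesOverPrime q` (the Prelude's language for ramification).
`mem_of_forall_norm_le_one`: if `‖ι u‖ ≤ 1` for all embeddings then `u ∈ A` for every `A` over `q`
(the minimal polynomial of `u` has coefficients in `ℤ_(q)`).
-/
import Mathlib
import Fermat.Agent.S05lib.Inertia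
import Fermat.Agent.S55lib.Iface.Modules

set_option autoImplicit false
set_option linter.style.haveILetI false

noncomputable section

namespace Fermat.Agent.S55lib

open Polynomial

variable (q : ℕ) [Fact q.Prime]

/-- a rational number of `q`-adic norm `≤ 1` has denominator prime to `q` -/
lemma not_dvd_den_of_norm_le_one (c : ℚ) (hc : ‖(c : ℚ_[q])‖ ≤ 1) : ¬ q ∣ c.den := by
  intro hdvd
  have hq : q.Prime := Fact.out
  have hnum : ¬ q ∣ c.num.natAbs := by
    intro h1
    have h2 : q ∣ Nat.gcd c.num.natAbs c.den := Nat.dvd_gcd h1 hdvd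
    rw [c.reduced] at h2
    exact hq.one_lt.ne' (Nat.dvd_one.mp h2)
  have h1 : ‖((c.num : ℤ) : ℚ_[q])‖ = 1 := by
    rw [Padic.norm_intCast_eq_one_iff]
    rw [Int.isCoprime_iff_gcd_eq_one, Int.gcd, Int.natAbs_natCast]
    exact (Nat.Coprime.symm ((Nat.Prime.coprime_iff_not_dvd hq).2 hnum))
  have h2 : ‖((c.den : ℕ) : ℚ_[q])‖ < 1 := Padic.norm_natCast_lt_one_iff.2 hdvd
  have h3 : (c : ℚ_[q]) = (c.num : ℚ_[q]) / (c.den : ℚ_[q]) := by
    rw [Rat.cast_def]
  rw [h3, norm_div, h1] at hc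
  have hpos : 0 < ‖((c.den : ℕ) : ℚ_[q])‖ := by
    rw [norm_pos_iff]; exact_mod_cast c.den_ne_zero
  rw [div_le_one hpos] at hc
  linarith

/-- the norm of a rational number in `ℚ̄_q` is its `q`-adic norm -/
lemma norm_algebraMap_rat (c : ℚ) : ‖algebraMap ℚ (PadicAlgCl q) c‖ = ‖(c : ℚ_[q])‖ := by
  rw [IsScalarTower.algebraMap_apply ℚ ℚ_[q] (PadicAlgCl q), PadicAlgCl.norm_extends]
  rfl

/-- a rational number with denominator prime to `q` lies in every valuation subring over `q` -/
lemma rat_mem_of_not_dvd_den {L : Type*} [Field L] [Algebra ℚ L] (A : ValuationSubring L)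
    (hA : A.LiesOverPrime q) (c : ℚ) (hc : ¬ q ∣ c.den) : algebraMap ℚ L c ∈ A := by
  have hq : q.Prime := Fact.out
  rw [← A.valuation_le_one_iff]
  have h1 : algebraMap ℚ L c = (c.num : L) / (c.den : L) := by
    conv_lhs => rw [← Rat.num_div_den c]
    rw [map_div₀, map_intCast, map_natCast]
  rw [h1, map_div₀, S05lib.val_natCast_eq_one_of_not_dvd hq hA hc, div_one]
  exact S05lib.val_intCast_le_one _

/-- **Bridge.** If all conjugates of `u ∈ ℚ̄` have `q`-adic norm `≤ 1`, then `u` lies in every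
valuation subring of `ℚ̄` over `q`. -/
theorem mem_of_forall_norm_le_one (u : Qbar)
    (hu : ∀ ι : Qbar →ₐ[ℚ] PadicAlgCl q, ‖ι u‖ ≤ 1)
    (A : ValuationSubring Qbar) (hA : A.LiesOverPrime q) : u ∈ A := by
  have hint : IsIntegral ℚ u := Algebra.IsIntegral.isIntegral u
  set f := minpoly ℚ u with hf
  have hmonic : f.Monic := minpoly.monic hint
  -- `f` over `ℚ̄_q` splits with roots of norm `≤ 1`
  set g := f.map (algebraMap ℚ (PadicAlgCl q)) with hg
  have hgs : g.Splits := IsAlgClosed.splits g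
  have hgm : g.Monic := hmonic.map _
  have hroots : ∀ z ∈ g.roots, z ∈ (padicIntegers q).subtype.range := by
    intro z hz
    have hz' : z ∈ f.rootSet (PadicAlgCl q) := by
      rw [Polynomial.mem_rootSet]
      refine ⟨hmonic.ne_zero, ?_⟩
      have := (Polynomial.mem_roots'.1 hz).2
      rwa [Polynomial.IsRoot.def, hg, Polynomial.eval_map, ← Polynomial.aeval_def] at this
    rw [← Algebra.IsAlgebraic.range_eval_eq_rootSet_minpoly (F := ℚ) (K := Qbar) (PadicAlgCl q) u] at hz'
    obtain ⟨ι, rfl⟩ := hz'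
    exact ⟨⟨ι u, (mem_padicIntegers_iff q).2 (by exact_mod_cast hu ι)⟩, rfl⟩
  have hlift := hgs.mem_lift_of_roots_mem_range hgm (padicIntegers q).subtype hroots
  rw [Polynomial.lifts_iff_coeff_lifts] at hlift
  -- the coefficients of `f` are `q`-integral
  have hcoeff : ∀ n, ¬ q ∣ (f.coeff n).den := by
    intro n
    apply not_dvd_den_of_norm_le_one
    rw [← norm_algebraMap_rat]
    obtain ⟨y, hy⟩ := hlift n
    rw [hg, Polynomial.coeff_map] at hy
    rw [← hy]
    have := (mem_padicIntegers_iff q).1 y.2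
    exact_mod_cast this
  -- hence `f` over `ℚ̄` has coefficients in `A`
  have hlift' : f.map (algebraMap ℚ Qbar) ∈ Polynomial.lifts A.subtype := by
    rw [Polynomial.lifts_iff_coeff_lifts]
    intro n
    rw [Polynomial.coeff_map]
    exact ⟨⟨_, rat_mem_of_not_dvd_den q A hA _ (hcoeff n)⟩, rfl⟩
  obtain ⟨P, hP, -, hPm⟩ := Polynomial.lifts_and_degree_eq_and_monic hlift' (hmonic.map _)
  -- `u` is integral over `A`
  have hintA : IsIntegral A u := by
    refine ⟨P, hPm, ?_⟩
    have : Polynomial.eval₂ (algebraMap A Qbar) u P = Polynomial.eval u (P.map A.subtype) := by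
      rw [Polynomial.eval_map]; rfl
    rw [this, hP, Polynomial.eval_map, ← Polynomial.aeval_def, hf, minpoly.aeval]
  obtain ⟨y, hy⟩ := (IsIntegrallyClosed.isIntegral_iff (R := A) (K := Qbar)).1 hintA
  rw [← hy]
  exact y.2

/-- an `S`-unit is a unit in every valuation subring over a prime `q ∉ S` -/
theorem IsSUnit.mem_and_inv_mem {S : Finset Nat.Primes} {u : Qbar} (hu : IsSUnit S u)
    (q : Nat.Primes) (hq : q ∉ S) (A : ValuationSubring Qbar) (hA : A.LiesOverPrime (q : ℕ)) :
    u ∈ A ∧ u⁻¹ ∈ A := by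
  refine ⟨mem_of_forall_norm_le_one (q : ℕ) u (fun ι => (hu q hq ι).le) A hA,
    mem_of_forall_norm_le_one (q : ℕ) u⁻¹ (fun ι => ?_) A hA⟩
  rw [map_inv₀, norm_inv, hu q hq ι, inv_one]

/-- in valuation form: an `S`-unit has valuation `1` at every `A` over `q ∉ S` -/
theorem IsSUnit.valuation_eq_one {S : Finset Nat.Primes} {u : Qbar} (hu : IsSUnit S u)
    (q : Nat.Primes) (hq : q ∉ S) (A : ValuationSubring Qbar) (hA : A.LiesOverPrime (q : ℕ)) :
    A.valuation u = 1 := by
  obtain ⟨h1, h2⟩ := hu.mem_and_inv_mem q hq A hA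
  rw [← A.valuation_le_one_iff] at h1 h2
  rw [map_inv₀] at h2
  rcases eq_or_ne u 0 with rfl | h0
  · -- `0` is not an `S`-unit
    exfalso
    have := hu q hq (padicEmbedding (q : ℕ))
    simp at this
  have hv0 : A.valuation u ≠ 0 := (A.valuation.ne_zero_iff).2 h0
  exact le_antisymm h1 ((inv_le_one₀ (zero_lt_iff.2 hv0)).1 h2)

end Fermat.Agent.S55lib
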