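/-
S55 library, interface (helper4).  **The class-formation module `CSfull S = lim_L I_L/(L^×·U^S(L))`** of `G_S`
and its comparison with `CSrep S = J_S/E_S` (`Iface/Modules.lean`).

`J_S/E_S` is exact by definition (what block (V) needs), but the module for which the class-formation
axioms hold at every finite level is the limit of the finite-level idele class groups modulo units
outside `S` (`Dev/Idele.lean: ClassGrpS L S`).  The two differ by `lim_L Cl_S(L)`, which is torsion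
without `p`-torsion when `p ∈ S` (Kummer capitulation), so `Ext^i(M′, −)` does not see the difference.

* `QSunits S` : `ℚ_S^×`;  `JSfull S` : restricted product over ALL primes `q` of the `JSq S q`, uniform level;
* `USfull S` : `∏_{q ∉ S} U_q`;  `CSfull S := JSfull S / (USfull S · diag ℚ_S^×)` in `Rep ℤ G_ℚ`;
* `cmp S : CSrep S ⟶ CSfull S`, injective.
-/
import Mathlib
import Fermat.Agent.S55lib.Iface.ModulesLevel
import Fermat.Agent.S55lib.Iface.SUnit
import Fermat.Agent.S55lib.Dev.Idele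

set_option autoImplicit false
set_option linter.style.haveILetI false

noncomputable section

namespace Fermat.Agent.S55lib

open IntermediateField

/-! ### Generic: maps between cokernels -/

section GenericMap

variable {G E J E' J' : Type} [Group G] [CommGroup E] [CommGroup J] [MulDistribMulAction G E]
  [MulDistribMulAction G J] (i : E →* J) (hi : ∀ (g : G) (x : E), i (g • x) = g • i x)
  [CommGroup E'] [CommGroup J'] [MulDistribMulAction G E'] [MulDistribMulAction G J']
  (i' : E' →* J') (hi' : ∀ (g : G) (x : E'), i' (g • x) = g • i' x)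
  (φ : J →* J') (hφ : ∀ (g : G) (x : J), φ (g • x) = g • φ x)
  (hcomp : ∀ x : E, ∃ x' : E', i' x' = φ (i x))

include hcomp in
lemma mdRange_le_comap :
    mdRange i hi ≤ (mdRange i' hi').comap (mdRepHom φ hφ).hom.toLinearMap := by
  rintro _ ⟨x, rfl⟩
  obtain ⟨x', hx'⟩ := hcomp x.toMul
  exact ⟨Additive.ofMul x', congrArg Additive.ofMul hx'⟩

/-- the map `J/E → J'/E'` induced by an equivariant `φ : J → J'` with `φ(E) ⊆ E'` -/
def mdCokerMap : mdCoker i hi ⟶ mdCoker i' hi' :=
  Rep.ofHom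
    (ρ := (Rep.ofMulDistribMulAction G J).ρ.quotient (mdRange i hi) (mdRange_stable i hi))
    (σ := (Rep.ofMulDistribMulAction G J').ρ.quotient (mdRange i' hi') (mdRange_stable i' hi'))
    ⟨Submodule.mapQ (mdRange i hi) (mdRange i' hi') (mdRepHom φ hφ).hom.toLinearMap
        (mdRange_le_comap i hi i' hi' φ hφ hcomp), fun g => by
        apply LinearMap.ext
        intro y
        obtain ⟨y, rfl⟩ := Submodule.Quotient.mk_surjective _ y
        exact congrArg (Submodule.Quotient.mk (p := mdRange i' hi'))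
          (congrArg Additive.ofMul (hφ g y.toMul))⟩

lemma mdCokerMap_mdProj (y : Rep.ofMulDistribMulAction G J) :
    (mdCokerMap i hi i' hi' φ hφ hcomp).hom ((mdProj i hi).hom y) =
      (mdProj i' hi').hom ((mdRepHom φ hφ).hom y) := rfl

/-- injectivity criterion: `φ y ∈ E'` only if `y ∈ E` -/
lemma mdCokerMap_injective (h : ∀ y : J, (∃ x' : E', i' x' = φ y) → ∃ x : E, i x = y) :
    Function.Injective (mdCokerMap i hi i' hi' φ hφ hcomp).hom := by
  have key : ∀ y : mdCoker i hi, (mdCokerMap i hi i' hi' φ hφ hcomp).hom y = 0 → y = 0 := by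
    intro y hy
    obtain ⟨y, rfl⟩ := mdProj_surjective i hi y
    rw [mdCokerMap_mdProj, mdProj_eq_zero_iff] at hy
    obtain ⟨x', hx'⟩ := hy
    obtain ⟨x, hx⟩ := h y.toMul ⟨x'.toMul, congrArg Additive.toMul hx'⟩
    rw [mdProj_eq_zero_iff]
    exact ⟨Additive.ofMul x, congrArg Additive.ofMul hx⟩
  intro y y' hyy'
  have := key (y - y') (by rw [map_sub, hyy', sub_self])
  exact sub_eq_zero.1 this

end GenericMap

variable (S : Finset Nat.Primes)

/-! ### `ℚ_S^×` -/

/-- `ℚ_S^×`: the nonzero elements of `ℚ̄` lying in a field unramified outside `S` -/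
def QSunits : Subgroup Qbarˣ where
  carrier := {u | ∃ F : FieldQ, F.IsUnramifiedOutside S ∧ (u : Qbar) ∈ F}
  one_mem' := ⟨⊥, IntermediateField.isUnramifiedOutside_bot S, by simp⟩
  mul_mem' := by
    rintro u v ⟨F, hF, huF⟩ ⟨F', hF', hvF'⟩
    refine ⟨F ⊔ F', hF.sup hF', ?_⟩
    rw [Units.val_mul]
    exact mul_mem ((le_sup_left : F ≤ F ⊔ F') huF) ((le_sup_right : F' ≤ F ⊔ F') hvF')
  inv_mem' := by
    rintro u ⟨F, hF, huF⟩
    refine ⟨F, hF, ?_⟩
    rw [Units.val_inv_eq_inv_val]; exact inv_mem huF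

lemma mem_QSunits_iff (u : Qbarˣ) :
    u ∈ QSunits S ↔ ∃ F : FieldQ, F.IsUnramifiedOutside S ∧ (u : Qbar) ∈ F := Iff.rfl

lemma ES_le_QSunits : ES S ≤ QSunits S := fun _ hu => hu.2

/-- `G_ℚ` acts on `ℚ_S^×` -/
instance qsAction : MulDistribMulAction GQ (QSunits S) where
  smul g u := ⟨Units.map (g : Qbar →* Qbar) u.1, by
    obtain ⟨F, hF, huF⟩ := u.2
    exact ⟨F.map (g : AlgebraicClosure ℚ →ₐ[ℚ] AlgebraicClosure ℚ),
      isUnramifiedOutside_map S hF g, ⟨(u.1 : Qbar), huF, rfl⟩⟩⟩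
  one_smul u := by ext; rfl
  mul_smul g h u := by ext; rfl
  smul_mul g u v := Subtype.ext (Units.ext (map_mul g _ _))
  smul_one g := Subtype.ext (Units.ext (map_one g))

/-- shortcut instance -/
instance qsSMul : SMul GQ (QSunits S) := (qsAction S).toSMul

@[simp] lemma QSunits.coe_smul (g : GQ) (u : QSunits S) :
    (((g • u : QSunits S) : Qbarˣ) : Qbar) = g (u : Qbarˣ) := rfl

/-! ### The restricted product `JSfull S` -/

/-- the ambient product `∏_q J_{S,q}` over ALL primes (a `def`, to keep instance search away from `Pi`) -/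
def JSprod : Type := ∀ q : Nat.Primes, JSq S q

instance jsprodCommGroup : CommGroup (JSprod S) :=
  inferInstanceAs (CommGroup (∀ q : Nat.Primes, JSq S q))

instance jsprodAction : MulDistribMulAction GQ (JSprod S) :=
  Pi.mulDistribMulAction (I := Nat.Primes) (f := fun q => ↥(JSq S q)) GQ

/-- shortcut instance -/
instance jsprodSMul : SMul GQ (JSprod S) := (jsprodAction S).toSMul

/-- the value `x_q(g) ∈ ℚ̄_q` -/
def JSprod.val (x : JSprod S) (q : Nat.Primes) (g : GQ) : PadicAlgCl (q : ℕ) :=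
  (((x q).1 g : (PadicAlgCl (q : ℕ))ˣ) : PadicAlgCl (q : ℕ))

@[simp] lemma JSprod.val_one (q : Nat.Primes) (g : GQ) : (1 : JSprod S).val S q g = 1 := rfl

@[simp] lemma JSprod.val_mul (x y : JSprod S) (q : Nat.Primes) (g : GQ) :
    (x * y).val S q g = x.val S q g * y.val S q g := rfl

@[simp] lemma JSprod.val_inv (x : JSprod S) (q : Nat.Primes) (g : GQ) :
    (x⁻¹).val S q g = (x.val S q g)⁻¹ := by
  change (((((x q)⁻¹ : JSq S q).1 g : (PadicAlgCl (q : ℕ))ˣ)) : PadicAlgCl (q : ℕ)) = _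
  simp [JSprod.val]

@[simp] lemma JSprod.val_smul (h : GQ) (x : JSprod S) (q : Nat.Primes) (g : GQ) :
    (h • x).val S q g = x.val S q (g * h) := rfl

lemma JSprod.val_ne_zero (x : JSprod S) (q : Nat.Primes) (g : GQ) : x.val S q g ≠ 0 :=
  Units.ne_zero _

@[ext] lemma JSprod.ext {x y : JSprod S} (h : ∀ q g, x.val S q g = y.val S q g) : x = y := by
  funext q
  apply Subtype.ext
  funext g
  exact Units.ext (h q g)

lemma JSprod.val_local_mul (x : JSprod S) (q : Nat.Primes) (d : GalQq (q : ℕ)) (g : GQ) :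
    x.val S q (localGaloisToGlobal (q : ℕ) d * g) = d (x.val S q g) := (x q).2.1 d g

/-- `x` has level `F`: every component is right-invariant under `Gal(ℚ̄/F)` -/
def JSprod.HasLevel (x : JSprod S) (F : FieldQ) : Prop :=
  ∀ (q : Nat.Primes) (g s : GQ), s ∈ F.fixingSubgroup → x.val S q (g * s) = x.val S q g

/-- `x_q` is a unit at every embedding -/
def JSprod.IsUnitAt (x : JSprod S) (q : Nat.Primes) : Prop := ∀ g : GQ, ‖x.val S q g‖ = 1

lemma JSprod.HasLevel.mono {x : JSprod S} {F F' : FieldQ} (h : x.HasLevel S F) (hle : F ≤ F') :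
    x.HasLevel S F' := fun q g s hs => h q g s (IntermediateField.fixingSubgroup_antitone hle hs)

lemma JSprod.HasLevel.mul {x y : JSprod S} {F : FieldQ} (hx : x.HasLevel S F) (hy : y.HasLevel S F) :
    (x * y).HasLevel S F := fun q g s hs => by
  rw [JSprod.val_mul, JSprod.val_mul, hx q g s hs, hy q g s hs]

lemma JSprod.HasLevel.inv {x : JSprod S} {F : FieldQ} (hx : x.HasLevel S F) :
    (x⁻¹).HasLevel S F := fun q g s hs => by
  rw [JSprod.val_inv, JSprod.val_inv, hx q g s hs]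

lemma JSprod.IsUnitAt.mul {x y : JSprod S} {q : Nat.Primes} (hx : x.IsUnitAt S q)
    (hy : y.IsUnitAt S q) : (x * y).IsUnitAt S q := fun g => by
  rw [JSprod.val_mul, norm_mul, hx g, hy g, mul_one]

lemma JSprod.IsUnitAt.inv {x : JSprod S} {q : Nat.Primes} (hx : x.IsUnitAt S q) :
    (x⁻¹).IsUnitAt S q := fun g => by
  rw [JSprod.val_inv, norm_inv, hx g, inv_one]

lemma JSprod.IsUnitAt.smul {x : JSprod S} {q : Nat.Primes} (hx : x.IsUnitAt S q) (h : GQ) :
    (h • x).IsUnitAt S q := fun g => hx (g * h)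

lemma JSprod.isUnitAt_one (q : Nat.Primes) : (1 : JSprod S).IsUnitAt S q := fun g => by
  rw [JSprod.val_one, norm_one]

/-- `lim_L I_L`: families of uniform finite level in `ℚ_S`, units at almost all primes -/
def JSfull : Subgroup (JSprod S) where
  carrier := {x | (∃ F : FieldQ, F.IsUnramifiedOutside S ∧ x.HasLevel S F) ∧
    {q : Nat.Primes | ¬ x.IsUnitAt S q}.Finite}
  one_mem' := by
    refine ⟨⟨⊥, IntermediateField.isUnramifiedOutside_bot S, fun q g s _ => rfl⟩, ?_⟩
    have : {q : Nat.Primes | ¬ (1 : JSprod S).IsUnitAt S q} = ∅ := by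
      ext q
      simp [JSprod.isUnitAt_one]
    rw [this]
    exact Set.finite_empty
  mul_mem' := by
    rintro x y ⟨⟨F, hF, hx⟩, hxf⟩ ⟨⟨F', hF', hy⟩, hyf⟩
    refine ⟨⟨F ⊔ F', hF.sup hF', (hx.mono S le_sup_left).mul S (hy.mono S le_sup_right)⟩, ?_⟩
    refine (hxf.union hyf).subset ?_
    intro q hq
    by_contra hcon
    simp only [Set.mem_union, Set.mem_ofPred_eq, not_or, not_not] at hcon
    exact hq (hcon.1.mul S hcon.2)
  inv_mem' := by
    rintro x ⟨⟨F, hF, hx⟩, hxf⟩
    refine ⟨⟨F, hF, hx.inv S⟩, hxf.subset ?_⟩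
    intro q hq hcon
    exact hq (by simpa using hcon.inv S)

lemma mem_JSfull_iff (x : JSprod S) : x ∈ JSfull S ↔
    (∃ F : FieldQ, F.IsUnramifiedOutside S ∧ x.HasLevel S F) ∧
      {q : Nat.Primes | ¬ x.IsUnitAt S q}.Finite := Iff.rfl

/-- levels are stable under translation (conjugate level) -/
lemma JSprod.HasLevel.smul {x : JSprod S} {F : FieldQ} (hx : x.HasLevel S F) (h : GQ) :
    (h • x).HasLevel S (F.map (h : AlgebraicClosure ℚ →ₐ[ℚ] AlgebraicClosure ℚ)) := by
  intro q g s hs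
  rw [JSprod.val_smul, JSprod.val_smul]
  have h1 : g * s * h = g * h * (h⁻¹ * s * h) := by group
  rw [h1]
  refine hx q (g * h) _ ?_
  rw [IntermediateField.mem_fixingSubgroup_iff] at hs ⊢
  intro y hy
  have h2 := hs (h y) ⟨y, hy, rfl⟩
  simp only [AlgEquiv.mul_apply]
  rw [h2]
  exact (AlgEquiv.symm_apply_apply h y)

/-- `G_ℚ` acts on `JSfull S` -/
instance jsfullAction : MulDistribMulAction GQ (JSfull S) where
  smul h x := ⟨h • x.1, by
    obtain ⟨⟨F, hF, hx⟩, hxf⟩ := x.2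
    refine ⟨⟨_, isUnramifiedOutside_map S hF h, hx.smul S h⟩, hxf.subset ?_⟩
    intro q hq hcon
    apply hq
    have := hcon.smul S h
    exact this⟩
  one_smul x := Subtype.ext (one_smul GQ x.1)
  mul_smul g h x := Subtype.ext (mul_smul g h x.1)
  smul_mul g x y := Subtype.ext (smul_mul' g x.1 y.1)
  smul_one g := Subtype.ext (smul_one g)

/-- shortcut instance -/
instance jsfullSMul : SMul GQ (JSfull S) := (jsfullAction S).toSMul

@[simp] lemma JSfull.coe_smul (h : GQ) (x : JSfull S) : ((h • x : JSfull S) : JSprod S) = h • x.1 := rfl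

/-! ### Units outside `S` -/

/-- `∏_{q ∉ S} U_q`: trivial at `S`, units outside -/
def USfull : Subgroup (JSfull S) where
  carrier := {x | (∀ q ∈ S, ∀ g, x.1.val S q g = 1) ∧ ∀ q ∉ S, x.1.IsUnitAt S q}
  one_mem' := ⟨fun _ _ _ => rfl, fun q _ => JSprod.isUnitAt_one S q⟩
  mul_mem' := by
    rintro x y ⟨hx1, hx2⟩ ⟨hy1, hy2⟩
    refine ⟨fun q hq g => ?_, fun q hq => (hx2 q hq).mul S (hy2 q hq)⟩
    change (x.1 * y.1).val S q g = 1
    rw [JSprod.val_mul, hx1 q hq g, hy1 q hq g, mul_one]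
  inv_mem' := by
    rintro x ⟨hx1, hx2⟩
    refine ⟨fun q hq g => ?_, fun q hq => (hx2 q hq).inv S⟩
    change (x.1⁻¹).val S q g = 1
    rw [JSprod.val_inv, hx1 q hq g, inv_one]

lemma mem_USfull_iff (x : JSfull S) : x ∈ USfull S ↔
    (∀ q ∈ S, ∀ g, x.1.val S q g = 1) ∧ ∀ q ∉ S, x.1.IsUnitAt S q := Iff.rfl

lemma smul_mem_USfull (h : GQ) {x : JSfull S} (hx : x ∈ USfull S) : h • x ∈ USfull S :=
  ⟨fun q hq g => hx.1 q hq (g * h), fun q hq => (hx.2 q hq).smul S h⟩

instance usfullAction : MulDistribMulAction GQ (USfull S) where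
  smul h x := ⟨h • x.1, smul_mem_USfull S h x.2⟩
  one_smul x := Subtype.ext (one_smul GQ x.1)
  mul_smul g h x := Subtype.ext (mul_smul g h x.1)
  smul_mul g x y := Subtype.ext (smul_mul' g x.1 y.1)
  smul_one g := Subtype.ext (smul_one g)

/-- shortcut instance -/
instance usfullSMul : SMul GQ (USfull S) := (usfullAction S).toSMul

/-! ### The diagonal embedding of `ℚ_S^×` -/

/-- an element of `ℚ̄^×` is a unit at all embeddings into `ℚ̄_q` for almost all `q` -/
lemma finite_setOf_exists_norm_ne_one (u : Qbarˣ) :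
    {q : Nat.Primes | ¬ ∀ ι : Qbar →ₐ[ℚ] PadicAlgCl (q : ℕ), ‖ι (u : Qbar)‖ = 1}.Finite := by
  obtain ⟨d, hd0, hd⟩ := Dev.exists_int_forall_norm_le_one (M := Qbar) (u : Qbar)
  obtain ⟨d', hd0', hd'⟩ := Dev.exists_int_forall_norm_le_one (M := Qbar) ((u⁻¹ : Qbarˣ) : Qbar)
  refine ((Dev.finite_primes_dvd hd0).union (Dev.finite_primes_dvd hd0')).subset ?_
  intro q hq
  by_contra hcon
  simp only [Set.mem_union, Set.mem_ofPred_eq, not_or] at hcon
  apply hq
  intro ι
  have h1 := hd (q : ℕ) hcon.1 ι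
  have h2 := hd' (q : ℕ) hcon.2 ι
  have h3 : ι (u : Qbar) * ι ((u⁻¹ : Qbarˣ) : Qbar) = 1 := by
    rw [← map_mul, Units.mul_inv, map_one]
  have h4 : ‖ι (u : Qbar)‖ * ‖ι ((u⁻¹ : Qbarˣ) : Qbar)‖ = 1 := by
    rw [← norm_mul, h3, norm_one]
  refine le_antisymm h1 ?_
  by_contra hlt
  rw [not_le] at hlt
  have h5 : ‖ι (u : Qbar)‖ * ‖ι ((u⁻¹ : Qbarˣ) : Qbar)‖ < 1 := by
    calc ‖ι (u : Qbar)‖ * ‖ι ((u⁻¹ : Qbarˣ) : Qbar)‖ ≤ ‖ι (u : Qbar)‖ * 1 :=
          mul_le_mul_of_nonneg_left h2 (norm_nonneg _)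
      _ < 1 := by rw [mul_one]; exact hlt
  exact absurd h4 (ne_of_lt h5)

/-- the family `(g ↦ τ_q (g u))_q` attached to `u ∈ ℚ_S^×` -/
def diagProd (u : QSunits S) : JSprod S := fun q =>
  ⟨fun g => Units.map ((padicEmbedding (q : ℕ)).toRingHom.comp
      (g : Qbar →+* Qbar) : Qbar →* PadicAlgCl (q : ℕ)) u.1, by
    refine ⟨fun d g => ?_, ?_⟩
    · exact padicEmbedding_localGaloisToGlobal (q : ℕ) d (g (u.1 : Qbar))
    · obtain ⟨F, hF, huF⟩ := u.2
      refine ⟨F, hF, fun g s hs => ?_⟩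
      ext
      have : s (u.1 : Qbar) = (u.1 : Qbar) := (IntermediateField.mem_fixingSubgroup_iff _ s).1 hs _ huF
      simp [AlgEquiv.mul_apply, this]⟩

@[simp] lemma diagProd_val (u : QSunits S) (q : Nat.Primes) (g : GQ) :
    (diagProd S u).val S q g = padicEmbedding (q : ℕ) (g (u : Qbarˣ)) := rfl

lemma diagProd_mem (u : QSunits S) : diagProd S u ∈ JSfull S := by
  refine ⟨?_, ?_⟩
  · obtain ⟨F, hF, huF⟩ := u.2
    refine ⟨F, hF, fun q g s hs => ?_⟩
    have : s (u.1 : Qbar) = (u.1 : Qbar) := (IntermediateField.mem_fixingSubgroup_iff _ s).1 hs _ huF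
    rw [diagProd_val, diagProd_val, AlgEquiv.mul_apply, this]
  · refine (finite_setOf_exists_norm_ne_one (u : Qbarˣ)).subset ?_
    intro q hq hcon
    apply hq
    intro g
    exact hcon ((padicEmbedding (q : ℕ)).comp (g : AlgebraicClosure ℚ →ₐ[ℚ] AlgebraicClosure ℚ))

/-- the diagonal embedding `ℚ_S^× → JSfull S` -/
def diagFull : QSunits S →* JSfull S where
  toFun u := ⟨diagProd S u, diagProd_mem S u⟩
  map_one' := by
    apply Subtype.ext
    apply JSprod.ext S
    intro q g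
    simp [diagProd_val]
  map_mul' u v := by
    apply Subtype.ext
    apply JSprod.ext S
    intro q g
    change (diagProd S (u * v)).val S q g = (diagProd S u * diagProd S v).val S q g
    simp [diagProd_val]

@[simp] lemma diagFull_val (u : QSunits S) (q : Nat.Primes) (g : GQ) :
    (diagFull S u).1.val S q g = padicEmbedding (q : ℕ) (g (u : Qbarˣ)) := rfl

lemma diagFull_smul (h : GQ) (u : QSunits S) : diagFull S (h • u) = h • diagFull S u := by
  apply Subtype.ext
  apply JSprod.ext S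
  intro q g
  rfl

/-! ### `CSfull S` -/

/-- `∏_{q∉S} U_q × ℚ_S^× → JSfull S` -/
def relFull : USfull S × QSunits S →* JSfull S := (USfull S).subtype.coprod (diagFull S)

@[simp] lemma relFull_apply (v : USfull S) (u : QSunits S) :
    relFull S (v, u) = (v : JSfull S) * diagFull S u := rfl

lemma relFull_smul (h : GQ) (x : USfull S × QSunits S) : relFull S (h • x) = h • relFull S x := by
  obtain ⟨v, u⟩ := x
  change relFull S (h • v, h • u) = h • relFull S (v, u)
  rw [relFull_apply, relFull_apply, smul_mul', diagFull_smul]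
  rfl

/-- `lim_L I_L` as a `ℤ[G_ℚ]`-module -/
def JSfullRep : Rep ℤ GQ := Rep.ofMulDistribMulAction GQ (JSfull S)

/-- **the class-formation module** `C_S^{full} = lim_L I_L/(L^×·U^S(L))` -/
def CSfull : Rep ℤ GQ := mdCoker (relFull S) (relFull_smul S)

/-- the projection -/
def pCSfull : JSfullRep S ⟶ CSfull S := mdProj (relFull S) (relFull_smul S)

lemma pCSfull_surjective : Function.Surjective (pCSfull S).hom := mdProj_surjective _ _

lemma pCSfull_eq_zero_iff (y : JSfullRep S) : (pCSfull S).hom y = 0 ↔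
    ∃ (v : USfull S) (u : QSunits S), (v : JSfull S) * diagFull S u = y.toMul := by
  have h0 := mdProj_eq_zero_iff (relFull S) (relFull_smul S) y
  constructor
  · intro hy
    obtain ⟨x, hx⟩ := h0.1 hy
    exact ⟨x.toMul.1, x.toMul.2, congrArg Additive.toMul hx⟩
  · rintro ⟨v, u, h⟩
    exact h0.2 ⟨Additive.ofMul (v, u), congrArg Additive.ofMul h⟩

lemma JSfullRep_isSmooth : Sm.IsSmooth (MonoidHom.id GQ) (LevelClass.unr S) (JSfullRep S) := by
  intro a
  obtain ⟨⟨F, hF, hx⟩, -⟩ := (Additive.toMul a : JSfull S).2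
  refine ⟨F, hF, fun s hs => ?_⟩
  refine congrArg Additive.ofMul (Subtype.ext (JSprod.ext S fun q g => ?_))
  exact hx q g s hs

lemma CSfull_isSmooth : Sm.IsSmooth (MonoidHom.id GQ) (LevelClass.unr S) (CSfull S) := by
  intro a
  obtain ⟨x, rfl⟩ := pCSfull_surjective S a
  obtain ⟨F, hF, h⟩ := JSfullRep_isSmooth S x
  refine ⟨F, hF, fun s hs => ?_⟩
  have := (pCSfull S).hom.isIntertwining' s
  have h2 := congrArg (fun φ => φ x) this
  simp only [LinearMap.coe_comp, Function.comp_apply] at h2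
  exact h2.symm.trans (congrArg (pCSfull S).hom.toLinearMap (h s hs))

/-! ### The comparison `J_S/E_S → CSfull S` -/

open Classical in
/-- extension by `1` outside `S` -/
def JS.toProd (f : JS S) : JSprod S := fun q => if h : q ∈ S then JS.comp S ⟨q, h⟩ f else 1

lemma JS.toProd_of_mem (f : JS S) {q : Nat.Primes} (h : q ∈ S) :
    JS.toProd S f q = JS.comp S ⟨q, h⟩ f := dif_pos h

lemma JS.toProd_of_notMem (f : JS S) {q : Nat.Primes} (h : q ∉ S) :
    JS.toProd S f q = 1 := dif_neg h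

lemma JS.toProd_val_of_mem (f : JS S) {q : Nat.Primes} (h : q ∈ S) (g : GQ) :
    (JS.toProd S f).val S q g = (((JS.comp S ⟨q, h⟩ f).1 g : (PadicAlgCl (q : ℕ))ˣ) : PadicAlgCl (q : ℕ)) :=
  congrArg (fun F : JSq S q => (((F.1 g : (PadicAlgCl (q : ℕ))ˣ)) : PadicAlgCl (q : ℕ)))
    (JS.toProd_of_mem S f h)

lemma JS.toProd_val_of_notMem (f : JS S) {q : Nat.Primes} (h : q ∉ S) (g : GQ) :
    (JS.toProd S f).val S q g = 1 :=
  congrArg (fun F : JSq S q => (((F.1 g : (PadicAlgCl (q : ℕ))ˣ)) : PadicAlgCl (q : ℕ)))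
    (JS.toProd_of_notMem S f h)

lemma JS.toProd_mem (f : JS S) : JS.toProd S f ∈ JSfull S := by
  classical
  refine ⟨?_, ?_⟩
  · choose F hF hc using fun q : S => (JS.comp S q f).2.2
    refine ⟨Finset.univ.sup F, (LevelClass.unr S).finset_sup _ F (fun q _ => hF q), fun q g s hs => ?_⟩
    by_cases hq : q ∈ S
    · rw [JS.toProd_val_of_mem S f hq, JS.toProd_val_of_mem S f hq]
      have hs' : s ∈ (F ⟨q, hq⟩).fixingSubgroup :=
        IntermediateField.fixingSubgroup_antitone (Finset.le_sup (f := F) (Finset.mem_univ _)) hs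
      exact congrArg Units.val (hc ⟨q, hq⟩ g s hs')
    · rw [JS.toProd_val_of_notMem S f hq, JS.toProd_val_of_notMem S f hq]
  · refine (Finset.finite_toSet S).subset ?_
    intro q hq
    by_contra hqS
    apply hq
    intro g
    rw [JS.toProd_val_of_notMem S f hqS, norm_one]

/-- `J_S → JSfull S`, extension by `1` outside `S` -/
def JS.toFull : JS S →* JSfull S where
  toFun f := ⟨JS.toProd S f, JS.toProd_mem S f⟩
  map_one' := by
    apply Subtype.ext
    apply JSprod.ext S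
    intro q g
    by_cases hq : q ∈ S
    · rw [JS.toProd_val_of_mem S _ hq]; rfl
    · rw [JS.toProd_val_of_notMem S _ hq]; rfl
  map_mul' f f' := by
    apply Subtype.ext
    apply JSprod.ext S
    intro q g
    change _ = (JS.toProd S f * JS.toProd S f').val S q g
    rw [JSprod.val_mul]
    by_cases hq : q ∈ S
    · rw [JS.toProd_val_of_mem S _ hq, JS.toProd_val_of_mem S _ hq, JS.toProd_val_of_mem S _ hq]; rfl
    · rw [JS.toProd_val_of_notMem S _ hq, JS.toProd_val_of_notMem S _ hq,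
        JS.toProd_val_of_notMem S _ hq, mul_one]

lemma JS.toFull_val_of_mem (f : JS S) {q : Nat.Primes} (h : q ∈ S) (g : GQ) :
    (JS.toFull S f).1.val S q g =
      (((JS.comp S ⟨q, h⟩ f).1 g : (PadicAlgCl (q : ℕ))ˣ) : PadicAlgCl (q : ℕ)) :=
  JS.toProd_val_of_mem S f h g

lemma JS.toFull_val_of_notMem (f : JS S) {q : Nat.Primes} (h : q ∉ S) (g : GQ) :
    (JS.toFull S f).1.val S q g = 1 := JS.toProd_val_of_notMem S f h g

lemma JS.toFull_smul (h : GQ) (f : JS S) : JS.toFull S (h • f) = h • JS.toFull S f := by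
  apply Subtype.ext
  apply JSprod.ext S
  intro q g
  change _ = (JS.toFull S f).1.val S q (g * h)
  by_cases hq : q ∈ S
  · rw [JS.toFull_val_of_mem S _ hq, JS.toFull_val_of_mem S _ hq]; rfl
  · rw [JS.toFull_val_of_notMem S _ hq, JS.toFull_val_of_notMem S _ hq]

/-- every embedding `ℚ̄ → ℚ̄_q` is `τ_q ∘ g` for some `g ∈ G_ℚ` -/
lemma exists_gal_eq_comp (q : ℕ) [Fact q.Prime] (ι : Qbar →ₐ[ℚ] PadicAlgCl q) :
    ∃ g : GQ, ι = (padicEmbedding q).comp (g : Qbar →ₐ[ℚ] Qbar) := by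
  obtain ⟨γ, hγ⟩ := Emb.exists_aut_of_res_eq (q := q) (F := ℚ) (M := Qbar) (padicEmbedding q) ι
    (Subsingleton.elim _ _)
  exact ⟨autToQ ℚ γ, hγ⟩

/-- `u ∈ ℚ̄` is an `S`-unit iff `τ_q (g u)` is a unit for all `g ∈ G_ℚ`, `q ∉ S` -/
lemma isSUnit_iff_forall_gal (u : Qbar) : IsSUnit S u ↔
    ∀ q : Nat.Primes, q ∉ S → ∀ g : GQ, ‖padicEmbedding (q : ℕ) (g u)‖ = 1 := by
  constructor
  · intro h q hq g
    exact h q hq ((padicEmbedding (q : ℕ)).comp (g : Qbar →ₐ[ℚ] Qbar))
  · intro h q hq ι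
    obtain ⟨g, rfl⟩ := exists_gal_eq_comp (q : ℕ) ι
    exact h q hq g

/-- `E_S → ℚ_S^×` -/
def ES.toQS : ES S →* QSunits S := Subgroup.inclusion (ES_le_QSunits S)

@[simp] lemma ES.coe_toQS (u : ES S) : ((ES.toQS S u : QSunits S) : Qbarˣ) = (u : Qbarˣ) := rfl

/-- for `u ∈ E_S`: the unit-outside-`S` part of `diag u` -/
def ES.unitPart (u : ES S) : USfull S :=
  ⟨JS.toFull S (ESJS S u) * (diagFull S (ES.toQS S u))⁻¹, by
    refine ⟨fun q hq g => ?_, fun q hq g => ?_⟩
    · change ((JS.toFull S (ESJS S u)).1 * ((diagFull S (ES.toQS S u)).1)⁻¹).val S q g = 1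
      rw [JSprod.val_mul, JSprod.val_inv, JS.toFull_val_of_mem S _ hq, diagFull_val, ESJS_apply]
      exact mul_inv_cancel₀ ((map_ne_zero _).2 ((map_ne_zero _).2 (Units.ne_zero _)))
    · change ‖((JS.toFull S (ESJS S u)).1 * ((diagFull S (ES.toQS S u)).1)⁻¹).val S q g‖ = 1
      rw [JSprod.val_mul, JSprod.val_inv, JS.toFull_val_of_notMem S _ hq, diagFull_val, one_mul,
        norm_inv]
      have := (isSUnit_iff_forall_gal S _).1 u.2.1 q hq g
      rw [ES.coe_toQS, this, inv_one]⟩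

lemma relFull_unitPart (u : ES S) :
    relFull S (ES.unitPart S u, ES.toQS S u) = JS.toFull S (ESJS S u) := by
  rw [relFull_apply]
  change JS.toFull S (ESJS S u) * (diagFull S (ES.toQS S u))⁻¹ * diagFull S (ES.toQS S u) = _
  rw [inv_mul_cancel_right]

/-- **the comparison map** `C_S = J_S/E_S ⟶ CSfull S` -/
def cmp : CSrep S ⟶ CSfull S :=
  mdCokerMap (ESJS S) (ESJS_smul S) (relFull S) (relFull_smul S) (JS.toFull S) (JS.toFull_smul S)
    (fun u => ⟨(ES.unitPart S u, ES.toQS S u), relFull_unitPart S u⟩)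

lemma cmp_pCS (y : JSrep S) :
    (cmp S).hom ((pCS S).hom y) =
      (pCSfull S).hom ((mdRepHom (JS.toFull S) (JS.toFull_smul S)).hom y) := rfl

/-- `J_S/E_S → CSfull S` is injective: an element of `ℚ_S^×` which is a unit outside `S` is an `S`-unit. -/
theorem cmp_injective : Function.Injective (cmp S).hom := by
  apply mdCokerMap_injective
  rintro f ⟨⟨v, u⟩, h⟩
  rw [relFull_apply] at h
  -- `u` is an `S`-unit
  have hu : IsSUnit S ((u : Qbarˣ) : Qbar) := by
    rw [isSUnit_iff_forall_gal]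
    intro q hq g
    have h1 := congrArg (fun x : JSfull S => x.1.val S q g) h
    change ((v : JSfull S).1 * (diagFull S u).1).val S q g = _ at h1
    rw [JSprod.val_mul, diagFull_val, JS.toFull_val_of_notMem S _ hq] at h1
    have h2 := congrArg norm h1
    rw [norm_mul, v.2.2 q hq g, one_mul, norm_one] at h2
    exact h2
  refine ⟨⟨(u : Qbarˣ), hu, u.2⟩, ?_⟩
  apply JS.ext S
  intro q
  ext g
  have h1 := congrArg (fun x : JSfull S => x.1.val S q.1 g) h
  change ((v : JSfull S).1 * (diagFull S u).1).val S q.1 g = _ at h1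
  rw [JSprod.val_mul, diagFull_val, JS.toFull_val_of_mem S _ q.2, v.2.1 q.1 q.2 g, one_mul] at h1
  rw [ESJS_apply]
  exact h1

end Fermat.Agent.S55lib
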