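/-
S55 library, interface (helper4).  **Kummer extensions inside `ℚ_S`, embedding form.**

* `exists_gal_forall_valuation_eq_one`: every valuation subring `A` of `ℚ̄` over `q` is, on a given number field
  `N ⊂ ℚ̄`, induced by an embedding `τ_q ∘ g` (`g ∈ G_ℚ`): `‖τ_q (g z)‖ = 1 → A.valuation z = 1` for `z ∈ N`
  (lead's `Places.exists_primeOf_eq`, `Places.valuation_le_one_iff`).
* `isUnramifiedOutside_adjoin_root_of_mul`: helper7's capitulation lemma (`GlobDual/Kummer.lean`) with an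
  arbitrary multiplier `t ∈ F` instead of a power of `q`.
* `isUnramifiedOutside_adjoin_root_of_norm`: if `F ⊂ ℚ_S`, `p ∈ S`, `β ^ p ∈ F` and for all `q ∉ S`, `g ∈ G_ℚ`
  there is `t ∈ F` with `‖τ_q (g (β t))‖ = 1`, then `F(β) ⊂ ℚ_S`.
-/
import Mathlib
import Fermat.Agent.S55lib.Iface.ClassLimit
import Fermat.Agent.S55lib.GlobDual.Kummer
import Fermat.Agent.S55lib.Places.Surj
import Fermat.Agent.S55lib.Places.Val

set_option autoImplicit false
set_option linter.style.haveILetI false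

noncomputable section

namespace Fermat.Agent.S55lib

open IntermediateField NumberField IsDedekindDomain

/-! ### Valuation subrings of `ℚ̄` and embeddings, at finite level -/

/-- integral elements lie in every valuation subring -/
lemma valuation_le_one_of_isIntegral (A : ValuationSubring Qbar) {x : Qbar} (hx : IsIntegral ℤ x) :
    A.valuation x ≤ 1 := by
  have h1 : IsIntegral A.valuation.integer x := hx.tower_top
  exact (Valuation.integer.integers A.valuation).mem_of_integral h1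

variable (q : ℕ) [Fact q.Prime]

/-- `𝓞 N → ℚ̄` -/
def intToQbar (N : FieldQ) : 𝓞 ↥N →+* Qbar := (N.val : ↥N →+* Qbar).comp (algebraMap (𝓞 ↥N) ↥N)

lemma intToQbar_apply (N : FieldQ) (x : 𝓞 ↥N) : intToQbar N x = ((x : ↥N) : Qbar) := rfl

lemma valuation_intToQbar_le_one (N : FieldQ) (A : ValuationSubring Qbar) (x : 𝓞 ↥N) :
    A.valuation (intToQbar N x) ≤ 1 := by
  apply valuation_le_one_of_isIntegral
  exact (x.2.map (N.val.toIntAlgHom) : _)

/-- the prime of `𝓞 N` cut out by a valuation subring of `ℚ̄` over `q` -/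
def primeOfValuationSubring (N : FieldQ) [FiniteDimensional ℚ N] (A : ValuationSubring Qbar)
    (hA : A.LiesOverPrime q) : HeightOneSpectrum (𝓞 ↥N) where
  asIdeal :=
    { carrier := {x | A.valuation (intToQbar N x) < 1}
      add_mem' := fun {x y} hx hy => by
        change A.valuation (intToQbar N (x + y)) < 1
        rw [map_add]
        exact lt_of_le_of_lt (A.valuation.map_add _ _) (max_lt hx hy)
      zero_mem' := by
        change A.valuation (intToQbar N 0) < 1
        rw [map_zero, map_zero]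
        exact zero_lt_one
      smul_mem' := fun c x hx => by
        change A.valuation (intToQbar N (c * x)) < 1
        rw [map_mul, map_mul]
        calc A.valuation (intToQbar N c) * A.valuation (intToQbar N x)
            ≤ 1 * A.valuation (intToQbar N x) := mul_le_mul' (valuation_intToQbar_le_one N A c) le_rfl
          _ = A.valuation (intToQbar N x) := one_mul _
          _ < 1 := hx }
  isPrime := by
    refine ⟨?_, ?_⟩
    · intro h
      have h1 : (1 : 𝓞 ↥N) ∈ (⊤ : Ideal (𝓞 ↥N)) := trivial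
      rw [← h] at h1
      change A.valuation (intToQbar N 1) < 1 at h1
      rw [map_one, map_one] at h1
      exact lt_irrefl _ h1
    · intro x y hxy
      change A.valuation (intToQbar N (x * y)) < 1 at hxy
      rw [map_mul, map_mul] at hxy
      by_contra hcon
      rw [not_or] at hcon
      have hx : A.valuation (intToQbar N x) = 1 :=
        le_antisymm (valuation_intToQbar_le_one N A x) (not_lt.1 hcon.1)
      have hy : A.valuation (intToQbar N y) = 1 :=
        le_antisymm (valuation_intToQbar_le_one N A y) (not_lt.1 hcon.2)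
      rw [hx, hy, one_mul] at hxy
      exact lt_irrefl _ hxy
  ne_bot := by
    intro h
    have h1 : ((q : ℕ) : 𝓞 ↥N) ∈ (⊥ : Ideal (𝓞 ↥N)) := by
      rw [← h]
      change A.valuation (intToQbar N ((q : ℕ) : 𝓞 ↥N)) < 1
      rw [map_natCast]
      exact A.mem_nonunits_iff.mp hA
    rw [Ideal.mem_bot] at h1
    have h2 : ((q : ℕ) : 𝓞 ↥N) ≠ 0 := by
      exact_mod_cast (Fact.out : q.Prime).ne_zero
    exact h2 h1

lemma mem_primeOfValuationSubring (N : FieldQ) [FiniteDimensional ℚ N] (A : ValuationSubring Qbar)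
    (hA : A.LiesOverPrime q) (x : 𝓞 ↥N) :
    x ∈ (primeOfValuationSubring q N A hA).asIdeal ↔ A.valuation (intToQbar N x) < 1 := Iff.rfl

/-- on a number field `N ⊂ ℚ̄`, a valuation subring of `ℚ̄` over `q` is induced by an embedding `N → ℚ̄_q` -/
theorem exists_emb_forall_valuation_eq_one (N : FieldQ) [FiniteDimensional ℚ N]
    (A : ValuationSubring Qbar) (hA : A.LiesOverPrime q) :
    ∃ ι : Emb q ↥N, ∀ z : ↥N, ‖ι z‖ = 1 → A.valuation (z : Qbar) = 1 := by
  haveI : NumberField ↥N := { to_charZero := inferInstance, to_finiteDimensional := inferInstance }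
  have hq : ((q : ℕ) : 𝓞 ↥N) ∈ (primeOfValuationSubring q N A hA).asIdeal := by
    rw [mem_primeOfValuationSubring, map_natCast]
    exact A.mem_nonunits_iff.mp hA
  obtain ⟨ι, hι⟩ := Places.exists_primeOf_eq (q := q) (primeOfValuationSubring q N A hA) hq
  refine ⟨ι, fun z hz => ?_⟩
  -- elements of `𝓞 N` of norm one have valuation one
  have hunit : ∀ x : 𝓞 ↥N, ‖ι (x : ↥N)‖ = 1 → A.valuation (((x : ↥N)) : Qbar) = 1 := by
    intro x hx
    have h1 : x ∉ (Places.primeOf ι).asIdeal := by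
      rw [Places.mem_primeOf, hx]
      exact lt_irrefl _
    rw [hι, mem_primeOfValuationSubring, not_lt] at h1
    exact le_antisymm (valuation_intToQbar_le_one N A x) h1
  obtain ⟨n, d, h | h⟩ := (Places.primeOf ι).exists_primeCompl_mul_eq_or_mul_eq (K := ↥N) z
  · have hd1 : ‖ι (((d : 𝓞 ↥N)) : ↥N)‖ = 1 := Places.norm_eq_one_of_notMem ι d.2
    have hn1 : ‖ι ((n : 𝓞 ↥N) : ↥N)‖ = 1 := by
      have := congrArg (fun y => ‖ι y‖) h
      simp only [map_mul, norm_mul] at this
      rw [← this, hz, one_mul]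
      exact hd1
    have h2 := congrArg (fun y : ↥N => A.valuation (y : Qbar)) h
    simp only [IntermediateField.coe_mul, map_mul] at h2
    have e1 : A.valuation (((algebraMap (𝓞 ↥N) ↥N (d : 𝓞 ↥N)) : ↥N) : Qbar) = 1 := hunit _ hd1
    have e2 : A.valuation (((algebraMap (𝓞 ↥N) ↥N n) : ↥N) : Qbar) = 1 := hunit _ hn1
    rw [e1, e2, mul_one] at h2
    exact h2
  · have hd1 : ‖ι (((d : 𝓞 ↥N)) : ↥N)‖ = 1 := Places.norm_eq_one_of_notMem ι d.2
    have hn1 : ‖ι ((n : 𝓞 ↥N) : ↥N)‖ = 1 := by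
      have := congrArg (fun y => ‖ι y‖) h
      simp only [map_mul, norm_mul] at this
      rw [hz, one_mul] at this
      rw [this]
      exact hd1
    have h2 := congrArg (fun y : ↥N => A.valuation (y : Qbar)) h
    simp only [IntermediateField.coe_mul, map_mul] at h2
    have e1 : A.valuation (((algebraMap (𝓞 ↥N) ↥N (d : 𝓞 ↥N)) : ↥N) : Qbar) = 1 := hunit _ hd1
    have e2 : A.valuation (((algebraMap (𝓞 ↥N) ↥N n) : ↥N) : Qbar) = 1 := hunit _ hn1
    rw [e1, e2, mul_one] at h2
    exact h2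

/-- **valuation subrings of `ℚ̄` are induced by embeddings, at finite level**: for a number field `N ⊂ ℚ̄` and
a valuation subring `A` over `q` there is `g ∈ G_ℚ` with `‖τ_q (g z)‖ = 1 → A.valuation z = 1` on `N`. -/
theorem exists_gal_forall_valuation_eq_one (N : FieldQ) [FiniteDimensional ℚ N]
    (A : ValuationSubring Qbar) (hA : A.LiesOverPrime q) :
    ∃ g : GQ, ∀ z ∈ N, ‖padicEmbedding q (g z)‖ = 1 → A.valuation z = 1 := by
  obtain ⟨ι, hι⟩ := exists_emb_forall_valuation_eq_one q N A hA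
  obtain ⟨κ, hκ⟩ := Emb.res_surjective (q := q) (N.val : ↥N →ₐ[ℚ] Qbar) ι
  obtain ⟨g, hg⟩ := exists_gal_eq_comp q κ
  refine ⟨g, fun z hz h => ?_⟩
  have h1 : ι ⟨z, hz⟩ = padicEmbedding q (g z) := by
    rw [← hκ, hg]
    rfl
  exact hι ⟨z, hz⟩ (by rw [h1]; exact h)

/-! ### Kummer extensions unramified outside `S` -/

variable {q}
variable {S : Finset Nat.Primes} {p : ℕ}

/-- **Kummer, global form with a multiplier** (helper7's `isUnramifiedOutside_adjoin_root_of_div` with an arbitrary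
`t ∈ F` in place of a power of `q`).  If `F ⊂ ℚ_S`, `p ∈ S`, `β ^ p ∈ F`, and at every valuation subring `A` over a
prime `q ∉ S` the element `β` is a unit up to an element of `F`, then `F(β) ⊂ ℚ_S`. -/
theorem isUnramifiedOutside_adjoin_root_of_mul (hp : p.Prime) (hpS : (⟨p, hp⟩ : Nat.Primes) ∈ S)
    {F : FieldQ} (hF : F.IsUnramifiedOutside S) {β : Qbar} (hβF : β ^ p ∈ F)
    (hdiv : ∀ r : Nat.Primes, r ∉ S → ∀ A : ValuationSubring Qbar, A.LiesOverPrime (r : ℕ) →
      ∃ t ∈ F, A.valuation (β * t) = 1) :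
    (F ⊔ ℚ⟮β⟯).IsUnramifiedOutside S := by
  have := hF.1
  have halg : IsIntegral ℚ β := (AlgebraicClosure.isAlgebraic ℚ).isIntegral.isIntegral β
  have : FiniteDimensional ℚ ℚ⟮β⟯ := IntermediateField.adjoin.finiteDimensional halg
  refine ⟨IntermediateField.finiteDimensional_sup F ℚ⟮β⟯, fun r hr A hA σ hσ => ?_⟩
  rw [IntermediateField.fixingSubgroup_sup]
  refine Subgroup.mem_inf.mpr ⟨hF.2 r hr A hA hσ, ?_⟩
  have hrp : (r : ℕ) ≠ p := by
    rintro h
    apply hr
    have : r = ⟨p, hp⟩ := Subtype.ext h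
    rw [this]; exact hpS
  obtain ⟨t, htF, ht⟩ := hdiv r hr A hA
  have hσF : ∀ x ∈ F, σ x = x := by
    have h := hF.2 r hr A hA hσ
    rw [IntermediateField.mem_fixingSubgroup_iff] at h
    exact h
  have ht0 : t ≠ 0 := by
    rintro rfl
    rw [mul_zero, map_zero] at ht
    exact zero_ne_one ht
  have hfixF : σ ((β * t) ^ p) = (β * t) ^ p := by
    rw [mul_pow, map_mul, hσF _ hβF, map_pow, hσF _ htF]
  have hfix' : σ (β * t) = β * t :=
    GlobDual.inertia_fixes_of_pow_fixed A r.2 hp hrp hA hσ ht hfixF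
  have hfix : σ β = β := by
    rw [map_mul, hσF _ htF] at hfix'
    exact mul_right_cancel₀ ht0 hfix'
  rw [IntermediateField.mem_fixingSubgroup_iff]
  intro x hx
  have hle : ℚ⟮β⟯ ≤ IntermediateField.fixedField (Subgroup.zpowers σ) := by
    rw [IntermediateField.adjoin_le_iff]
    rintro y hy
    rw [Set.mem_singleton_iff] at hy
    subst hy
    rintro ⟨τ, hτ⟩
    obtain ⟨k, rfl⟩ := Subgroup.mem_zpowers_iff.mp hτ
    change (σ ^ k) y = y
    have h1 : σ ∈ MulAction.stabilizer GQ y := MulAction.mem_stabilizer_iff.mpr hfix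
    exact MulAction.mem_stabilizer_iff.mp (Subgroup.zpow_mem _ h1 k)
  exact hle hx ⟨σ, Subgroup.mem_zpowers σ⟩

/-- **Kummer, embedding form**: if `F ⊂ ℚ_S`, `p ∈ S`, `β ^ p ∈ F` and for all `q ∉ S` and `g ∈ G_ℚ` there is
`t ∈ F` with `‖τ_q (g (β t))‖ = 1`, then `F(β) ⊂ ℚ_S`. -/
theorem isUnramifiedOutside_adjoin_root_of_norm (hp : p.Prime) (hpS : (⟨p, hp⟩ : Nat.Primes) ∈ S)
    {F : FieldQ} (hF : F.IsUnramifiedOutside S) {β : Qbar} (hβF : β ^ p ∈ F)
    (hdiv : ∀ r : Nat.Primes, r ∉ S → ∀ g : GQ, ∃ t ∈ F, ‖padicEmbedding (r : ℕ) (g (β * t))‖ = 1) :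
    (F ⊔ ℚ⟮β⟯).IsUnramifiedOutside S := by
  have := hF.1
  have halg : IsIntegral ℚ β := (AlgebraicClosure.isAlgebraic ℚ).isIntegral.isIntegral β
  have : FiniteDimensional ℚ ℚ⟮β⟯ := IntermediateField.adjoin.finiteDimensional halg
  haveI : FiniteDimensional ℚ ↥(F ⊔ ℚ⟮β⟯) := IntermediateField.finiteDimensional_sup F ℚ⟮β⟯
  refine isUnramifiedOutside_adjoin_root_of_mul hp hpS hF hβF (fun r hr A hA => ?_)
  obtain ⟨g, hg⟩ := exists_gal_forall_valuation_eq_one (r : ℕ) (F ⊔ ℚ⟮β⟯) A hA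
  obtain ⟨t, htF, ht⟩ := hdiv r hr g
  refine ⟨t, htF, hg _ ?_ ht⟩
  exact mul_mem ((le_sup_right : ℚ⟮β⟯ ≤ F ⊔ ℚ⟮β⟯) (mem_adjoin_simple_self ℚ β))
    ((le_sup_left : F ≤ F ⊔ ℚ⟮β⟯) htF)

end Fermat.Agent.S55lib
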