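/-
S55 library, interface (helper4).  **`Ext(M′, J_S/E_S) ≅ Ext(M′, CSfull S)`**.

The cokernel `Q` of the comparison map `cmp S : J_S/E_S → CSfull S = lim_L I_L/(L^×·U^S(L))` is
`lim_L Cl_S(L)`: it is torsion (finiteness of the class number, lead's `Places/ClassTors.lean`) and has no
`p`-torsion for `p ∈ S` (an `S`-ideal whose `p`-th power is principal becomes principal in a Kummer extension
inside `ℚ_S`, `Iface/KummerUnr.lean`).  Hence `p` is bijective on `Q` and `Ext(M′, −)` does not see `Q`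
(`Iface/ExtCompare.lean`) when `M′` is killed by `p`.
-/
import Mathlib
import Fermat.Agent.S55lib.Iface.ClassLevel
import Fermat.Agent.S55lib.Iface.KummerUnr
import Fermat.Agent.S55lib.Iface.ExtCompare
import Fermat.Agent.S55lib.Places.ClassTors
import Fermat.Agent.S55lib.Places.Dense
import Fermat.Agent.S55lib.Cpx.Level

set_option autoImplicit false
set_option linter.style.haveILetI false

noncomputable section

namespace Fermat.Agent.S55lib

open IntermediateField

/-! ### Generic: torsion groups without `p`-torsion are uniquely `p`-divisible -/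

lemma nsmul_bijective_of_torsion {A : Type*} [AddCommGroup A] {p : ℕ} (hp : p.Prime)
    (htors : ∀ a : A, ∃ n : ℕ, n ≠ 0 ∧ n • a = 0) (hpt : ∀ a : A, p • a = 0 → a = 0) :
    Function.Bijective fun a : A => p • a := by
  have hpk : ∀ (k : ℕ) (a : A), p ^ k • a = 0 → a = 0 := by
    intro k
    induction k with
    | zero => intro a h; simpa using h
    | succ k ih =>
      intro a h
      rw [pow_succ, mul_smul] at h
      exact hpt a (ih _ h)
  constructor
  · intro a b hab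
    have h : p • (a - b) = 0 := by
      rw [smul_sub]
      exact sub_eq_zero.2 hab
    exact sub_eq_zero.1 (hpt _ h)
  · intro a
    obtain ⟨n, hn0, hn⟩ := htors a
    obtain ⟨k, m, hm, rfl⟩ := Nat.exists_eq_pow_mul_and_not_dvd hn0 p hp.ne_one
    rw [mul_smul] at hn
    have hma : m • a = 0 := hpk k _ hn
    have hcop : Nat.Coprime m p := ((Nat.Prime.coprime_iff_not_dvd hp).2 hm).symm
    have hgcd := Nat.gcd_eq_gcd_ab m p
    rw [hcop.gcd_eq_one] at hgcd
    refine ⟨Nat.gcdB m p • a, ?_⟩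
    change p • (Nat.gcdB m p • a) = a
    have h1 : ((1 : ℕ) : ℤ) • a = a := by simp
    rw [hgcd, add_smul, mul_smul, mul_smul] at h1
    have h2 : ((m : ℕ) : ℤ) • (Nat.gcdA m p • a) = Nat.gcdA m p • ((m : ℕ) • a) := by
      rw [natCast_zsmul, smul_comm]
    rw [h2, hma, smul_zero, zero_add, natCast_zsmul] at h1
    exact h1

variable (S : Finset Nat.Primes)

/-! ### The cokernel of `cmp S` -/

/-- all relations: `J_S × ∏_{q∉S} U_q × ℚ_S^× → JSfull S` -/
def relBig : JS S × (USfull S × QSunits S) →* JSfull S := (JS.toFull S).coprod (relFull S)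

@[simp] lemma relBig_apply (f : JS S) (v : USfull S) (u : QSunits S) :
    relBig S (f, (v, u)) = JS.toFull S f * ((v : JSfull S) * diagFull S u) := rfl

lemma relBig_smul (h : GQ) (x : JS S × (USfull S × QSunits S)) :
    relBig S (h • x) = h • relBig S x := by
  obtain ⟨f, v, u⟩ := x
  change relBig S (h • f, (h • v, h • u)) = h • relBig S (f, (v, u))
  rw [relBig_apply, relBig_apply, smul_mul', smul_mul', diagFull_smul, JS.toFull_smul]
  rfl

/-- `Q = lim_L Cl_S(L)`, the cokernel of `cmp S` -/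
def ClSlim : Rep ℤ GQ := mdCoker (relBig S) (relBig_smul S)

/-- `JSfull S → Q` -/
def pClSlim : JSfullRep S ⟶ ClSlim S := mdProj (relBig S) (relBig_smul S)

lemma pClSlim_surjective : Function.Surjective (pClSlim S).hom := mdProj_surjective _ _

lemma pClSlim_eq_zero_iff (y : JSfullRep S) : (pClSlim S).hom y = 0 ↔
    ∃ (f : JS S) (v : USfull S) (u : QSunits S),
      JS.toFull S f * ((v : JSfull S) * diagFull S u) = y.toMul := by
  have h0 := mdProj_eq_zero_iff (relBig S) (relBig_smul S) y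
  constructor
  · intro hy
    obtain ⟨x, hx⟩ := h0.1 hy
    exact ⟨x.toMul.1, x.toMul.2.1, x.toMul.2.2, congrArg Additive.toMul hx⟩
  · rintro ⟨f, v, u, h⟩
    exact h0.2 ⟨Additive.ofMul (f, (v, u)), congrArg Additive.ofMul h⟩

/-- `CSfull S → Q` -/
def cokCmp : CSfull S ⟶ ClSlim S :=
  mdCokerMap (relFull S) (relFull_smul S) (relBig S) (relBig_smul S) (MonoidHom.id _) (fun _ _ => rfl)
    (fun x => ⟨(1, x), by
      obtain ⟨v, u⟩ := x
      rw [relBig_apply, map_one, one_mul]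
      rfl⟩)

lemma cokCmp_pCSfull (y : JSfullRep S) :
    (cokCmp S).hom ((pCSfull S).hom y) = (pClSlim S).hom y := rfl

lemma cokCmp_surjective : Function.Surjective (cokCmp S).hom := by
  intro w
  obtain ⟨y, rfl⟩ := pClSlim_surjective S w
  exact ⟨(pCSfull S).hom y, rfl⟩

/-- an element of `JSfull S`, as an element of the representation -/
def JSfull.toRep (y : JSfull S) : JSfullRep S := (Additive.ofMul y : Additive (JSfull S))

/-- an element of `J_S`, as an element of the representation -/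
def JS.toRep (f : JS S) : JSrep S := (Additive.ofMul f : Additive (JS S))

lemma JSfull.toRep_mul (a b : JSfull S) :
    JSfull.toRep S (a * b) = JSfull.toRep S a + JSfull.toRep S b := rfl

lemma JSfull.toRep_pow (a : JSfull S) (n : ℕ) : JSfull.toRep S (a ^ n) = n • JSfull.toRep S a := rfl

lemma JSfull.toRep_surjective (y : JSfullRep S) : ∃ y0 : JSfull S, JSfull.toRep S y0 = y := ⟨y.toMul, rfl⟩

lemma JS.toRep_surjective (y : JSrep S) : ∃ f : JS S, JS.toRep S f = y := ⟨y.toMul, rfl⟩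

lemma cmp_pCS_toRep (f : JS S) :
    (cmp S).hom ((pCS S).hom (JS.toRep S f)) = (pCSfull S).hom (JSfull.toRep S (JS.toFull S f)) := rfl

lemma pCSfull_toRep_eq_zero_iff (y : JSfull S) : (pCSfull S).hom (JSfull.toRep S y) = 0 ↔
    ∃ (v : USfull S) (u : QSunits S), (v : JSfull S) * diagFull S u = y :=
  pCSfull_eq_zero_iff S _

lemma pClSlim_toRep_eq_zero_iff (y : JSfull S) : (pClSlim S).hom (JSfull.toRep S y) = 0 ↔
    ∃ (f : JS S) (v : USfull S) (u : QSunits S),
      JS.toFull S f * ((v : JSfull S) * diagFull S u) = y :=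
  pClSlim_eq_zero_iff S _

/-- exactness of `J_S/E_S → CSfull S → Q` -/
lemma cokCmp_eq_zero_iff (b : CSfull S) : (cokCmp S).hom b = 0 ↔ ∃ a, (cmp S).hom a = b := by
  obtain ⟨y, rfl⟩ := pCSfull_surjective S b
  obtain ⟨y, rfl⟩ := JSfull.toRep_surjective S y
  rw [cokCmp_pCSfull, pClSlim_toRep_eq_zero_iff]
  constructor
  · rintro ⟨f, v, u, rfl⟩
    refine ⟨(pCS S).hom (JS.toRep S f), ?_⟩
    rw [cmp_pCS_toRep, JSfull.toRep_mul, map_add,
      (pCSfull_toRep_eq_zero_iff S _).2 ⟨v, u, rfl⟩, add_zero]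
  · rintro ⟨a, ha⟩
    obtain ⟨f, rfl⟩ := pCS_surjective S a
    obtain ⟨f, rfl⟩ := JS.toRep_surjective S f
    rw [cmp_pCS_toRep] at ha
    have h1 : (pCSfull S).hom (JSfull.toRep S ((JS.toFull S f)⁻¹ * y)) = 0 := by
      rw [JSfull.toRep_mul, map_add, ← ha]
      change (pCSfull S).hom (-(JSfull.toRep S (JS.toFull S f))) + _ = 0
      rw [map_neg, neg_add_cancel]
    obtain ⟨v, u, h⟩ := (pCSfull_toRep_eq_zero_iff S _).1 h1
    refine ⟨f, v, u, ?_⟩
    rw [h, mul_inv_cancel_left]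

/-! ### Ideles which are units outside `S` -/

/-- the `S`-part of an element of `JSfull S` -/
def JSfull.sPart (y : JSfull S) : JS S := JS.mk S fun q => y.1 q.1

lemma JSfull.toFull_sPart_val_of_mem (y : JSfull S) {q : Nat.Primes} (hq : q ∈ S) (g : GQ) :
    (JS.toFull S (JSfull.sPart S y)).1.val S q g = y.1.val S q g := by
  rw [JS.toFull_val_of_mem S _ hq]
  rfl

/-- an element of `JSfull S` which is a unit outside `S` is the product of its `S`-part and an element of
`∏_{q ∉ S} U_q` -/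
lemma JSfull.exists_sPart_mul (y : JSfull S) (hy : ∀ q ∉ S, y.1.IsUnitAt S q) :
    ∃ v : USfull S, JS.toFull S (JSfull.sPart S y) * (v : JSfull S) = y := by
  refine ⟨⟨(JS.toFull S (JSfull.sPart S y))⁻¹ * y, ⟨fun q hq g => ?_, fun q hq g => ?_⟩⟩,
    mul_inv_cancel_left _ _⟩
  · change ((JS.toFull S (JSfull.sPart S y)).1⁻¹ * y.1).val S q g = 1
    rw [JSprod.val_mul, JSprod.val_inv, JSfull.toFull_sPart_val_of_mem S y hq]
    exact inv_mul_cancel₀ (JSprod.val_ne_zero S _ q g)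
  · change ‖((JS.toFull S (JSfull.sPart S y)).1⁻¹ * y.1).val S q g‖ = 1
    rw [JSprod.val_mul, JSprod.val_inv, JS.toFull_val_of_notMem S _ hq, inv_one, one_mul]
    exact hy q hq g

/-- ideles which are units outside `S` are trivial in `Q` -/
lemma pClSlim_eq_zero_of_isUnitAt (y : JSfull S) (hy : ∀ q ∉ S, y.1.IsUnitAt S q) :
    (pClSlim S).hom (JSfull.toRep S y) = 0 := by
  obtain ⟨v, hv⟩ := JSfull.exists_sPart_mul S y hy
  refine (pClSlim_toRep_eq_zero_iff S y).2 ⟨JSfull.sPart S y, v, 1, ?_⟩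
  rw [map_one, mul_one]
  exact hv

/-! ### Normal levels -/

/-- every element of `JSfull S` comes from a normal level `L ⊂ ℚ_S` -/
lemma JSfull.exists_level (y : JSfull S) :
    ∃ (L : FieldQ) (_ : Normal ℚ L) (hL : L.IsUnramifiedOutside S) (ξ : Dev.Idele L),
      ofLevelFull S L hL ξ = y := by
  obtain ⟨⟨F, hF, hy⟩, -⟩ := y.2
  obtain ⟨L, hL', hle, hN⟩ := (LevelClass.unr S).exists_normal hF
  have hL : L.IsUnramifiedOutside S := hL'
  refine ⟨L, hN, hL, ?_⟩
  have h1 : y ∈ (ofLevelFull S L hL).range := by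
    refine (mem_range_ofLevelFull_iff S L hL y).2 (fun s hs => ?_)
    apply Subtype.ext
    apply JSprod.ext S
    intro q g
    exact hy q g s (IntermediateField.fixingSubgroup_antitone hle hs)
  exact h1

/-! ### `Q` is torsion -/

lemma pClSlim_diagFull (u : QSunits S) : (pClSlim S).hom (JSfull.toRep S (diagFull S u)) = 0 := by
  refine (pClSlim_toRep_eq_zero_iff S _).2 ⟨1, 1, u, ?_⟩
  rw [map_one, one_mul]
  exact one_mul _

/-- **`Q = lim_L Cl_S(L)` is torsion** (finiteness of the class number) -/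
theorem ClSlim_torsion (w : ClSlim S) : ∃ n : ℕ, n ≠ 0 ∧ n • w = 0 := by
  obtain ⟨y, rfl⟩ := pClSlim_surjective S w
  obtain ⟨y, rfl⟩ := JSfull.toRep_surjective S y
  obtain ⟨L, hN, hL, ξ, rfl⟩ := JSfull.exists_level S y
  haveI := hN
  haveI : FiniteDimensional ℚ ↥L := hL.1
  haveI : NumberField ↥L := { to_charZero := inferInstance, to_finiteDimensional := inferInstance }
  obtain ⟨n, hn0, a, ha⟩ := Places.exists_ne_zero_pow_mul_diag_mem_Uq (↥L) ξ.1 ξ.2
  refine ⟨n, hn0, ?_⟩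
  have hη : ∀ q ∉ S, (ofLevelFull S L hL (ξ ^ n * Dev.diagI (↥L) a)).1.IsUnitAt S q :=
    fun q _ => (ofLevelProd_isUnitAt_iff S L hL _ q).2 (ha q)
  have h0 := pClSlim_eq_zero_of_isUnitAt S _ hη
  rw [map_mul, map_pow, ofLevelFull_diagI, JSfull.toRep_mul, JSfull.toRep_pow, map_add, map_nsmul,
    pClSlim_diagFull, add_zero] at h0
  exact h0

/-! ### `Q` has no `p`-torsion for `p ∈ S` -/

lemma JSprod.val_pow (x : JSprod S) (n : ℕ) (q : Nat.Primes) (g : GQ) :
    (x ^ n).val S q g = (x.val S q g) ^ n := by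
  induction n with
  | zero => rw [pow_zero, pow_zero]; rfl
  | succ n ih => rw [pow_succ, pow_succ, JSprod.val_mul, ih]

lemma norm_eq_of_norm_sub_lt' {E : Type*} [SeminormedAddCommGroup E] [IsUltrametricDist E] {y z : E}
    (h : ‖y - z‖ < ‖y‖) : ‖z‖ = ‖y‖ := by
  apply le_antisymm
  · have h1 : z = y - (y - z) := by abel
    calc ‖z‖ = ‖y - (y - z)‖ := by rw [← h1]
      _ ≤ max ‖y‖ ‖y - z‖ := LocalUnr.norm_sub_le_max' _ _
      _ = ‖y‖ := max_eq_left h.le
  · by_contra hcon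
    rw [not_le] at hcon
    have h1 : y = z + (y - z) := by abel
    have h2 : ‖y‖ ≤ max ‖z‖ ‖y - z‖ := by
      calc ‖y‖ = ‖z + (y - z)‖ := by rw [← h1]
        _ ≤ max ‖z‖ ‖y - z‖ := IsUltrametricDist.norm_add_le_max _ _
    exact absurd h2 (not_le.2 (max_lt hcon h))

/-- the values of an idele of level `L` can be approximated in absolute value by elements of `L` -/
lemma exists_mem_norm_eq_ofLevelFull (L : FieldQ) [Normal ℚ L] (hL : L.IsUnramifiedOutside S)
    (ξ : Dev.Idele L) (q : Nat.Primes) (g : GQ) :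
    ∃ t ∈ L, ‖padicEmbedding (q : ℕ) (g t)‖ = ‖(ofLevelFull S L hL ξ).1.val S q g‖ := by
  haveI : FiniteDimensional ℚ ↥L := hL.1
  rw [ofLevelFull_val]
  set y : PadicAlgCl (q : ℕ) :=
    (((ξ.1 q).1 (embOf L (q : ℕ) g) : (PadicAlgCl (q : ℕ))ˣ) : PadicAlgCl (q : ℕ)) with hy
  have hy0 : 0 < ‖y‖ := norm_pos_iff.2 (Units.ne_zero _)
  have hmem : y ∈ localField (q : ℕ) ↥L (embOf L (q : ℕ) g) :=
    Jq.val_mem_localField (ξ.1 q).2 (embOf L (q : ℕ) g)
  obtain ⟨t, ht⟩ := Places.isApprox_of_mem_localField (embOf L (q : ℕ) g) hmem ‖y‖ hy0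
  refine ⟨(t : Qbar), t.2, ?_⟩
  rw [← embOf_apply L (q : ℕ) g t]
  exact norm_eq_of_norm_sub_lt' ht

variable {S}

/-- **capitulation**: an idele of `ℚ_S` whose `p`-th power is trivial in `Q` is trivial in `Q` (`p ∈ S`) -/
theorem pClSlim_eq_zero_of_pow {p : ℕ} (hp : p.Prime) (hpS : (⟨p, hp⟩ : Nat.Primes) ∈ S) (y : JSfull S)
    (hy : (pClSlim S).hom (JSfull.toRep S (y ^ p)) = 0) : (pClSlim S).hom (JSfull.toRep S y) = 0 := by
  obtain ⟨f, v, u, h⟩ := (pClSlim_toRep_eq_zero_iff S _).1 hy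
  obtain ⟨L, hN, hL, ξ, hξ⟩ := JSfull.exists_level S y
  haveI := hN
  obtain ⟨F, hF, huF⟩ := u.2
  -- the local identity outside `S`
  have hloc : ∀ r : Nat.Primes, r ∉ S → ∀ g : GQ,
      (v : JSfull S).1.val S r g * padicEmbedding (r : ℕ) (g ((u : Qbarˣ) : Qbar)) = (y.1.val S r g) ^ p := by
    intro r hr g
    have h1 := congrArg (fun z : JSfull S => z.1.val S r g) h
    change ((JS.toFull S f).1 * ((v : JSfull S).1 * (diagFull S u).1)).val S r g = (y.1 ^ p).val S r g at h1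
    rw [JSprod.val_mul, JSprod.val_mul, JS.toFull_val_of_notMem S _ hr, one_mul, diagFull_val,
      JSprod.val_pow] at h1
    exact h1
  have hnorm : ∀ r : Nat.Primes, r ∉ S → ∀ g : GQ,
      ‖padicEmbedding (r : ℕ) (g ((u : Qbarˣ) : Qbar))‖ = ‖y.1.val S r g‖ ^ p := by
    intro r hr g
    have h1 := congrArg norm (hloc r hr g)
    rw [norm_mul, v.2.2 r hr g, one_mul, norm_pow] at h1
    exact h1
  -- a `p`-th root of `u`
  obtain ⟨β, hβ⟩ := IsAlgClosed.exists_pow_nat_eq ((u : Qbarˣ) : Qbar) hp.pos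
  have hβ0 : β ≠ 0 := by
    rintro rfl
    rw [zero_pow hp.ne_zero] at hβ
    exact Units.ne_zero _ hβ.symm
  have hβnorm : ∀ r : Nat.Primes, r ∉ S → ∀ g : GQ,
      ‖padicEmbedding (r : ℕ) (g β)‖ = ‖y.1.val S r g‖ := by
    intro r hr g
    have h1 := hnorm r hr g
    rw [← hβ, map_pow, map_pow, norm_pow] at h1
    exact (pow_left_inj₀ (norm_nonneg _) (norm_nonneg _) hp.ne_zero).1 h1
  -- `β ∈ ℚ_S`
  have hLF : (L ⊔ F).IsUnramifiedOutside S := hL.sup hF
  have hβS : ((L ⊔ F) ⊔ ℚ⟮β⟯).IsUnramifiedOutside S := by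
    refine isUnramifiedOutside_adjoin_root_of_norm hp hpS hLF
      (by rw [hβ]; exact (le_sup_right : F ≤ L ⊔ F) huF) (fun r hr g => ?_)
    obtain ⟨t, htL, ht⟩ := exists_mem_norm_eq_ofLevelFull S L hL ξ r g
    rw [hξ] at ht
    have ht0 : t ≠ 0 := by
      rintro rfl
      rw [map_zero, map_zero, norm_zero] at ht
      exact JSprod.val_ne_zero S y.1 r g (norm_eq_zero.1 ht.symm)
    refine ⟨t⁻¹, (le_sup_left : L ≤ L ⊔ F) (inv_mem htL), ?_⟩
    rw [map_mul, map_mul, norm_mul, hβnorm r hr g, map_inv₀, map_inv₀, norm_inv, ht]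
    exact mul_inv_cancel₀ (norm_ne_zero_iff.2 (JSprod.val_ne_zero S y.1 r g))
  set u' : QSunits S := ⟨Units.mk0 β hβ0, ⟨_, hβS,
    (le_sup_right : ℚ⟮β⟯ ≤ (L ⊔ F) ⊔ ℚ⟮β⟯) (mem_adjoin_simple_self ℚ β)⟩⟩ with hu'
  -- `y / diag β` is a unit outside `S`
  have hunit : ∀ r ∉ S, (y * (diagFull S u')⁻¹).1.IsUnitAt S r := by
    intro r hr g
    change ‖(y.1 * ((diagFull S u').1)⁻¹).val S r g‖ = 1
    rw [JSprod.val_mul, JSprod.val_inv, diagFull_val, norm_mul, norm_inv]
    change ‖y.1.val S r g‖ * ‖padicEmbedding (r : ℕ) (g β)‖⁻¹ = 1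
    rw [hβnorm r hr g]
    exact mul_inv_cancel₀ (norm_ne_zero_iff.2 (JSprod.val_ne_zero S y.1 r g))
  have h0 := pClSlim_eq_zero_of_isUnitAt S _ hunit
  have h1 : y = (y * (diagFull S u')⁻¹) * diagFull S u' := by rw [inv_mul_cancel_right]
  rw [h1, JSfull.toRep_mul, map_add, h0, pClSlim_diagFull, add_zero]

variable (S)

/-- **`Q = lim_L Cl_S(L)` has no `p`-torsion for `p ∈ S`** -/
theorem ClSlim_noPTorsion {p : ℕ} (hp : p.Prime) (hpS : (⟨p, hp⟩ : Nat.Primes) ∈ S) (w : ClSlim S)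
    (hw : p • w = 0) : w = 0 := by
  obtain ⟨y, rfl⟩ := pClSlim_surjective S w
  obtain ⟨y, rfl⟩ := JSfull.toRep_surjective S y
  apply pClSlim_eq_zero_of_pow hp hpS
  rw [JSfull.toRep_pow, map_nsmul]
  exact hw

/-- **multiplication by `p ∈ S` is bijective on `Q`** -/
theorem ClSlim_nsmul_bijective {p : ℕ} (hp : p.Prime) (hpS : (⟨p, hp⟩ : Nat.Primes) ∈ S) :
    Function.Bijective fun w : ClSlim S => p • w :=
  nsmul_bijective_of_torsion hp (ClSlim_torsion S) (ClSlim_noPTorsion S hp hpS)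

/-! ### The comparison of `Ext` groups -/

/-- the basis of open subgroups of `G_ℚ` attached to `ℚ_S` (helper7's `OpenBasis.ofLevel`) -/
abbrev unrBasis : OpenBasis GQ := OpenBasis.ofLevel (MonoidHom.id GQ) (LevelClass.unr S)

lemma CSfull_isSm : IsSm (unrBasis S) (CSfull S) := isSm_ofLevel_iff.2 (CSfull_isSmooth S)

lemma CSrep_isSm : IsSm (unrBasis S) (CSrep S) := isSm_ofLevel_iff.2 (CSrep_isSmooth S)

/-- **`Ext^n(coker d, J_S/E_S) ≅ Ext^n(coker d, CSfull S)`** for `coker d` killed by `p ∈ S`: the class-formation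
module `CSfull S` (to which K4 and the transfer from finite levels apply) and the module `C_S = J_S/E_S` of the
Poitou–Tate sequence have the same `Ext` groups against finite `p`-torsion modules.  (The instance arguments are
stated for the `ℤ`-module structure `hV2` carried by the representations, as in `Cpx/HomRep.lean`.) -/
theorem ExtC_cmp_bijective {p : ℕ} (hp : p.Prime) (hpS : (⟨p, hp⟩ : Nat.Primes) ∈ S)
    {P0 P1 : Rep.{0} ℤ GQ} (d : P1 ⟶ P0)
    [@Module.Finite ℤ P0 _ _ P0.hV2] [@Module.Projective ℤ _ P0 _ P0.hV2]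
    [@Module.Finite ℤ P1 _ _ P1.hV2] [@Module.Projective ℤ _ P1 _ P1.hV2]
    (hP0 : IsSm (unrBasis S) P0) (hP1 : IsSm (unrBasis S) P1)
    (hd : Function.Injective d.hom) (hdp : ∀ x : P0, ∃ y, d.hom y = p • x) (n : ℕ) :
    Function.Bijective ((ExtC.mapR (unrBasis S) d (cmp S)).mapH n) :=
  ExtC.mapR_bijective_of_pdiv (unrBasis S) d hP0 hP1 hd p hdp (cmp S) (cokCmp S) (CSfull_isSm S)
    (cmp_injective S) (cokCmp_surjective S) (cokCmp_eq_zero_iff S) (ClSlim_nsmul_bijective S hp hpS) n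

/-- variant of `ExtC_cmp_bijective` with the binders of helper8's `K4Statement` (the instances are found for the
canonical `ℤ`-module structure of the underlying additive group, finitely generated free modules) -/
theorem ExtC_cmp_bijective' {p : ℕ} (hp : p.Prime) (hpS : (⟨p, hp⟩ : Nat.Primes) ∈ S)
    (P0 P1 : Rep.{0} ℤ GQ) [Module.Finite ℤ P0] [Module.Free ℤ P0] [Module.Finite ℤ P1] [Module.Free ℤ P1]
    (hP0 : IsSm (unrBasis S) P0) (hP1 : IsSm (unrBasis S) P1) (d : P1 ⟶ P0)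
    (hd : Function.Injective d.hom) (hdp : ∀ x : P0, ∃ y, d.hom y = p • x) (n : ℕ) :
    Function.Bijective ((ExtC.mapR (unrBasis S) d (cmp S)).mapH n) := by
  have e0 : P0.hV2 = AddCommGroup.toIntModule _ := Subsingleton.elim _ _
  have e1 : P1.hV2 = AddCommGroup.toIntModule _ := Subsingleton.elim _ _
  haveI i0 : @Module.Finite ℤ P0 _ _ P0.hV2 := by rw [e0]; infer_instance
  haveI i1 : @Module.Finite ℤ P1 _ _ P1.hV2 := by rw [e1]; infer_instance
  haveI j0 : @Module.Projective ℤ _ P0 _ P0.hV2 := by rw [e0]; infer_instance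
  haveI j1 : @Module.Projective ℤ _ P1 _ P1.hV2 := by rw [e1]; infer_instance
  exact ExtC_cmp_bijective S hp hpS d hP0 hP1 hd hdp n

end Fermat.Agent.S55lib
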