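/-
S55 library, interface (helper4).  **`H¹(Gal(M/F), −)` of the semilocal groups.**

For `M/F` finite Galois (fields finite over `ℚ`), `Γ = Gal(M/F)`:
* `Jq.exists_coboundary` : semilocal Hilbert 90 — every 1-cocycle `Γ → J_q(M)` is a coboundary
  (Dedekind independence of the characters `ι ∘ γ`, one `θ ∈ M` for all embeddings `ι` at once because
  `M` is not a finite union of proper `ℚ`-subspaces);
* `Uq.exists_coboundary` : if all local fields `ℚ_q(ι M)` have value group `q^ℤ` (helper2's `UnramAt`), every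
  1-cocycle `Γ → U_q(M)` is a coboundary of an element of `U_q(M)`;
* `unitsOutside.exists_coboundary` : hence every 1-cocycle `Γ → ∏_{q ∉ T} U_q(M)` (helper5's `Dev.unitsOutside M T`)
  is a coboundary, when `M` is unramified outside `T`.
-/
import Mathlib
import Fermat.Agent.S55lib.Dev.Idele
import Fermat.Agent.S55lib.FirstIneq.UnitsLocal

set_option autoImplicit false
set_option linter.style.haveILetI false
set_option linter.unusedSectionVars false

noncomputable section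

namespace Fermat.Agent.S55lib

open IntermediateField

variable {q : ℕ} [Fact q.Prime] {F M : Type*} [Field F] [Field M] [Algebra ℚ F] [Algebra ℚ M]
  [Algebra F M] [IsScalarTower ℚ F M]

/-- a 1-cocycle `Gal(M/F) → J_q(M)` -/
def IsJqCocycle (c : (M ≃ₐ[F] M) → Jq q M) : Prop :=
  ∀ γ δ : M ≃ₐ[F] M, c (γ * δ) = autToQ F γ • c δ * c γ

lemma IsJqCocycle.apply {c : (M ≃ₐ[F] M) → Jq q M} (hc : IsJqCocycle c) (γ δ : M ≃ₐ[F] M)
    (ι : Emb q M) :
    (((c (γ * δ)).1 ι : (PadicAlgCl q)ˣ) : PadicAlgCl q) =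
      ((c δ).1 (ι.comp ((autToQ F γ : M ≃ₐ[ℚ] M) : M →ₐ[ℚ] M)) : (PadicAlgCl q)ˣ) * ((c γ).1 ι : (PadicAlgCl q)ˣ) := by
  rw [hc γ δ]
  rfl

section H90

variable [FiniteDimensional ℚ M] [FiniteDimensional F M]

/-- the Poincaré series `θ ↦ ∑_γ c_γ(ι) · ι(γ θ)`, as a `ℚ`-linear map -/
def poincare (c : (M ≃ₐ[F] M) → Jq q M) (ι : Emb q M) : M →ₗ[ℚ] PadicAlgCl q :=
  ∑ γ : M ≃ₐ[F] M, (((c γ).1 ι : (PadicAlgCl q)ˣ) : PadicAlgCl q) •
    (ι.comp ((autToQ F γ : M ≃ₐ[ℚ] M) : M →ₐ[ℚ] M)).toLinearMap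

lemma poincare_apply (c : (M ≃ₐ[F] M) → Jq q M) (ι : Emb q M) (θ : M) :
    poincare c ι θ = ∑ γ : M ≃ₐ[F] M, (((c γ).1 ι : (PadicAlgCl q)ˣ) : PadicAlgCl q) * ι (γ θ) := by
  simp [poincare, LinearMap.sum_apply]

/-- Dedekind: the Poincaré series is not identically zero -/
lemma poincare_ne_zero (c : (M ≃ₐ[F] M) → Jq q M) (ι : Emb q M) : poincare c ι ≠ 0 := by
  intro h0
  -- the characters `ι ∘ γ`
  let χ : (M ≃ₐ[F] M) → (M →* PadicAlgCl q) := fun γ =>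
    ((ι.comp ((autToQ F γ : M ≃ₐ[ℚ] M) : M →ₐ[ℚ] M) : M →ₐ[ℚ] PadicAlgCl q) : M →* PadicAlgCl q)
  have hχ : Function.Injective χ := by
    intro γ δ h
    ext x
    have := congrArg (fun f : M →* PadicAlgCl q => f x) h
    exact ι.injective this
  have hli : LinearIndependent (PadicAlgCl q) (fun γ : M ≃ₐ[F] M => ((χ γ : M →* PadicAlgCl q) : M → PadicAlgCl q)) :=
    (linearIndependent_monoidHom M (PadicAlgCl q)).comp χ hχ
  rw [Fintype.linearIndependent_iff] at hli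
  have hsum : ∑ γ : M ≃ₐ[F] M, (((c γ).1 ι : (PadicAlgCl q)ˣ) : PadicAlgCl q) •
      ((χ γ : M →* PadicAlgCl q) : M → PadicAlgCl q) = 0 := by
    funext θ
    have := congrArg (fun Λ : M →ₗ[ℚ] PadicAlgCl q => Λ θ) h0
    rw [poincare_apply] at this
    simp only [Finset.sum_apply, Pi.smul_apply, smul_eq_mul, Pi.zero_apply]
    exact this
  exact Units.ne_zero _ (hli _ hsum 1)

/-- one `θ` works for all embeddings -/
lemma exists_poincare_ne_zero (c : (M ≃ₐ[F] M) → Jq q M) :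
    ∃ θ : M, ∀ ι : Emb q M, poincare c ι θ ≠ 0 := by
  by_contra hcon
  push Not at hcon
  have hcov : ⋃ ι : Emb q M, ((LinearMap.ker (poincare c ι) : Subspace ℚ M) : Set M) = Set.univ := by
    apply Set.eq_univ_of_forall
    intro θ
    obtain ⟨ι, hι⟩ := hcon θ
    exact Set.mem_iUnion.2 ⟨ι, hι⟩
  obtain ⟨ι, hι⟩ := Subspace.exists_eq_top_of_iUnion_eq_univ hcov
  exact poincare_ne_zero c ι (LinearMap.ker_eq_top.1 hι)

/-- **semilocal Hilbert 90**: every 1-cocycle `Gal(M/F) → J_q(M)` is a coboundary -/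
theorem Jq.exists_coboundary (c : (M ≃ₐ[F] M) → Jq q M) (hc : IsJqCocycle c) :
    ∃ b : Jq q M, ∀ γ : M ≃ₐ[F] M, c γ = autToQ F γ • b / b := by
  obtain ⟨θ, hθ⟩ := exists_poincare_ne_zero c
  -- `b⁻¹` is the Poincaré series
  have hequiv : ∀ (d : GalQq q) (ι : Emb q M), poincare c (d • ι) θ = d (poincare c ι θ) := by
    intro d ι
    rw [poincare_apply, poincare_apply, map_sum]
    refine Finset.sum_congr rfl fun γ _ => ?_
    rw [map_mul, (c γ).2 d ι]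
    rfl
  let a : Jq q M := ⟨fun ι => Units.mk0 (poincare c ι θ) (hθ ι), fun d ι => hequiv d ι⟩
  have ha : ∀ ι : Emb q M, (((a.1 ι : (PadicAlgCl q)ˣ)) : PadicAlgCl q) = poincare c ι θ := fun ι => rfl
  -- `δ • a = a / c δ`
  have hkey : ∀ δ : M ≃ₐ[F] M, (autToQ F δ • a) * c δ = a := by
    intro δ
    ext ι
    change (((a.1 (ι.comp ((autToQ F δ : M ≃ₐ[ℚ] M) : M →ₐ[ℚ] M)) : (PadicAlgCl q)ˣ)) : PadicAlgCl q) *
      (((c δ).1 ι : (PadicAlgCl q)ˣ) : PadicAlgCl q) = _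
    rw [ha, ha, poincare_apply, poincare_apply, Finset.sum_mul]
    conv_rhs => rw [← Equiv.sum_comp (Equiv.mulLeft δ)]
    refine Finset.sum_congr rfl fun γ _ => ?_
    rw [Equiv.coe_mulLeft, hc.apply δ γ ι]
    simp only [AlgHom.comp_apply, AlgEquiv.coe_toAlgHom, autToQ_apply, AlgEquiv.mul_apply]
    ring
  refine ⟨a⁻¹, fun δ => ?_⟩
  rw [smul_inv', inv_div_inv, eq_div_iff_mul_eq'', mul_comm, mul_comm]
  exact hkey δ

end H90

/-! ### Units at unramified primes -/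

section Units

variable [FiniteDimensional ℚ M] [FiniteDimensional F M]

/-- `(q : ℚ̄_q)^n` as a unit -/
def qPow (q : ℕ) [Fact q.Prime] (n : ℤ) : (PadicAlgCl q)ˣ :=
  (Units.mk0 ((q : ℕ) : PadicAlgCl q) (by exact_mod_cast (Fact.out : q.Prime).ne_zero)) ^ n

lemma coe_qPow (n : ℤ) : ((qPow q n : (PadicAlgCl q)ˣ) : PadicAlgCl q) = ((q : ℕ) : PadicAlgCl q) ^ n := by
  rw [qPow, Units.val_zpow_eq_zpow_val, Units.val_mk0]

lemma norm_qPow (n : ℤ) : ‖((qPow q n : (PadicAlgCl q)ˣ) : PadicAlgCl q)‖ = ((q : ℝ) ^ n)⁻¹ := by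
  rw [coe_qPow, norm_zpow, FirstIneq.norm_natCast_padicAlgCl, inv_zpow]

lemma galQq_qPow (d : GalQq q) (n : ℤ) :
    d ((qPow q n : (PadicAlgCl q)ˣ) : PadicAlgCl q) = ((qPow q n : (PadicAlgCl q)ˣ) : PadicAlgCl q) := by
  rw [coe_qPow, map_zpow₀, map_natCast]

lemma zpow_q_injective : Function.Injective fun n : ℤ => (q : ℝ) ^ n :=
  zpow_right_injective₀ (Nat.cast_pos.mpr (Fact.out : q.Prime).pos)
    (by exact_mod_cast (Fact.out : q.Prime).one_lt.ne')

/-- **units at unramified primes have trivial `H¹`**: if all the local fields `ℚ_q(ι M)` have value group `q^ℤ`,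
every 1-cocycle `Gal(M/F) → U_q(M)` is the coboundary of an element of `U_q(M)`. -/
theorem Uq.exists_coboundary (hram : ∀ ι : Emb q M, FirstIneq.UnramAt q (localField q M ι))
    (c : (M ≃ₐ[F] M) → Jq q M) (hc : IsJqCocycle c) (hcU : ∀ γ, c γ ∈ Uq q M) :
    ∃ u : Jq q M, u ∈ Uq q M ∧ ∀ γ : M ≃ₐ[F] M, c γ = autToQ F γ • u / u := by
  obtain ⟨b, hb⟩ := Jq.exists_coboundary c hc
  -- the valuation of `b`
  have hval : ∀ ι : Emb q M, ∃ n : ℤ, ‖((b.1 ι : (PadicAlgCl q)ˣ) : PadicAlgCl q)‖ = (q : ℝ) ^ n :=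
    fun ι => hram ι _ (Jq.val_mem_localField b.2 ι) (Units.ne_zero _)
  choose n hn using hval
  have hnd : ∀ (d : GalQq q) (ι : Emb q M), n (d • ι) = n ι := by
    intro d ι
    apply zpow_q_injective (q := q)
    change (q : ℝ) ^ n (d • ι) = (q : ℝ) ^ n ι
    rw [← hn, ← hn, b.2 d ι]
    exact (spectralNorm_eq_of_equiv d _).symm
  have hnγ : ∀ (γ : M ≃ₐ[F] M) (ι : Emb q M),
      n (ι.comp ((autToQ F γ : M ≃ₐ[ℚ] M) : M →ₐ[ℚ] M)) = n ι := by
    intro γ ι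
    apply zpow_q_injective (q := q)
    change (q : ℝ) ^ n _ = (q : ℝ) ^ n ι
    rw [← hn, ← hn]
    have h1 := congrArg (fun f : Jq q M => ‖((f.1 ι : (PadicAlgCl q)ˣ) : PadicAlgCl q)‖) (hb γ)
    change _ = ‖(((autToQ F γ • b).1 ι / b.1 ι : (PadicAlgCl q)ˣ) : PadicAlgCl q)‖ at h1
    rw [hcU γ ι, Units.val_div_eq_div_val, norm_div] at h1
    have h0 : ‖((b.1 ι : (PadicAlgCl q)ˣ) : PadicAlgCl q)‖ ≠ 0 := norm_ne_zero_iff.2 (Units.ne_zero _)
    rw [eq_div_iff h0, one_mul] at h1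
    exact h1.symm
  -- normalise
  let u : Jq q M := ⟨fun ι => b.1 ι * qPow q (n ι), fun d ι => by
    rw [Units.val_mul, Units.val_mul, map_mul, b.2 d ι, hnd d ι, galQq_qPow]⟩
  refine ⟨u, fun ι => ?_, fun γ => ?_⟩
  · change ‖((b.1 ι * qPow q (n ι) : (PadicAlgCl q)ˣ) : PadicAlgCl q)‖ = 1
    rw [Units.val_mul, norm_mul, hn ι, norm_qPow]
    exact mul_inv_cancel₀ (zpow_ne_zero _ (by exact_mod_cast (Fact.out : q.Prime).ne_zero))
  · rw [hb γ]
    ext ι
    change (((autToQ F γ • b).1 ι / b.1 ι : (PadicAlgCl q)ˣ) : PadicAlgCl q) =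
      (((b.1 (ι.comp ((autToQ F γ : M ≃ₐ[ℚ] M) : M →ₐ[ℚ] M)) *
        qPow q (n (ι.comp ((autToQ F γ : M ≃ₐ[ℚ] M) : M →ₐ[ℚ] M)))) / (b.1 ι * qPow q (n ι)) :
          (PadicAlgCl q)ˣ) : PadicAlgCl q)
    rw [hnγ γ ι, mul_div_mul_right_eq_div]
    rfl

end Units

/-! ### The units outside `T` -/

section Outside

variable [FiniteDimensional ℚ M] [FiniteDimensional F M]

open Classical in
/-- **the units outside `T` have trivial `H¹`** when `M` is unramified outside `T`: every 1-cocycle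
`Gal(M/F) → ∏_{q ∉ T} U_q(M)` is a coboundary. -/
theorem unitsOutside.exists_coboundary (T : Set Nat.Primes)
    (hram : ∀ r : Nat.Primes, r ∉ T → ∀ ι : Emb (r : ℕ) M, FirstIneq.UnramAt (r : ℕ) (localField (r : ℕ) M ι))
    (c : (M ≃ₐ[F] M) → Dev.Idele M) (hc : ∀ γ δ : M ≃ₐ[F] M, c (γ * δ) = autToQ F γ • c δ * c γ)
    (hcU : ∀ γ, c γ ∈ Dev.unitsOutside M T) :
    ∃ u : Dev.Idele M, u ∈ Dev.unitsOutside M T ∧ ∀ γ : M ≃ₐ[F] M, c γ = autToQ F γ • u / u := by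
  have hloc : ∀ r : Nat.Primes, r ∉ T → ∃ u : Jq (r : ℕ) M, u ∈ Uq (r : ℕ) M ∧
      ∀ γ : M ≃ₐ[F] M, (c γ).1 r = autToQ F γ • u / u := by
    intro r hr
    refine Uq.exists_coboundary (hram r hr) (fun γ => (c γ).1 r) (fun γ δ => ?_) (fun γ => (hcU γ).1 r hr)
    exact congrArg (fun x : Dev.Idele M => x.1 r) (hc γ δ)
  choose u hu1 hu2 using hloc
  have hmem : ∀ r : Nat.Primes, (if h : r ∈ T then (1 : Jq (r : ℕ) M) else u r h) ∈ Uq (r : ℕ) M := by
    intro r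
    by_cases h : r ∈ T
    · rw [dif_pos h]; exact (Uq (r : ℕ) M).one_mem
    · rw [dif_neg h]; exact hu1 r h
  refine ⟨⟨fun r => if h : r ∈ T then 1 else u r h, ?_⟩, ⟨fun r _ => hmem r, fun r hr => dif_pos hr⟩, ?_⟩
  · rw [Dev.mem_Idele_iff]
    have : {r : Nat.Primes | (if h : r ∈ T then (1 : Jq (r : ℕ) M) else u r h) ∉ Uq (r : ℕ) M} = ∅ := by
      ext r
      simp only [Set.mem_ofPred_eq, Set.mem_empty_iff_false, iff_false, not_not]
      exact hmem r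
    rw [this]
    exact Set.finite_empty
  · intro γ
    apply Dev.Idele.ext
    intro r
    rw [Dev.Idele.div_apply, Dev.Idele.smul_apply]
    by_cases h : r ∈ T
    · change (c γ).1 r = autToQ F γ • (if h : r ∈ T then (1 : Jq (r : ℕ) M) else u r h) /
        (if h : r ∈ T then (1 : Jq (r : ℕ) M) else u r h)
      rw [dif_pos h, smul_one, div_one]
      exact (hcU γ).2 r h
    · change (c γ).1 r = autToQ F γ • (if h : r ∈ T then (1 : Jq (r : ℕ) M) else u r h) /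
        (if h : r ∈ T then (1 : Jq (r : ℕ) M) else u r h)
      rw [dif_neg h]
      exact hu2 r h γ

end Outside

end Fermat.Agent.S55lib
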