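/-
S55 library, interface (helper4).  **Galois descent for the class modules `𝒞_T(M)` at unramified levels.**

helper5's `Dev/DescentS.lean` proves: for `M/F` finite Galois and `T ≠ ∅`, `𝒞_T(F) → 𝒞_T(M)` is injective, with image
the `Gal(M/F)`-invariants provided `Dev.UnitsH1Trivial F T` (`H¹(Gal(M/F), ∏_{q∉T} U_q(M)) = 0`, cocycle form).
Here that hypothesis is discharged from `Iface/UnitsH1.lean` when `M` is unramified outside `T`
(all local fields at `q ∉ T` have value group `q^ℤ`).
-/
import Mathlib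
import Fermat.Agent.S55lib.Iface.UnitsH1
import Fermat.Agent.S55lib.Dev.DescentS

set_option autoImplicit false
set_option linter.style.haveILetI false
set_option linter.unusedSectionVars false

noncomputable section

namespace Fermat.Agent.S55lib

open Dev

variable (F : Type*) {M : Type*} [Field F] [Field M] [Algebra ℚ F] [Algebra ℚ M] [Algebra F M]
  [IsScalarTower ℚ F M] [Algebra.IsAlgebraic ℚ F] [FiniteDimensional ℚ M] [FiniteDimensional F M]
  [IsGalois F M]

/-- **`H¹(Gal(M/F), ∏_{q∉T} U_q(M)) = 0`** when `M` is unramified outside `T` -/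
theorem unitsH1Trivial_of_unramAt (T : Set Nat.Primes)
    (hram : ∀ r : Nat.Primes, r ∉ T → ∀ ι : Emb (r : ℕ) M, FirstIneq.UnramAt (r : ℕ) (localField (r : ℕ) M ι)) :
    UnitsH1Trivial F (M := M) T :=
  fun u hu hc => unitsOutside.exists_coboundary T hram u hc hu

/-- **Galois descent for `𝒞_T`**: if `M` is unramified outside `T ≠ ∅`, a `Gal(M/F)`-invariant class of
`𝒞_T(M)` comes from `𝒞_T(F)`. -/
theorem ClassGrpS.exists_incl_eq_of_invariant_of_unramAt {T : Set Nat.Primes} (hT : T.Nonempty)
    (hram : ∀ r : Nat.Primes, r ∉ T → ∀ ι : Emb (r : ℕ) M, FirstIneq.UnramAt (r : ℕ) (localField (r : ℕ) M ι))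
    (c : ClassGrpS M T) (hc : ∀ γ : M ≃ₐ[F] M, autToQ F γ • c = c) :
    ∃ c' : ClassGrpS F T, ClassGrpS.incl (IsScalarTower.toAlgHom ℚ F M) T c' = c :=
  ClassGrpS.exists_incl_eq_of_invariant F hT (unitsH1Trivial_of_unramAt F T hram) c hc

end Fermat.Agent.S55lib
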