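/-
S55 library, interface (helper4).  **(T3) The invariants of `CSfull S`**: for `L ⊂ ℚ_S` normal over `ℚ` and
`S ≠ ∅`, the class map `clsLevelHom : 𝒞_S(L) → CSfull S` (`Iface/ClassLevel.lean`) is an isomorphism onto the
`Gal(ℚ̄/L)`-invariants.  Injectivity is `clsLevelHom_injective`; surjectivity is the limit over the normal levels
`L′ ⊇ L` of Galois descent for `𝒞_S` (`Iface/ClassDescent.lean`), whose ramification hypothesis is discharged by
`unramAt_localField` (`Iface/RamBridge.lean`).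
-/
import Mathlib
import Fermat.Agent.S55lib.Iface.ClassLevel
import Fermat.Agent.S55lib.Iface.ClassDescent
import Fermat.Agent.S55lib.Iface.RamBridge

set_option autoImplicit false
set_option linter.style.haveILetI false
set_option linter.unusedSectionVars false

noncomputable section

namespace Fermat.Agent.S55lib

open IntermediateField

variable (S : Finset Nat.Primes)

/-- every element of `JSfull S` comes from a normal level `L′ ⊂ ℚ_S` containing a given level -/
lemma JSfull.exists_level_ge (y : JSfull S) (L₀ : FieldQ) (hL₀ : L₀.IsUnramifiedOutside S) :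
    ∃ (L : FieldQ) (_ : Normal ℚ L) (hL : L.IsUnramifiedOutside S) (_ : L₀ ≤ L) (ξ : Dev.Idele L),
      ofLevelFull S L hL ξ = y := by
  obtain ⟨⟨F, hF, hy⟩, -⟩ := y.2
  obtain ⟨L, hL', hle, hN⟩ := (LevelClass.unr S).exists_normal (F := F ⊔ L₀) (hF.sup hL₀)
  have hL : L.IsUnramifiedOutside S := hL'
  refine ⟨L, hN, hL, le_sup_right.trans hle, ?_⟩
  have h1 : y ∈ (ofLevelFull S L hL).range := by
    refine (mem_range_ofLevelFull_iff S L hL y).2 (fun s hs => ?_)
    apply Subtype.ext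
    apply JSprod.ext S
    intro q g
    exact hy q g s (IntermediateField.fixingSubgroup_antitone (le_sup_left.trans hle) hs)
  exact h1

section Tower

variable (L L' : FieldQ) [Normal ℚ L] [Normal ℚ L'] (hL : L.IsUnramifiedOutside S)
  (hL' : L'.IsUnramifiedOutside S) (φ : ↥L →ₐ[ℚ] ↥L') (hφ : ∀ x : ↥L, ((φ x : ↥L') : Qbar) = (x : Qbar))

include hφ

/-- restriction of the embeddings `τ_q ∘ g` from `L′` to `L` -/
lemma embOf_res (q : ℕ) [Fact q.Prime] (g : GQ) : Emb.res φ (embOf L' q g) = embOf L q g := by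
  ext x
  rw [Emb.res_apply, embOf_apply, embOf_apply, hφ]

/-- compatibility of the level maps in a tower -/
lemma ofLevelFull_incl (x : Dev.Idele L) :
    ofLevelFull S L' hL' (Dev.Idele.incl φ x) = ofLevelFull S L hL x := by
  apply Subtype.ext
  apply JSprod.ext S
  intro q g
  change ((((Dev.Idele.incl φ x).1 q).1 (embOf L' (q : ℕ) g) : (PadicAlgCl (q : ℕ))ˣ) : PadicAlgCl (q : ℕ)) =
    (((x.1 q).1 (embOf L (q : ℕ) g) : (PadicAlgCl (q : ℕ))ˣ) : PadicAlgCl (q : ℕ))
  rw [Dev.Idele.incl_apply, Jq.incl_apply, embOf_res L L' φ hφ]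

lemma ideleToCSfull_incl (x : Dev.Idele L) :
    ideleToCSfull S L' hL' (Dev.Idele.incl φ x) = ideleToCSfull S L hL x := by
  apply congrArg Multiplicative.ofAdd
  change (pCSfull S).hom (Additive.ofMul (ofLevelFull S L' hL' _)) = _
  rw [ofLevelFull_incl S L L' hL hL' φ hφ]
  rfl

/-- compatibility of the class maps in a tower -/
lemma clsLevelHom_incl (hS : S.Nonempty) (c : Dev.ClassGrpS (↥L) (S : Set Nat.Primes)) :
    clsLevelHom S L' hL' hS (Dev.ClassGrpS.incl φ (S : Set Nat.Primes) c) = clsLevelHom S L hL hS c := by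
  obtain ⟨x, rfl⟩ := QuotientGroup.mk_surjective c
  exact ideleToCSfull_incl S L L' hL hL' φ hφ x

end Tower

/-! ### The invariants -/

/-- **(T3, surjectivity)** a `Gal(ℚ̄/L)`-invariant element of `CSfull S` comes from `𝒞_S(L)` -/
theorem exists_clsLevelHom_eq_of_invariant (L : FieldQ) [Normal ℚ L] (hL : L.IsUnramifiedOutside S)
    (hS : S.Nonempty) (c : CSfull S) (hc : ∀ s ∈ L.fixingSubgroup, (CSfull S).ρ s c = c) :
    ∃ c' : Dev.ClassGrpS (↥L) (S : Set Nat.Primes), (clsLevelHom S L hL hS c').toAdd = c := by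
  obtain ⟨y, rfl⟩ := pCSfull_surjective S c
  obtain ⟨L', hN', hL', hle, ξ, hξ⟩ := JSfull.exists_level_ge S y.toMul L hL
  haveI := hN'
  haveI : FiniteDimensional ℚ ↥L' := hL'.1
  haveI : FiniteDimensional ℚ ↥L := hL.1
  letI alg : Algebra ↥L ↥L' := (IntermediateField.inclusion hle).toRingHom.toAlgebra
  haveI tower : IsScalarTower ℚ ↥L ↥L' := IsScalarTower.of_algebraMap_eq (fun x => by
    rw [eq_ratCast, eq_ratCast, map_ratCast])
  haveI : FiniteDimensional ↥L ↥L' := FiniteDimensional.right ℚ ↥L ↥L'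
  haveI : IsGalois ℚ ↥L' := ⟨⟩
  haveI : IsGalois ↥L ↥L' := IsGalois.tower_top_of_isGalois ℚ ↥L ↥L'
  have hφ : ∀ x : ↥L, (((IsScalarTower.toAlgHom ℚ ↥L ↥L') x : ↥L') : Qbar) = (x : Qbar) := fun x => rfl
  have hS' : (S : Set Nat.Primes).Nonempty := hS
  -- `c` is the class of `ξ` at level `L′`
  have hcξ : (clsLevelHom S L' hL' hS (QuotientGroup.mk ξ)).toAdd = (pCSfull S).hom y := by
    rw [clsLevelHom_mk, ideleToCSfull_apply, hξ]
    rfl
  -- invariance under `Gal(L′/L)`
  have hinv : ∀ γ : ↥L' ≃ₐ[↥L] ↥L',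
      autToQ ↥L γ • (QuotientGroup.mk ξ : Dev.ClassGrpS (↥L') (S : Set Nat.Primes)) = QuotientGroup.mk ξ := by
    intro γ
    obtain ⟨s, hs⟩ := resL_surjective L' (autToQ ↥L γ)
    have hsL : s ∈ L.fixingSubgroup := by
      rw [IntermediateField.mem_fixingSubgroup_iff]
      intro x hx
      have h1 := resL_apply L' s ⟨x, hle hx⟩
      rw [hs, autToQ_apply] at h1
      have h2 : γ (⟨x, hle hx⟩ : ↥L') = ⟨x, hle hx⟩ := γ.commutes ⟨x, hx⟩
      rw [h2] at h1
      exact h1.symm
    apply clsLevelHom_injective S L' hL' hS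
    apply Multiplicative.toAdd.injective
    rw [← hs, clsLevelHom_smul, hcξ]
    exact hc s hsL
  obtain ⟨c', hc'⟩ := ClassGrpS.exists_incl_eq_of_invariant_of_unramAt (F := ↥L) (M := ↥L') hS'
    (fun r hr ι => unramAt_localField S L' hL' r (by simpa using hr) ι) _ hinv
  refine ⟨c', ?_⟩
  rw [← clsLevelHom_incl S L L' hL hL' (IsScalarTower.toAlgHom ℚ ↥L ↥L') hφ hS c', hc', hcξ]

/-- **(T3)** the image of `𝒞_S(L)` in `CSfull S` is the module of `Gal(ℚ̄/L)`-invariants -/
theorem mem_range_clsLevelHom_iff (L : FieldQ) [Normal ℚ L] (hL : L.IsUnramifiedOutside S)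
    (hS : S.Nonempty) (c : CSfull S) :
    (∃ c' : Dev.ClassGrpS (↥L) (S : Set Nat.Primes), (clsLevelHom S L hL hS c').toAdd = c) ↔
      ∀ s ∈ L.fixingSubgroup, (CSfull S).ρ s c = c := by
  constructor
  · rintro ⟨c', rfl⟩ s hs
    exact clsLevelHom_invariant S L hL hS c' s hs
  · exact exists_clsLevelHom_eq_of_invariant S L hL hS c

end Fermat.Agent.S55lib
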