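/-
S55 library, interface (helper4).  **The finite-level ↔ smooth dictionary, abstract form.**

helper3's `LocalUnr/Formation.lean` (for `Gal(Ω/E)` acting on `Ωˣ`) in an axiomatic setting, on helper7's `Cpx` hub:
for a group `V` with a basis `𝒱` of open subgroups and a `V`-module `A`, a *level* `𝓕 : Lvl 𝒱 A` is a surjection
`r : V → Γ` with open kernel, a `Γ`-module `B` and an injective morphism `j : res r B ⟶ A` whose image is the
module of `ker r`-invariants of `A`.  Then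

* `𝓕.infl : Cpx.Hom (Call 𝓕.B) (Csm 𝒱 A)` (inflation of cochains), `infl_val`, `infl_injective`,
  `exists_infl_eq_of_ker_le` (descent of a smooth cochain whose level contains `ker r`);
* `𝓕.inflH n : groupCohomology 𝓕.B n →+ Hsm 𝒱 A n`;
* morphisms of levels `Lvl.Hom 𝓕 𝓕'` (`𝓕'` deeper): `h.infC`, `h.inf n = groupCohomology.map h.ρ h.φ n`,
  **(c)** `inflH_inf`; the canonical morphism `Lvl.homOfLE` when `ker r' ≤ ker r`;
* for a cofinal family of levels (`Lvl.Cofinal`): **(a)** `exists_inflH_eq`, **(b)** `exists_inf_eq_zero`,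
  i.e. `Hsm 𝒱 A n = colim Hⁿ(Γ, B)` elementwise.
-/
import Mathlib
import Fermat.Agent.S55lib.Cpx.Bridge

set_option autoImplicit false
set_option linter.style.haveILetI false
set_option linter.unusedSectionVars false

noncomputable section

namespace Fermat.Agent.S55lib

universe u

open groupCohomology CategoryTheory

variable {k V : Type u} [CommRing k] [Group V]

/-- a finite level of the `V`-module `A` -/
structure Lvl (𝒱 : OpenBasis V) (A : Rep.{u} k V) where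
  /-- the finite quotient -/
  Γ : Type u
  /-- its group structure -/
  [grp : Group Γ]
  /-- the projection -/
  r : V →* Γ
  /-- the module of the level -/
  B : Rep.{u} k Γ
  /-- the inclusion of the level -/
  j : Rep.res r B ⟶ A
  r_surj : Function.Surjective r
  j_inj : Function.Injective j.hom
  open_ker : ∃ U ∈ 𝒱.sets, U ≤ r.ker
  range_j : ∀ a : A, (∀ s ∈ r.ker, A.ρ s a = a) → ∃ b, j.hom b = a

attribute [instance] Lvl.grp

namespace Lvl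

variable {𝒱 : OpenBasis V} {A : Rep.{u} k V} (𝓕 : Lvl 𝒱 A)

lemma j_comm (v : V) (b : 𝓕.B) : 𝓕.j.hom (𝓕.B.ρ (𝓕.r v) b) = A.ρ v (𝓕.j.hom b) :=
  Rep.hom_comm_apply 𝓕.j v b

lemma inflFun_mem_smC (n : ℕ) (x : (Fin n → 𝓕.Γ) → 𝓕.B) :
    ((cochainsMap 𝓕.r 𝓕.j).f n).hom x ∈ smC 𝒱 A n := by
  obtain ⟨U, hU, hUker⟩ := 𝓕.open_ker
  refine ⟨U, hU, fun g s hs => ?_, fun g s hs => ?_⟩
  · change 𝓕.j.hom (x (𝓕.r ∘ (g * s))) = 𝓕.j.hom (x (𝓕.r ∘ g))
    have : 𝓕.r ∘ (g * s) = 𝓕.r ∘ g := by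
      funext i
      have h1 : 𝓕.r (s i) = 1 := MonoidHom.mem_ker.mp (hUker (hs i))
      simp [h1]
    rw [this]
  · change A.ρ s (𝓕.j.hom (x (𝓕.r ∘ g))) = 𝓕.j.hom (x (𝓕.r ∘ g))
    rw [← 𝓕.j_comm]
    have h1 : 𝓕.r s = 1 := MonoidHom.mem_ker.mp (hUker hs)
    rw [h1, map_one]
    rfl

/-- inflation of cochains from a level to the smooth cochains -/
def infl : Cpx.Hom (Call 𝓕.B) (Csm 𝒱 A) where
  f := fun n => (((cochainsMap 𝓕.r 𝓕.j).f n).hom).codRestrict (smC 𝒱 A n) (𝓕.inflFun_mem_smC n)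
  comm := by
    intro n x
    apply Subtype.ext
    have := (cochainsMap 𝓕.r 𝓕.j).comm n (n + 1)
    simp only [CochainComplex.of_d] at this
    have h := congrArg (fun ψ => ψ.hom x) this
    exact h.symm

lemma infl_val (n : ℕ) (x : (Call 𝓕.B).X n) (g : Fin n → V) :
    ((𝓕.infl).f n x).1 g = 𝓕.j.hom (x (𝓕.r ∘ g)) := rfl

lemma infl_injective (n : ℕ) : Function.Injective ((𝓕.infl).f n) := by
  intro x y hxy
  funext γ
  obtain ⟨g, hg⟩ : ∃ g : Fin n → V, 𝓕.r ∘ g = γ :=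
    ⟨fun i => Function.surjInv 𝓕.r_surj (γ i), funext fun i => Function.surjInv_eq 𝓕.r_surj (γ i)⟩
  have h := congrFun (congrArg Subtype.val hxy) g
  rw [infl_val, infl_val, hg] at h
  exact 𝓕.j_inj h

/-- descent of a smooth cochain to a level whose kernel is contained in the level of the cochain -/
theorem exists_infl_eq_of_ker_le {n : ℕ} (x : (Csm 𝒱 A).X n) {U : Subgroup V}
    (hker : 𝓕.r.ker ≤ U) (hinv : IsInvR U x.1) (hfix : ∀ g, ∀ s ∈ U, A.ρ s (x.1 g) = x.1 g) :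
    ∃ y : (Call 𝓕.B).X n, (𝓕.infl).f n y = x := by
  let s : 𝓕.Γ → V := Function.surjInv 𝓕.r_surj
  have hs : ∀ γ, 𝓕.r (s γ) = γ := Function.surjInv_eq 𝓕.r_surj
  have hval : ∀ g : Fin n → V, ∃ b, 𝓕.j.hom b = x.1 g := fun g =>
    𝓕.range_j (x.1 g) (fun σ hσ => hfix g σ (hker hσ))
  choose b hb using hval
  refine ⟨fun γ => b (s ∘ γ), ?_⟩
  apply Subtype.ext
  funext g
  refine Eq.trans (𝓕.infl_val n _ g) ?_
  rw [hb]
  refine (isInvR_iff.1 hinv _ _ fun i => hker ?_).symm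
  rw [MonoidHom.mem_ker, map_mul, map_inv, Function.comp_apply, Function.comp_apply, hs,
    inv_mul_cancel]

/-- the comparison map `Hⁿ(Γ, B) → Hⁿ_sm(V, A)` -/
def inflH (n : ℕ) : groupCohomology 𝓕.B n →+ Hsm 𝒱 A n :=
  ((𝓕.infl).mapH n).toAddMonoidHom.comp (Call.toGC 𝓕.B n).symm.toAddEquiv.toAddMonoidHom

lemma inflH_toGC_cl {n : ℕ} (z : (Call 𝓕.B).X n) (hz : (Call 𝓕.B).d n z = 0) :
    𝓕.inflH n (Call.toGC _ n ((Call 𝓕.B).cl z hz)) =
      (Csm 𝒱 A).cl ((𝓕.infl).f n z) ((𝓕.infl).map_Z n hz) := by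
  unfold inflH
  have h1 : (Call.toGC 𝓕.B n).symm (Call.toGC _ n ((Call 𝓕.B).cl z hz)) = (Call 𝓕.B).cl z hz :=
    LinearEquiv.symm_apply_apply _ _
  change (𝓕.infl).mapH n ((Call.toGC 𝓕.B n).symm _) = _
  rw [h1]
  rfl

/-- the comparison map is compatible with scalar multiplication by naturals -/
lemma inflH_nsmul (n : ℕ) (m : ℕ) (y : groupCohomology 𝓕.B n) :
    𝓕.inflH n (m • y) = m • 𝓕.inflH n y := map_nsmul _ _ _

/-! ### Morphisms of levels -/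

/-- a morphism of levels (`𝓕'` deeper than `𝓕`) -/
structure Hom (𝓕 𝓕' : Lvl 𝒱 A) where
  /-- the projection between the quotients -/
  ρ : 𝓕'.Γ →* 𝓕.Γ
  /-- the inclusion between the modules -/
  φ : Rep.res ρ 𝓕.B ⟶ 𝓕'.B
  hρ : ∀ v, ρ (𝓕'.r v) = 𝓕.r v
  hφ : ∀ b, 𝓕'.j.hom (φ.hom b) = 𝓕.j.hom b

namespace Hom

variable {𝓕} {𝓕' : Lvl 𝒱 A} (h : Hom 𝓕 𝓕')

/-- inflation of cochains between two levels -/
def infC : Cpx.Hom (Call 𝓕.B) (Call 𝓕'.B) := Call.map h.ρ h.φ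

/-- inflation between two levels, on Mathlib's cohomology -/
def inf (n : ℕ) : groupCohomology 𝓕.B n →+ groupCohomology 𝓕'.B n :=
  (groupCohomology.map h.ρ h.φ n).hom.toAddMonoidHom

lemma inf_apply (n : ℕ) (y : groupCohomology 𝓕.B n) : h.inf n y = groupCohomology.map h.ρ h.φ n y := rfl

/-- inflation to the limit is compatible with inflation between levels -/
theorem infl_infC (n : ℕ) (y : (Call 𝓕.B).X n) :
    (𝓕'.infl).f n ((h.infC).f n y) = (𝓕.infl).f n y := by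
  apply Subtype.ext
  funext g
  refine Eq.trans (𝓕'.infl_val n _ g) ?_
  refine Eq.trans ?_ (𝓕.infl_val n _ g).symm
  have h1 : (h.infC).f n y (𝓕'.r ∘ g) = h.φ.hom (y (h.ρ ∘ (𝓕'.r ∘ g))) := rfl
  rw [h1, h.hφ]
  have h2 : h.ρ ∘ (𝓕'.r ∘ g) = 𝓕.r ∘ g := by
    funext i
    exact h.hρ (g i)
  rw [h2]

/-- **(c)** the comparison maps are compatible with inflation between levels -/
theorem inflH_inf {n : ℕ} (y : groupCohomology 𝓕.B n) : 𝓕'.inflH n (h.inf n y) = 𝓕.inflH n y := by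
  obtain ⟨w, rfl⟩ := (Call.toGC 𝓕.B n).surjective y
  obtain ⟨z, hz, rfl⟩ := (Call 𝓕.B).exists_rep w
  have h1 : h.inf n (Call.toGC _ n ((Call 𝓕.B).cl z hz)) =
      Call.toGC _ n ((h.infC).mapH n ((Call 𝓕.B).cl z hz)) :=
    (Call.toGC_map h.ρ h.φ n _).symm
  rw [h1, Cpx.Hom.mapH_cl, inflH_toGC_cl, inflH_toGC_cl]
  exact Cpx.cl_congr _ (h.infl_infC n z) _

end Hom

end Lvl

/-! ### Functoriality in the group -/

section MapG

variable {V' : Type u} [Group V'] {𝒱 : OpenBasis V} {𝒱' : OpenBasis V'} {A : Rep.{u} k V}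
  {A' : Rep.{u} k V'} {h : V' →* V} (hcont : 𝒱.IsCont 𝒱' h) (ψ : Rep.res h A ⟶ A')
  (𝓕 : Lvl 𝒱 A) (𝓕' : Lvl 𝒱' A')

/-- a morphism of levels over a continuous homomorphism `h : V' → V` and `ψ : res h A ⟶ A'` -/
structure Lvl.HomOver where
  /-- the map between the quotients -/
  η : 𝓕'.Γ →* 𝓕.Γ
  /-- the map between the modules -/
  β : Rep.res η 𝓕.B ⟶ 𝓕'.B
  hη : ∀ v', η (𝓕'.r v') = 𝓕.r (h v')
  hβ : ∀ b, 𝓕'.j.hom (β.hom b) = ψ.hom (𝓕.j.hom b)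

variable {ψ 𝓕 𝓕'} (m : Lvl.HomOver (h := h) ψ 𝓕 𝓕')

include hcont in
/-- compatibility of inflation with the functoriality `Csm.mapG`, on cochains -/
theorem Lvl.HomOver.mapG_infl (n : ℕ) (y : (Call 𝓕.B).X n) :
    (Csm.mapG hcont ψ).f n ((𝓕.infl).f n y) = (𝓕'.infl).f n ((Call.map m.η m.β).f n y) := by
  apply Subtype.ext
  funext g
  refine Eq.trans (Csm.mapG_val hcont ψ n _ g) ?_
  refine Eq.trans ?_ (𝓕'.infl_val n _ g).symm
  rw [𝓕.infl_val]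
  have h1 : (Call.map m.η m.β).f n y (𝓕'.r ∘ g) = m.β.hom (y (m.η ∘ (𝓕'.r ∘ g))) := rfl
  rw [h1, m.hβ]
  have h2 : m.η ∘ (𝓕'.r ∘ g) = 𝓕.r ∘ (h ∘ g) := by
    funext i
    exact m.hη (g i)
  rw [h2]

include hcont in
/-- **(r)** compatibility of the comparison maps with `Csm.mapG` (restriction to a subgroup, etc.) -/
theorem Lvl.HomOver.mapG_inflH {n : ℕ} (y : groupCohomology 𝓕.B n) :
    (Csm.mapG hcont ψ).mapH n (𝓕.inflH n y) = 𝓕'.inflH n (groupCohomology.map m.η m.β n y) := by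
  obtain ⟨w, rfl⟩ := (Call.toGC 𝓕.B n).surjective y
  obtain ⟨z, hz, rfl⟩ := (Call 𝓕.B).exists_rep w
  have h1 : groupCohomology.map m.η m.β n (Call.toGC _ n ((Call 𝓕.B).cl z hz)) =
      Call.toGC _ n ((Call.map m.η m.β).mapH n ((Call 𝓕.B).cl z hz)) :=
    (Call.toGC_map m.η m.β n _).symm
  rw [h1, Cpx.Hom.mapH_cl, Lvl.inflH_toGC_cl, Lvl.inflH_toGC_cl, Cpx.Hom.mapH_cl]
  exact Cpx.cl_congr _ (m.mapG_infl hcont n z) _

/-- a square of level morphisms commutes automatically (the maps are determined by `r_surj`, `j_inj`):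
deepening the level and then applying the morphism over `ψ`, or the other way round, agree on cohomology -/
theorem Lvl.HomOver.inf_map {𝓕₂ : Lvl 𝒱 A} {𝓕₂' : Lvl 𝒱' A'} (m₂ : Lvl.HomOver (h := h) ψ 𝓕₂ 𝓕₂')
    (t : Lvl.Hom 𝓕 𝓕₂) (t' : Lvl.Hom 𝓕' 𝓕₂') {n : ℕ} (y : groupCohomology 𝓕.B n) :
    t'.inf n (groupCohomology.map m.η m.β n y) = groupCohomology.map m₂.η m₂.β n (t.inf n y) := by
  have hgrp : ∀ γ : 𝓕₂'.Γ, m.η (t'.ρ γ) = t.ρ (m₂.η γ) := by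
    intro γ
    obtain ⟨v', rfl⟩ := 𝓕₂'.r_surj γ
    rw [t'.hρ, m.hη, m₂.hη, t.hρ]
  have hmod : ∀ b : 𝓕.B, t'.φ.hom (m.β.hom b) = m₂.β.hom (t.φ.hom b) := by
    intro b
    apply 𝓕₂'.j_inj
    rw [t'.hφ, m.hβ, m₂.hβ, t.hφ]
  obtain ⟨w, rfl⟩ := (Call.toGC 𝓕.B n).surjective y
  obtain ⟨z, hz, rfl⟩ := (Call 𝓕.B).exists_rep w
  rw [Lvl.Hom.inf_apply, Lvl.Hom.inf_apply, ← Call.toGC_map, ← Call.toGC_map, ← Call.toGC_map,
    ← Call.toGC_map, Cpx.Hom.mapH_cl, Cpx.Hom.mapH_cl, Cpx.Hom.mapH_cl, Cpx.Hom.mapH_cl]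
  congr 1
  refine Cpx.cl_congr _ ?_ _
  funext γ
  rw [Call.map_apply, Call.map_apply, Call.map_apply, Call.map_apply, hmod]
  congr 3
  funext i
  exact hgrp (γ i)

end MapG

/-! ### Cofinal systems of levels -/

/-- a cofinal directed system of levels of `A` -/
structure LvlSystem (𝒱 : OpenBasis V) (A : Rep.{u} k V) where
  /-- the index set -/
  ι : Type u
  /-- the levels -/
  lvl : ι → Lvl 𝒱 A
  /-- `le i i'`: the level `i'` is deeper than `i` -/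
  le : ι → ι → Prop
  le_trans : ∀ {i i' i'' : ι}, le i i' → le i' i'' → le i i''
  /-- the transition morphisms -/
  hom : ∀ {i i' : ι}, le i i' → Lvl.Hom (lvl i) (lvl i')
  cofinal : ∀ i₀ : ι, ∀ U ∈ 𝒱.sets, ∃ i, le i₀ i ∧ (lvl i).r.ker ≤ U

namespace LvlSystem

variable {𝒱 : OpenBasis V} {A : Rep.{u} k V} (𝔉 : LvlSystem 𝒱 A)

/-- **Exhaustion**: every smooth cochain is inflated from a level, which may be chosen above a given one -/
theorem exists_infl_eq (i₀ : 𝔉.ι) {n : ℕ} (x : (Csm 𝒱 A).X n) :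
    ∃ (i : 𝔉.ι) (_ : 𝔉.le i₀ i) (y : (Call (𝔉.lvl i).B).X n), ((𝔉.lvl i).infl).f n y = x := by
  obtain ⟨U, hU, hinv, hfix⟩ := x.2
  obtain ⟨i, hi, hker⟩ := 𝔉.cofinal i₀ U hU
  exact ⟨i, hi, (𝔉.lvl i).exists_infl_eq_of_ker_le x hker hinv hfix⟩

/-- **(a)** every smooth cohomology class comes from a level (above a given one) -/
theorem exists_inflH_eq (i₀ : 𝔉.ι) {n : ℕ} (x : Hsm 𝒱 A n) :
    ∃ (i : 𝔉.ι) (_ : 𝔉.le i₀ i) (y : groupCohomology (𝔉.lvl i).B n), (𝔉.lvl i).inflH n y = x := by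
  obtain ⟨a, ha, rfl⟩ := (Csm 𝒱 A).exists_rep x
  obtain ⟨i, hi, z, hz⟩ := 𝔉.exists_infl_eq i₀ a
  have hdz : (Call (𝔉.lvl i).B).d n z = 0 := by
    apply (𝔉.lvl i).infl_injective (n + 1)
    rw [((𝔉.lvl i).infl).comm, hz, ha, map_zero]
  refine ⟨i, hi, Call.toGC _ n (Cpx.cl _ z hdz), ?_⟩
  rw [Lvl.inflH_toGC_cl]
  exact Cpx.cl_congr _ hz _

/-- **(b)** a class of a level which dies in the smooth cohomology dies at a deeper level -/
theorem exists_inf_eq_zero (i : 𝔉.ι) {n : ℕ} (y : groupCohomology (𝔉.lvl i).B n)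
    (hy : (𝔉.lvl i).inflH n y = 0) :
    ∃ (i' : 𝔉.ι) (h : 𝔉.le i i'), (𝔉.hom h).inf n y = 0 := by
  obtain ⟨w, rfl⟩ := (Call.toGC (𝔉.lvl i).B n).surjective y
  obtain ⟨z, hz, rfl⟩ := (Call (𝔉.lvl i).B).exists_rep w
  rw [Lvl.inflH_toGC_cl, Cpx.cl_eq_zero_iff] at hy
  suffices hsuff : ∃ (i' : 𝔉.ι) (h : 𝔉.le i i'),
      ((𝔉.hom h).infC).f n z ∈ (Call (𝔉.lvl i').B).B n by
    obtain ⟨i', h, hB⟩ := hsuff
    refine ⟨i', h, ?_⟩
    have h1 : (𝔉.hom h).inf n (Call.toGC _ n ((Call (𝔉.lvl i).B).cl z hz)) =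
        Call.toGC _ n (((𝔉.hom h).infC).mapH n ((Call (𝔉.lvl i).B).cl z hz)) :=
      (Call.toGC_map (𝔉.hom h).ρ (𝔉.hom h).φ n _).symm
    rw [h1, Cpx.Hom.mapH_cl, Cpx.cl_eq_zero_iff.mpr hB, map_zero]
  cases n with
  | zero =>
    rw [Cpx.mem_B_zero] at hy
    have hz0 : z = 0 := (𝔉.lvl i).infl_injective 0 (by rw [hy, map_zero])
    obtain ⟨U, hU⟩ := 𝒱.nonempty
    obtain ⟨i', hi', -⟩ := 𝔉.cofinal i U hU
    refine ⟨i', hi', ?_⟩
    rw [hz0, map_zero]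
    exact Submodule.zero_mem _
  | succ n =>
    rw [Cpx.mem_B_succ] at hy
    obtain ⟨x, hx⟩ := hy
    obtain ⟨i', hi', w, hw⟩ := 𝔉.exists_infl_eq i x
    refine ⟨i', hi', ?_⟩
    rw [Cpx.mem_B_succ]
    refine ⟨w, ?_⟩
    apply (𝔉.lvl i').infl_injective (n + 1)
    rw [((𝔉.lvl i').infl).comm, hw, hx, Lvl.Hom.infl_infC]

/-- a class in the smooth cohomology killed by `m` comes from a class of a level killed by `m` -/
theorem exists_inflH_eq_of_nsmul_eq_zero (i₀ : 𝔉.ι) {n : ℕ} (m : ℕ) (x : Hsm 𝒱 A n) (hx : m • x = 0) :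
    ∃ (i : 𝔉.ι) (_ : 𝔉.le i₀ i) (y : groupCohomology (𝔉.lvl i).B n),
      (𝔉.lvl i).inflH n y = x ∧ m • y = 0 := by
  obtain ⟨i, hi, y, rfl⟩ := 𝔉.exists_inflH_eq i₀ x
  rw [← map_nsmul] at hx
  obtain ⟨i', hi', h0⟩ := 𝔉.exists_inf_eq_zero i (m • y) hx
  refine ⟨i', 𝔉.le_trans hi hi', (𝔉.hom hi').inf n y, (𝔉.hom hi').inflH_inf y, ?_⟩
  rw [← map_nsmul]
  exact h0

/-- finitely many `m`-torsion classes of the smooth cohomology come from `m`-torsion classes of ONE level -/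
theorem exists_level_of_finset (i₀ : 𝔉.ι) {n : ℕ} (m : ℕ) (T : Finset (Hsm 𝒱 A n))
    (hT : ∀ x ∈ T, m • x = 0) :
    ∃ (i : 𝔉.ι) (_ : 𝔉.le i₀ i) (φ : Hsm 𝒱 A n → groupCohomology (𝔉.lvl i).B n),
      ∀ x ∈ T, (𝔉.lvl i).inflH n (φ x) = x ∧ m • φ x = 0 := by
  classical
  induction T using Finset.induction_on with
  | empty =>
    obtain ⟨U, hU⟩ := 𝒱.nonempty
    obtain ⟨i, hi, -⟩ := 𝔉.cofinal i₀ U hU
    exact ⟨i, hi, fun _ => 0, fun x hx => absurd hx (Finset.notMem_empty x)⟩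
  | insert a T' _ ih =>
    obtain ⟨i, hi, φ, hφ⟩ := ih (fun x hx => hT x (Finset.mem_insert_of_mem hx))
    obtain ⟨i', hi', y, hy, hmy⟩ :=
      𝔉.exists_inflH_eq_of_nsmul_eq_zero i m a (hT a (Finset.mem_insert_self a T'))
    refine ⟨i', 𝔉.le_trans hi hi', fun x => if x = a then y else (𝔉.hom hi').inf n (φ x), ?_⟩
    intro x hx
    beta_reduce
    by_cases hxa : x = a
    · rw [if_pos hxa, hxa]
      exact ⟨hy, hmy⟩
    · rw [if_neg hxa]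
      have hx' : x ∈ T' := (Finset.mem_insert.1 hx).resolve_left hxa
      refine ⟨((𝔉.hom hi').inflH_inf (φ x)).trans (hφ x hx').1, ?_⟩
      rw [← map_nsmul, (hφ x hx').2, map_zero]

/-- a bound for the number of `m`-torsion classes at all (deep enough) levels passes to the limit -/
theorem card_le_of_forall_level (i₀ : 𝔉.ι) {n : ℕ} (m N : ℕ)
    (hlev : ∀ i, 𝔉.le i₀ i → ∀ T : Finset (groupCohomology (𝔉.lvl i).B n),
      (∀ y ∈ T, m • y = 0) → T.card ≤ N)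
    (T : Finset (Hsm 𝒱 A n)) (hT : ∀ x ∈ T, m • x = 0) : T.card ≤ N := by
  classical
  obtain ⟨i, hi, φ, hφ⟩ := 𝔉.exists_level_of_finset i₀ m T hT
  have hinj : Set.InjOn φ (T : Set (Hsm 𝒱 A n)) := by
    intro x hx x' hx' h
    rw [← (hφ x hx).1, ← (hφ x' hx').1, h]
  rw [← Finset.card_image_of_injOn hinj]
  refine hlev i hi _ fun y hy => ?_
  obtain ⟨x, hx, rfl⟩ := Finset.mem_image.1 hy
  exact (hφ x hx).2

/-- injectivity on `m`-torsion of a family of maps to a fixed group, compatible with the transition maps,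
passes to the limit: two `m`-torsion classes with the same invariant are equal. -/
theorem eq_of_forall_level (i₀ : 𝔉.ι) {n : ℕ} (m : ℕ) {X : Type*}
    (inv : ∀ i, groupCohomology (𝔉.lvl i).B n → X)
    (hinj : ∀ i, 𝔉.le i₀ i → ∀ y y' : groupCohomology (𝔉.lvl i).B n, m • y = 0 → m • y' = 0 →
      inv i y = inv i y' → y = y')
    (invS : Hsm 𝒱 A n → X) (hinv : ∀ i, 𝔉.le i₀ i → ∀ y, invS ((𝔉.lvl i).inflH n y) = inv i y)
    (x x' : Hsm 𝒱 A n) (hx : m • x = 0) (hx' : m • x' = 0) (h : invS x = invS x') : x = x' := by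
  classical
  obtain ⟨i, hi, φ, hφ⟩ := 𝔉.exists_level_of_finset i₀ m {x, x'} (by
    intro z hz
    rcases Finset.mem_insert.1 hz with rfl | hz
    · exact hx
    · rw [Finset.mem_singleton.1 hz]
      exact hx')
  have h1 := hφ x (Finset.mem_insert_self _ _)
  have h2 := hφ x' (Finset.mem_insert_of_mem (Finset.mem_singleton_self _))
  have h3 : φ x = φ x' := by
    apply hinj i hi _ _ h1.2 h2.2
    rw [← hinv i hi, ← hinv i hi, h1.1, h2.1, h]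
  rw [← h1.1, ← h2.1, h3]

end LvlSystem

/-! ### Morphisms of systems -/

section SystemOver

variable {V' : Type u} [Group V'] {𝒱 : OpenBasis V} {𝒱' : OpenBasis V'} {A : Rep.{u} k V}
  {A' : Rep.{u} k V'} {h : V' →* V}

/-- **a class dying under `ψ_*` dies at a finite level**: for systems of levels `𝔉` of `A` and `𝔉'` of `A'`
related level-wise by morphisms over `ψ : res h A ⟶ A'` (index map `idx`, onto upper sets). -/
theorem LvlSystem.exists_level_of_mapG_eq_zero (𝔉 : LvlSystem 𝒱 A) (𝔉' : LvlSystem 𝒱' A')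
    (hcont : 𝒱.IsCont 𝒱' h) (ψ : Rep.res h A ⟶ A') (idx : 𝔉.ι → 𝔉'.ι)
    (ov : ∀ i, Lvl.HomOver (h := h) ψ (𝔉.lvl i) (𝔉'.lvl (idx i)))
    (hup : ∀ i i'', 𝔉'.le (idx i) i'' → ∃ i', 𝔉.le i i' ∧ idx i' = i'')
    (i₀ : 𝔉.ι) {n : ℕ} (z : Hsm 𝒱 A n) (hz : (Csm.mapG hcont ψ).mapH n z = 0) :
    ∃ (i : 𝔉.ι) (_ : 𝔉.le i₀ i) (x : groupCohomology (𝔉.lvl i).B n),
      (𝔉.lvl i).inflH n x = z ∧ groupCohomology.map (ov i).η (ov i).β n x = 0 := by
  obtain ⟨i₁, hle₁, x₁, rfl⟩ := 𝔉.exists_inflH_eq i₀ z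
  have h1 : ((𝔉'.lvl (idx i₁)).inflH n) (groupCohomology.map (ov i₁).η (ov i₁).β n x₁) = 0 :=
    ((ov i₁).mapG_inflH hcont x₁).symm.trans hz
  obtain ⟨i'', hle'', h2⟩ := 𝔉'.exists_inf_eq_zero (idx i₁) _ h1
  obtain ⟨i₂, hle₂, rfl⟩ := hup i₁ i'' hle''
  refine ⟨i₂, 𝔉.le_trans hle₁ hle₂, (𝔉.hom hle₂).inf n x₁, (𝔉.hom hle₂).inflH_inf x₁, ?_⟩
  exact ((ov i₁).inf_map (ov i₂) (𝔉.hom hle₂) (𝔉'.hom hle'') x₁).symm.trans h2

end SystemOver

end Fermat.Agent.S55lib
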