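/-
S55 library, interface (helper4).  **The finite-level ↔ smooth dictionary for the class-formation module
`CSfull S`.**

For a group `W` with a homomorphism `f : W →* G_ℚ` (in practice `V.subtype` for an open subgroup `V ≤ G_ℚ`, or the
identity), a basis `𝒲` of `W` mutually cofinal with the subgroups `f⁻¹ Gal(ℚ̄/F)` (`F ⊂ ℚ_S` normal;
`ClsBasis S f 𝒲`), and the module `A = Rep.res f (CSfull S)`:
the normal fields `L ⊂ ℚ_S` with `Gal(ℚ̄/L) ≤ f(W)` form a cofinal system of levels `clsSystem` (`Iface/LevelDict.lean`)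
with `Γ_L = image of W in Aut(L/ℚ)` and `B_L = 𝒞_S(L)` (helper5's `Dev.classRepS ↥L ↑S`, restricted to `Γ_L`).
Hence `Hsm 𝒲 A n = colim_L Hⁿ(Γ_L, 𝒞_S(L))` elementwise: `LvlSystem.exists_inflH_eq`, `exists_inf_eq_zero`,
`Lvl.Hom.inflH_inf` apply verbatim.
-/
import Mathlib
import Fermat.Agent.S55lib.Iface.LevelDict
import Fermat.Agent.S55lib.Iface.ClassInvariants
import Fermat.Agent.S55lib.Iface.ClassCompare
import Fermat.Agent.S55lib.Dev.IdeleRep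
import Fermat.Agent.S55lib.Cpx.Shapiro

set_option autoImplicit false
set_option linter.style.haveILetI false
set_option linter.unusedSectionVars false

noncomputable section

namespace Fermat.Agent.S55lib

open IntermediateField CategoryTheory

variable (S : Finset Nat.Primes) {W : Type} [Group W] (f : W →* GQ)

/-- `𝒲` is mutually cofinal with the subgroups `f⁻¹ Gal(ℚ̄/F)`, `F ⊂ ℚ_S` normal over `ℚ` -/
structure ClsBasis (𝒲 : OpenBasis W) : Prop where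
  exists_fixing_le : ∀ U ∈ 𝒲.sets, ∃ F : FieldQ, F.IsUnramifiedOutside S ∧ Normal ℚ F ∧
    F.fixingSubgroup.comap f ≤ U
  exists_le_fixing : ∀ F : FieldQ, F.IsUnramifiedOutside S → Normal ℚ F →
    ∃ U ∈ 𝒲.sets, U ≤ F.fixingSubgroup.comap f

/-- the basis `unrBasis S` of `G_ℚ` itself -/
lemma clsBasis_id : ClsBasis S (MonoidHom.id GQ) (unrBasis S) where
  exists_fixing_le := by
    rintro _ ⟨F, hF, hN, rfl⟩
    exact ⟨F, hF, hN, le_rfl⟩
  exists_le_fixing := fun F hF hN => ⟨_, ⟨F, hF, hN, rfl⟩, le_rfl⟩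

/-- the induced basis on a subgroup -/
lemma clsBasis_subtype (V : Subgroup GQ) : ClsBasis S V.subtype ((unrBasis S).comap V.subtype) where
  exists_fixing_le := by
    rintro _ ⟨_, ⟨F, hF, hN, rfl⟩, rfl⟩
    exact ⟨F, hF, hN, le_rfl⟩
  exists_le_fixing := fun F hF hN => ⟨_, ⟨_, ⟨F, hF, hN, rfl⟩, rfl⟩, le_rfl⟩

/-- the levels: normal fields `L ⊂ ℚ_S` with `Gal(ℚ̄/L) ≤ f(W)` -/
structure ClsLevel where
  /-- the field -/
  L : FieldQ
  normal : Normal ℚ L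
  unr : L.IsUnramifiedOutside S
  le_range : L.fixingSubgroup ≤ f.range

attribute [instance] ClsLevel.normal

namespace ClsLevel

variable {S f} (𝓛 : ClsLevel S f)

/-- the image of `W` in `Aut(L/ℚ)` -/
abbrev Gam : Subgroup (↥𝓛.L ≃ₐ[ℚ] ↥𝓛.L) := ((resL 𝓛.L).comp f).range

/-- the projection `W → Γ_L` -/
abbrev proj : W →* ↥𝓛.Gam := ((resL 𝓛.L).comp f).rangeRestrict

lemma coe_proj (w : W) : ((𝓛.proj w : ↥𝓛.Gam) : ↥𝓛.L ≃ₐ[ℚ] ↥𝓛.L) = resL 𝓛.L (f w) := rfl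

lemma mem_ker_proj_iff (w : W) : w ∈ 𝓛.proj.ker ↔ f w ∈ 𝓛.L.fixingSubgroup := by
  rw [MonoidHom.ker_rangeRestrict, MonoidHom.mem_ker, MonoidHom.comp_apply, resL_eq_one_iff]

/-- the module of the level: `𝒞_S(L)` as a `Γ_L`-module -/
abbrev modB : Rep.{0} ℤ ↥𝓛.Gam := Rep.res 𝓛.Gam.subtype (Dev.classRepS ↥𝓛.L (S : Set Nat.Primes))

variable (hS : S.Nonempty)

/-- the class map `𝒞_S(L) → CSfull S` as a `ℤ`-linear map -/
def jLin : Additive (Dev.ClassGrpS ↥𝓛.L (S : Set Nat.Primes)) →ₗ[ℤ] CSfull S :=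
  (MonoidHom.toAdditiveLeft (clsLevelHom S 𝓛.L 𝓛.unr hS)).toIntLinearMap

lemma jLin_apply (c : Additive (Dev.ClassGrpS ↥𝓛.L (S : Set Nat.Primes))) :
    𝓛.jLin hS c = (clsLevelHom S 𝓛.L 𝓛.unr hS c.toMul).toAdd := rfl

/-- the class map as a morphism of representations of `W` -/
def incl : Rep.res 𝓛.proj 𝓛.modB ⟶ Rep.res f (CSfull S) :=
  Rep.ofHom
    { toLinearMap := 𝓛.jLin hS
      isIntertwining' := fun w => by
        apply LinearMap.ext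
        intro c
        exact clsLevelHom_smul S 𝓛.L 𝓛.unr hS (f w) c.toMul }

lemma incl_apply (c : 𝓛.modB) :
    (𝓛.incl hS).hom c = (clsLevelHom S 𝓛.L 𝓛.unr hS (Additive.toMul (show Additive _ from c))).toAdd := rfl

/-- the level of `Rep.res f (CSfull S)` attached to `L` -/
def lvl {𝒲 : OpenBasis W} (h𝒲 : ClsBasis S f 𝒲) : Lvl 𝒲 (Rep.res f (CSfull S)) where
  Γ := ↥𝓛.Gam
  r := 𝓛.proj
  B := 𝓛.modB
  j := 𝓛.incl hS
  r_surj := MonoidHom.rangeRestrict_surjective _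
  j_inj := by
    intro c c' h
    have h1 := clsLevelHom_injective S 𝓛.L 𝓛.unr hS (Multiplicative.toAdd.injective h)
    exact congrArg Additive.ofMul h1
  open_ker := by
    obtain ⟨U, hU, hle⟩ := h𝒲.exists_le_fixing 𝓛.L 𝓛.unr 𝓛.normal
    exact ⟨U, hU, fun w hw => (𝓛.mem_ker_proj_iff w).2 (hle hw)⟩
  range_j := by
    intro a ha
    have hinv : ∀ s ∈ 𝓛.L.fixingSubgroup, (CSfull S).ρ s a = a := by
      intro s hs
      obtain ⟨w, rfl⟩ := 𝓛.le_range hs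
      exact ha w ((𝓛.mem_ker_proj_iff w).2 hs)
    obtain ⟨c, hc⟩ := exists_clsLevelHom_eq_of_invariant S 𝓛.L 𝓛.unr hS a hinv
    exact ⟨Additive.ofMul c, hc⟩

/-! ### Transition morphisms -/

variable (𝓛' : ClsLevel S f) (hle : 𝓛.L ≤ 𝓛'.L)

/-- the inclusion `L → L′` as a `ℚ`-algebra map -/
def inclQ : ↥𝓛.L →ₐ[ℚ] ↥𝓛'.L := (IntermediateField.inclusion hle).toRingHom.toRatAlgHom

lemma coe_inclQ (x : ↥𝓛.L) : ((𝓛.inclQ 𝓛' hle x : ↥𝓛'.L) : Qbar) = (x : Qbar) := rfl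

include hle in
lemma ker_proj_le : 𝓛'.proj.ker ≤ 𝓛.proj.ker := fun w hw =>
  (𝓛.mem_ker_proj_iff w).2
    (IntermediateField.fixingSubgroup_antitone hle ((𝓛'.mem_ker_proj_iff w).1 hw))

/-- restriction `Γ_{L′} → Γ_L` -/
def resGam : ↥𝓛'.Gam →* ↥𝓛.Gam :=
  𝓛'.proj.liftOfRightInverse (Function.surjInv (MonoidHom.rangeRestrict_surjective _))
    (Function.rightInverse_surjInv (MonoidHom.rangeRestrict_surjective _))
    ⟨𝓛.proj, 𝓛.ker_proj_le 𝓛' hle⟩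

lemma resGam_proj (w : W) : 𝓛.resGam 𝓛' hle (𝓛'.proj w) = 𝓛.proj w :=
  MonoidHom.liftOfRightInverse_comp_apply _ _ _ _ w

/-- `𝒞_S(L) → 𝒞_S(L′)` as a morphism of representations of `Γ_{L′}` -/
def inclB : Rep.res (𝓛.resGam 𝓛' hle) 𝓛.modB ⟶ 𝓛'.modB :=
  Rep.ofHom
    { toLinearMap := (MonoidHom.toAdditive
        (Dev.ClassGrpS.incl (𝓛.inclQ 𝓛' hle) (S : Set Nat.Primes))).toIntLinearMap
      isIntertwining' := fun γ' => by
        apply LinearMap.ext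
        intro c
        obtain ⟨w, rfl⟩ := MonoidHom.rangeRestrict_surjective ((resL 𝓛'.L).comp f) γ'
        refine congrArg Additive.ofMul
          (Dev.ClassGrpS.incl_smul (𝓛.inclQ 𝓛' hle) (S : Set Nat.Primes)
            ((𝓛.resGam 𝓛' hle (𝓛'.proj w) : ↥𝓛.Gam) : ↥𝓛.L ≃ₐ[ℚ] ↥𝓛.L)
            ((𝓛'.proj w : ↥𝓛'.Gam) : ↥𝓛'.L ≃ₐ[ℚ] ↥𝓛'.L) (fun x => ?_) c.toMul)
        rw [resGam_proj]
        apply Subtype.ext
        rw [coe_proj, coe_proj, coe_inclQ, resL_apply, resL_apply, coe_inclQ] }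

lemma inclB_apply (c : 𝓛.modB) :
    (𝓛.inclB 𝓛' hle).hom c = Additive.ofMul (Dev.ClassGrpS.incl (𝓛.inclQ 𝓛' hle) (S : Set Nat.Primes)
      (Additive.toMul (show Additive _ from c))) := rfl

/-- the transition morphism of levels -/
def lvlHom {𝒲 : OpenBasis W} (h𝒲 : ClsBasis S f 𝒲) : Lvl.Hom (𝓛.lvl hS h𝒲) (𝓛'.lvl hS h𝒲) where
  ρ := 𝓛.resGam 𝓛' hle
  φ := 𝓛.inclB 𝓛' hle
  hρ := 𝓛.resGam_proj 𝓛' hle
  hφ := fun c => congrArg Multiplicative.toAdd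
    (clsLevelHom_incl S 𝓛.L 𝓛'.L 𝓛.unr 𝓛'.unr (𝓛.inclQ 𝓛' hle) (𝓛.coe_inclQ 𝓛' hle) hS
      (Additive.toMul (show Additive _ from c)))

end ClsLevel

/-! ### The system of levels -/

variable {S f}

/-- enlarging a level by a normal field of `ℚ_S` -/
def ClsLevel.sup (𝓛 : ClsLevel S f) (F : FieldQ) (hF : F.IsUnramifiedOutside S) (hN : Normal ℚ F) :
    ClsLevel S f where
  L := 𝓛.L ⊔ F
  normal := @IntermediateField.normal_sup _ _ _ _ _ 𝓛.L F 𝓛.normal hN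
  unr := 𝓛.unr.sup hF
  le_range := (IntermediateField.fixingSubgroup_antitone le_sup_left).trans 𝓛.le_range

/-- **the cofinal system of levels of `Rep.res f (CSfull S)`**: `Hsm 𝒲 (Rep.res f (CSfull S)) n` is the colimit of
the groups `Hⁿ(Γ_L, 𝒞_S(L))` over the normal fields `L ⊂ ℚ_S` with `Gal(ℚ̄/L) ≤ f(W)`. -/
def clsSystem (hS : S.Nonempty) {𝒲 : OpenBasis W} (h𝒲 : ClsBasis S f 𝒲) :
    LvlSystem 𝒲 (Rep.res f (CSfull S)) where
  ι := ClsLevel S f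
  lvl := fun 𝓛 => 𝓛.lvl hS h𝒲
  le := fun 𝓛 𝓛' => 𝓛.L ≤ 𝓛'.L
  le_trans := fun h h' => le_trans h h'
  hom := fun {𝓛 𝓛'} hle => 𝓛.lvlHom hS 𝓛' hle h𝒲
  cofinal := by
    intro 𝓛₀ U hU
    obtain ⟨F, hF, hN, hle⟩ := h𝒲.exists_fixing_le U hU
    refine ⟨𝓛₀.sup F hF hN, le_sup_left, fun w hw => hle ?_⟩
    have h1 := ((𝓛₀.sup F hF hN).mem_ker_proj_iff w).1 hw
    exact IntermediateField.fixingSubgroup_antitone (le_sup_right : F ≤ 𝓛₀.L ⊔ F) h1

/-- a level for `G_ℚ` itself -/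
def ClsLevel.ofNormal (L : FieldQ) [hN : Normal ℚ L] (hL : L.IsUnramifiedOutside S) :
    ClsLevel S (MonoidHom.id GQ) where
  L := L
  normal := hN
  unr := hL
  le_range := fun s _ => ⟨s, rfl⟩

/-- a level for an open subgroup `V` -/
def ClsLevel.ofLE (V : Subgroup GQ) (L : FieldQ) [hN : Normal ℚ L] (hL : L.IsUnramifiedOutside S)
    (hle : L.fixingSubgroup ≤ V) : ClsLevel S V.subtype where
  L := L
  normal := hN
  unr := hL
  le_range := fun s hs => ⟨⟨s, hle hs⟩, rfl⟩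

/-- an open subgroup of `G_ℚ` (for the topology of `G_S`) has a level -/
lemma exists_clsLevel_of_isOpen {V : Subgroup GQ} (hV : (unrBasis S).IsOpen V) :
    Nonempty (ClsLevel S V.subtype) := by
  obtain ⟨_, ⟨F, hF, hN, rfl⟩, hle⟩ := hV
  exact ⟨@ClsLevel.ofLE S V F hN hF hle⟩

/-! ### The groups `Γ_L` -/

/-- for `W = G_ℚ` the group of the level is the full `Aut(L/ℚ)` -/
lemma ClsLevel.gam_id_eq_top (𝓛 : ClsLevel S (MonoidHom.id GQ)) : 𝓛.Gam = ⊤ :=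
  MonoidHom.range_eq_top.2 (resL_surjective 𝓛.L)

/-- for an open subgroup `V` the group of the level is the image of `V` in `Aut(L/ℚ)` -/
lemma ClsLevel.gam_eq_map (V : Subgroup GQ) (𝓛 : ClsLevel S V.subtype) : 𝓛.Gam = V.map (resL 𝓛.L) := by
  ext γ
  constructor
  · rintro ⟨v, rfl⟩
    exact ⟨v.1, v.2, rfl⟩
  · rintro ⟨s, hs, rfl⟩
    exact ⟨⟨s, hs⟩, rfl⟩

lemma ClsLevel.fixingSubgroup_le (V : Subgroup GQ) (𝓛 : ClsLevel S V.subtype) : 𝓛.L.fixingSubgroup ≤ V := by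
  intro s hs
  obtain ⟨v, rfl⟩ := 𝓛.le_range hs
  exact v.2

/-- `[Aut(L/ℚ) : Γ_L] = [G_ℚ : V]` -/
lemma ClsLevel.index_gam (V : Subgroup GQ) (𝓛 : ClsLevel S V.subtype) : 𝓛.Gam.index = V.index := by
  rw [𝓛.gam_eq_map V]
  refine Subgroup.index_map_eq V (resL_surjective 𝓛.L) fun s hs => 𝓛.fixingSubgroup_le V ?_
  exact (resL_eq_one_iff 𝓛.L s).1 (MonoidHom.mem_ker.1 hs)

/-- `[Γ_L(V) : Γ_L(V')] = [V : V']` for `Gal(ℚ̄/L) ≤ V' ≤ V` -/
lemma ClsLevel.relIndex_gam (V V' : Subgroup GQ) (𝓛 : ClsLevel S V.subtype) (𝓛' : ClsLevel S V'.subtype)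
    (hL : 𝓛.L = 𝓛'.L) : (V'.map (resL 𝓛.L)).relIndex (V.map (resL 𝓛.L)) = V'.relIndex V := by
  have hker : (resL 𝓛.L).ker ≤ V' := fun s hs => by
    have h1 : s ∈ 𝓛.L.fixingSubgroup := (resL_eq_one_iff 𝓛.L s).1 (MonoidHom.mem_ker.1 hs)
    rw [hL] at h1
    exact 𝓛'.fixingSubgroup_le V' h1
  have h1 : (V'.map (resL 𝓛.L)).comap (resL 𝓛.L) = V' := by
    rw [Subgroup.comap_map_eq, sup_eq_left.2 hker]
  rw [← Subgroup.relIndex_comap, h1]

/-! ### Restriction -/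

section Restriction

variable {W' : Type} [Group W'] (h : W' →* W)

/-- a level for `W' → W → G_ℚ` is a level for `W → G_ℚ` -/
def ClsLevel.push (𝓛' : ClsLevel S (f.comp h)) : ClsLevel S f where
  L := 𝓛'.L
  normal := 𝓛'.normal
  unr := 𝓛'.unr
  le_range := fun s hs => by
    obtain ⟨w', hw'⟩ := 𝓛'.le_range hs
    exact ⟨h w', hw'⟩

lemma ClsLevel.gam_le_push (𝓛' : ClsLevel S (f.comp h)) : 𝓛'.Gam ≤ (𝓛'.push h).Gam := by
  rintro _ ⟨w', rfl⟩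
  exact ⟨h w', rfl⟩

/-- restriction `W' → W` at a common level `L`: the inclusion `Γ'_L ≤ Γ_L` and the identity of `𝒞_S(L)` -/
def ClsLevel.resOver (hS : S.Nonempty) (𝓛' : ClsLevel S (f.comp h)) {𝒲 : OpenBasis W}
    {𝒲' : OpenBasis W'} (h𝒲 : ClsBasis S f 𝒲) (h𝒲' : ClsBasis S (f.comp h) 𝒲') :
    Lvl.HomOver (h := h) (𝟙 (Rep.res (f.comp h) (CSfull S))) ((𝓛'.push h).lvl hS h𝒲) (𝓛'.lvl hS h𝒲') where
  η := Subgroup.inclusion (𝓛'.gam_le_push h)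
  β := 𝟙 𝓛'.modB
  hη := fun _ => rfl
  hβ := fun _ => rfl

/-- **(r)** restriction `W' → W` in the smooth cohomology of `CSfull S` is, at a common level `L`, the restriction
`Hⁿ(Γ_L, 𝒞_S(L)) → Hⁿ(Γ'_L, 𝒞_S(L))`.  For `W = G_ℚ`, `W' = V`, `h = V.subtype`, `hcont = (unrBasis S).isCont_comap
V.subtype` the left-hand map is helper8's `CFDual.resHom (unrBasis S) V (CSfull S)` (by `rfl`). -/
theorem ClsLevel.mapG_inflH (hS : S.Nonempty) (𝓛' : ClsLevel S (f.comp h)) {𝒲 : OpenBasis W}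
    {𝒲' : OpenBasis W'} (h𝒲 : ClsBasis S f 𝒲) (h𝒲' : ClsBasis S (f.comp h) 𝒲')
    (hcont : 𝒲.IsCont 𝒲' h) {n : ℕ} (y : groupCohomology (𝓛'.push h).modB n) :
    (Csm.mapG hcont (𝟙 (Rep.res (f.comp h) (CSfull S)))).mapH n (((𝓛'.push h).lvl hS h𝒲).inflH n y) =
      (𝓛'.lvl hS h𝒲').inflH n
        (groupCohomology.map (A := (𝓛'.push h).modB) (B := 𝓛'.modB)
          (Subgroup.inclusion (𝓛'.gam_le_push h)) (𝟙 𝓛'.modB) n y) :=
  (𝓛'.resOver h hS h𝒲 h𝒲').mapG_inflH hcont y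

/-- the case of an open subgroup `V ≤ G_ℚ`, in the shape of helper8's `CFData` -/
theorem ClsLevel.resHom_inflH (hS : S.Nonempty) (V : Subgroup GQ) (𝓛' : ClsLevel S V.subtype) {n : ℕ}
    (y : groupCohomology (ClsLevel.push (f := MonoidHom.id GQ) V.subtype 𝓛').modB n) :
    (Csm.mapG ((unrBasis S).isCont_comap V.subtype) (𝟙 (Rep.res V.subtype (CSfull S)))).mapH n
        (((ClsLevel.push (f := MonoidHom.id GQ) V.subtype 𝓛').lvl hS (clsBasis_id S)).inflH n y) =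
      (𝓛'.lvl hS (clsBasis_subtype S V)).inflH n
        (groupCohomology.map (A := (ClsLevel.push (f := MonoidHom.id GQ) V.subtype 𝓛').modB) (B := 𝓛'.modB)
          (Subgroup.inclusion (ClsLevel.gam_le_push (f := MonoidHom.id GQ) V.subtype 𝓛'))
          (𝟙 𝓛'.modB) n y) :=
  ClsLevel.mapG_inflH (f := MonoidHom.id GQ) V.subtype hS 𝓛' (clsBasis_id S) (clsBasis_subtype S V)
    ((unrBasis S).isCont_comap V.subtype) y

end Restriction

end Fermat.Agent.S55lib
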