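/-
S55 library, interface (helper4).  **Cyclotomic levels**: for `p ∈ S` all `p`-power roots of unity lie in `ℚ_S`,
so there are normal levels `F ⊂ ℚ_S` with `p^n ∣ [F : ℚ]` for every `n` (needed for the `p`-divisibility of
`H²(G_S, C_S)` in the limit, and to realise local classes of order `p` at a finite level).
-/
import Mathlib
import Fermat.Agent.S55lib.GlobDual.ESFacts
import Fermat.Agent.S55lib.Iface.ClassDict

set_option autoImplicit false
set_option linter.style.haveILetI false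

noncomputable section

namespace Fermat.Agent.S55lib

open IntermediateField

variable (S : Finset Nat.Primes) {p : ℕ} [hp : Fact p.Prime]

/-- a unit of `ℚ̄` whose `p^n`-th power lies in `E_S` lies in `E_S` (`p ∈ S`) -/
lemma mem_ES_of_pow_pow_mem (hpS : (⟨p, hp.out⟩ : Nat.Primes) ∈ S) (n : ℕ) {β : Qbarˣ}
    (h : β ^ (p ^ n) ∈ ES S) : β ∈ ES S := by
  induction n generalizing β with
  | zero => simpa using h
  | succ n ih =>
    apply ih
    apply mem_ES_of_pow_mem S hpS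
    rw [← pow_mul, ← pow_succ]
    exact h

/-- every `p`-power root of unity lies in a normal level of `ℚ_S` -/
theorem exists_level_mem_of_pow_eq_one (hpS : (⟨p, hp.out⟩ : Nat.Primes) ∈ S) (n : ℕ) {ζ : Qbar}
    (hζ : ζ ^ (p ^ n) = 1) :
    ∃ F : FieldQ, F.IsUnramifiedOutside S ∧ Normal ℚ F ∧ ζ ∈ F := by
  have hζ0 : ζ ≠ 0 := by
    rintro rfl
    rw [zero_pow (pow_ne_zero n hp.out.ne_zero)] at hζ
    exact zero_ne_one hζ
  have h1 : (Units.mk0 ζ hζ0) ^ (p ^ n) ∈ ES S := by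
    have : (Units.mk0 ζ hζ0) ^ (p ^ n) = 1 := by
      ext
      rw [Units.val_pow_eq_pow_val, Units.val_mk0, hζ, Units.val_one]
    rw [this]
    exact one_mem _
  obtain ⟨-, F, hF, hmem⟩ := mem_ES_of_pow_pow_mem S hpS n h1
  obtain ⟨F', hF', hle, hN⟩ := (LevelClass.unr S).exists_normal hF
  exact ⟨F', hF', hN, hle hmem⟩

/-- **levels of arbitrarily large `p`-power degree**: a normal `F ⊂ ℚ_S` with `p^n ∣ [F : ℚ]` -/
theorem exists_level_pow_dvd_finrank (hpS : (⟨p, hp.out⟩ : Nat.Primes) ∈ S) (n : ℕ) :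
    ∃ F : FieldQ, F.IsUnramifiedOutside S ∧ Normal ℚ F ∧ p ^ n ∣ Module.finrank ℚ F := by
  haveI : NeZero (p ^ (n + 1)) := ⟨pow_ne_zero _ hp.out.ne_zero⟩
  obtain ⟨ζ, hζ⟩ := HasEnoughRootsOfUnity.exists_primitiveRoot Qbar (p ^ (n + 1))
  obtain ⟨F, hF, hN, hmem⟩ := exists_level_mem_of_pow_eq_one S hpS (n + 1) hζ.pow_eq_one
  refine ⟨F, hF, hN, ?_⟩
  haveI : FiniteDimensional ℚ F := (LevelClass.unr S).finite F hF
  have hle : ℚ⟮ζ⟯ ≤ F := by
    rw [IntermediateField.adjoin_simple_le_iff]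
    exact hmem
  have hcyc : IsCyclotomicExtension {p ^ (n + 1)} ℚ ℚ⟮ζ⟯ :=
    hζ.intermediateField_adjoin_isCyclotomicExtension ℚ
  have h1 : Module.finrank ℚ ℚ⟮ζ⟯ = (p ^ (n + 1)).totient :=
    IsCyclotomicExtension.finrank (n := p ^ (n + 1)) ℚ⟮ζ⟯
      (Polynomial.cyclotomic.irreducible_rat (Nat.pos_of_ne_zero (NeZero.ne _)))
  have h2 : Module.finrank ℚ ℚ⟮ζ⟯ ∣ Module.finrank ℚ F := IntermediateField.finrank_dvd_of_le_right hle
  rw [h1, Nat.totient_prime_pow_succ hp.out] at h2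
  exact (Dvd.intro _ rfl).trans h2

/-- every level can be deepened so that `p^n` divides its degree -/
theorem ClsLevel.exists_ge_pow_dvd_finrank {S} {W : Type} [Group W] {f : W →* GQ}
    (hpS : (⟨p, hp.out⟩ : Nat.Primes) ∈ S) (𝓛 : ClsLevel S f) (n : ℕ) :
    ∃ 𝓛' : ClsLevel S f, 𝓛.L ≤ 𝓛'.L ∧ p ^ n ∣ Module.finrank ℚ ↥𝓛'.L := by
  obtain ⟨F, hF, hN, hdvd⟩ := exists_level_pow_dvd_finrank S hpS n
  refine ⟨𝓛.sup F hF hN, le_sup_left, hdvd.trans ?_⟩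
  exact IntermediateField.finrank_dvd_of_le_right (le_sup_right : F ≤ 𝓛.L ⊔ F)

/-- `|Γ_L(V)| · [G_ℚ : V] = [L : ℚ]` -/
lemma ClsLevel.card_gam_mul_index {S} (V : Subgroup GQ) (𝓛 : ClsLevel S V.subtype) :
    Nat.card ↥𝓛.Gam * V.index = Module.finrank ℚ ↥𝓛.L := by
  haveI : FiniteDimensional ℚ ↥𝓛.L := (LevelClass.unr S).finite 𝓛.L 𝓛.unr
  haveI : IsGalois ℚ ↥𝓛.L := ⟨⟩
  rw [← 𝓛.index_gam V, Subgroup.card_mul_index, IsGalois.card_aut_eq_finrank]

/-- `|Γ_L| = [L : ℚ]` for the levels of `G_ℚ` itself -/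
lemma ClsLevel.card_gam_id {S} (𝓛 : ClsLevel S (MonoidHom.id GQ)) :
    Nat.card ↥𝓛.Gam = Module.finrank ℚ ↥𝓛.L := by
  haveI : FiniteDimensional ℚ ↥𝓛.L := (LevelClass.unr S).finite 𝓛.L 𝓛.unr
  haveI : IsGalois ℚ ↥𝓛.L := ⟨⟩
  rw [𝓛.gam_id_eq_top, Subgroup.card_top, IsGalois.card_aut_eq_finrank]

end Fermat.Agent.S55lib
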