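/-
S55 library, interface (helper4).  **The target statement `K12Statement` for block (V)** and the
smooth Tate–Shafarevich groups in which it is phrased.

Everything is phrased with `Sm.H1/Sm.H2` (`Iface/Smooth.lean`), for
* the global group: `r = id : G_ℚ → G_ℚ`, levels `unr S` (so `Sm.H2 id (unr S) M` IS the Prelude's
  `continuousH2S S M`), and
* the local group at `q ∈ S`: `G_q = Gal(PadicAlgCl q/ℚ_q)`, `r = primeLocalToGlobal q` (Prelude),
  all levels.
No archimedean place (`p` odd); the bridge to the Prelude's `sha₁`, `sha₂` is `Iface/Bridge.lean`.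
-/
import Mathlib
import Fermat.Agent.S55lib.Iface.Res

set_option autoImplicit false

noncomputable section

namespace Fermat.Agent.S55lib

open groupCohomology CategoryTheory ExtCitation

variable (S : Finset Nat.Primes) {k : Type} [CommRing k] (A : Rep k GQ)

/-- the local Galois group `Gal(PadicAlgCl q/ℚ_q)` -/
abbrev Gloc (q : Nat.Primes) : Type := primeLocalGaloisGroup q

/-- the Prelude's map `G_q → G_ℚ` -/
abbrev rloc (q : Nat.Primes) : Gloc q →* GQ := primeLocalToGlobal q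

/-- smooth global `H¹(G_S, A)` -/
abbrev H1S : Type := Sm.H1 (MonoidHom.id GQ) (LevelClass.unr S) A

/-- smooth global `H²(G_S, A)` (`= continuousH2S S A`) -/
abbrev H2S : Type := Sm.H2 (MonoidHom.id GQ) (LevelClass.unr S) A

/-- smooth local `H¹(G_q, A)` -/
abbrev H1loc (q : Nat.Primes) : Type := Sm.H1 (rloc q) LevelClass.all (Rep.res (rloc q) A)

/-- smooth local `H²(G_q, A)` (`= continuousH2 (rloc q) (Rep.res (rloc q) A)`) -/
abbrev H2loc (q : Nat.Primes) : Type := Sm.H2 (rloc q) LevelClass.all (Rep.res (rloc q) A)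

/-- localisation `H¹(G_S, A) → H¹(G_q, A)` -/
def loc1 (q : Nat.Primes) : H1S S A →ₗ[k] H1loc A q :=
  Sm.resH1 (rloc q) (r := MonoidHom.id GQ) (r' := rloc q) (fun _ => rfl)
    (𝓛 := LevelClass.unr S) (𝓛' := LevelClass.all) (fun _ h => h.1) A

/-- localisation `H²(G_S, A) → H²(G_q, A)` -/
def loc2 (q : Nat.Primes) : H2S S A →ₗ[k] H2loc A q :=
  Sm.resH2 (rloc q) (r := MonoidHom.id GQ) (r' := rloc q) (fun _ => rfl)
    (𝓛 := LevelClass.unr S) (𝓛' := LevelClass.all) (fun _ h => h.1) A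

/-- `Ш¹_S(A)`, smooth model, finite places only. -/
def sha1Sm : Submodule k (H1S S A) := ⨅ q : S, LinearMap.ker (loc1 S A q.1)

/-- `Ш²_S(A)`, smooth model, finite places only. -/
def sha2Sm : Submodule k (H2S S A) := ⨅ q : S, LinearMap.ker (loc2 S A q.1)

lemma mem_sha1Sm_iff (x : H1S S A) : x ∈ sha1Sm S A ↔ ∀ q ∈ S, loc1 S A q x = 0 := by
  simp [sha1Sm, Submodule.mem_iInf]

lemma mem_sha2Sm_iff (x : H2S S A) : x ∈ sha2Sm S A ↔ ∀ q ∈ S, loc2 S A q x = 0 := by
  simp [sha2Sm, Submodule.mem_iInf]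

/-- **K12: the deliverable of block (V)** (global duality, ADT I.4.10 for `r = 1, 2`):
a pairing `Ш¹_S(M^∨(1)) × Ш²_S(M) → 𝔽_p`, nondegenerate on both sides, in the smooth model. -/
def K12Statement : Prop :=
  ∀ {p : ℕ} [Fact p.Prime] (_hp2 : p ≠ 2) (S : Finset Nat.Primes) (_hpS : pPrime p ∈ S)
    (M : Rep (ZMod p) GQ) [FiniteDimensional (ZMod p) M]
    (_hsm : ∀ m : M, ∃ F : FieldQ, FiniteDimensional ℚ F ∧ ∀ s ∈ F.fixingSubgroup, M.ρ s m = m)
    (_hMur : ∀ q : Nat.Primes, q ∉ S → ∀ A : ValuationSubring (AlgebraicClosure ℚ),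
      A.LiesOverPrime (q : ℕ) → ∀ g ∈ A.inertiaSubgroupIn ℚ, M.ρ g = 1),
    ∃ B : sha1Sm S (M.dualTwist (cycloChar p)) →ₗ[ZMod p] sha2Sm S M →ₗ[ZMod p] ZMod p,
      (∀ y, (∀ x, B y x = 0) → y = 0) ∧ (∀ x, (∀ y, B y x = 0) → x = 0)

end Fermat.Agent.S55lib
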