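/-
S55 library, interface (helper4).  **The Prelude's `dualTwist` versus `Hom(−, μ_p)`**, and restriction of
scalars from `ZMod p` to `ℤ` (blocks (I), (V) work with `Rep ℤ G`; the frozen statement is about
`Rep (ZMod p) G`).

* `toIntRep A : Rep ℤ G` for `A : Rep k G` (same carrier, same action);
* `dualTwistHomIso` : for a `ℤ[G]`-module `X = Rep.of ρX` whose `p`-torsion is cyclic, generated by `ζ ≠ 0`,
  with `G` acting on `ζ` through `χ : G →* (ZMod p)ˣ` (i.e. `X[p] = μ_p`), and `M : Rep (ZMod p) G`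
  finite-dimensional:  `toIntRep M ≅ homRep (toIntRep (M.dualTwist χ)) X`,  `m ↦ (f ↦ (f m) • ζ)`.
-/
import Mathlib
import Fermat.Agent.S55lib.Iface.Res
import Fermat.Agent.S55lib.Cpx.HomRep

set_option autoImplicit false
set_option linter.style.haveILetI false

noncomputable section

namespace Fermat.Agent.S55lib

open groupCohomology CategoryTheory

/-! ### Restriction of scalars to `ℤ` -/

section ToInt
variable {k G : Type} [CommRing k] [Group G]

/-- the underlying `ℤ[G]`-module of a `k[G]`-module -/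
abbrev toIntRep (A : Rep.{0} k G) : Rep.{0} ℤ G :=
  Rep.of (k := ℤ) (G := G) (X := A)
    { toFun := fun g => (A.ρ g).toAddMonoidHom.toIntLinearMap
      map_one' := by ext; simp
      map_mul' := fun g h => by ext; simp }

@[simp] lemma toIntRep_ρ_apply (A : Rep.{0} k G) (g : G) (a : A) :
    (toIntRep A).ρ g a = A.ρ g a := rfl

end ToInt

/-! ### `M ≅ Hom_ℤ(M^∨(χ), X)` when `X[p] = μ_p` -/

section DualTwist

/- NOTE on instances: for a VARIABLE `X : Rep ℤ G` the module structure `X.hV2` is only propositionally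
equal to `AddCommGroup.toIntModule`, which is what instance search finds; to stay diamond-free we take
the target as `Rep.of ρX` for a representation `ρX` on a type with the canonical `ℤ`-module structure
(every `Rep.ofMulDistribMulAction`, every `toIntRep`, every `homRep` of such is of this form). -/
variable {G : Type} [Group G] {p : ℕ} [Fact p.Prime] (χ : G →* (ZMod p)ˣ)
  {V : Type} [AddCommGroup V] (ρX : Representation ℤ G V) (ζ : V) (hζp : (p : ℤ) • ζ = 0)

/-- `ZMod p → V`, `a ↦ a • ζ` -/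
def zetaHom : ZMod p →+ V :=
  ZMod.lift p ⟨(zmultiplesHom V ζ), by simpa using hζp⟩

@[simp] lemma zetaHom_intCast (n : ℤ) : zetaHom ζ hζp (n : ZMod p) = n • ζ := by
  rw [zetaHom, ZMod.lift_coe]
  rfl

lemma zetaHom_injective (hζ0 : ζ ≠ 0) : Function.Injective (zetaHom ζ hζp) := by
  rw [zetaHom, ZMod.lift_injective]
  intro m hm
  change m • ζ = 0 at hm
  -- the annihilator of `ζ` contains `p` and is a proper ideal
  by_contra hne
  have hp : (p : ℕ).Prime := Fact.out
  have hcop : IsCoprime m (p : ℤ) := by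
    rw [Int.isCoprime_iff_gcd_eq_one]
    have : ¬ (p : ℤ) ∣ m := fun h => hne ((ZMod.intCast_zmod_eq_zero_iff_dvd m p).2 h)
    have h2 := (Nat.Prime.coprime_iff_not_dvd hp).2 (fun h => this (Int.natCast_dvd.2 h))
    rw [Int.gcd, Int.natAbs_natCast]
    exact Nat.Coprime.symm h2
  obtain ⟨a, b, hab⟩ := hcop
  apply hζ0
  have : (a * m + b * (p : ℤ)) • ζ = ζ := by rw [hab, one_smul]
  rw [add_smul, mul_smul, mul_smul, hm, hζp, smul_zero, smul_zero, add_zero] at this
  exact this.symm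

variable (M : Rep.{0} (ZMod p) G)

/-- the additive map `f ↦ (f m) • ζ` -/
def dualTwistAux (m : M) : Module.Dual (ZMod p) M →+ V :=
  (zetaHom ζ hζp).comp
    ((LinearMap.applyₗ (R := ZMod p) (M := M) (M₂ := ZMod p) m).toAddMonoidHom)

@[simp] lemma dualTwistAux_apply (m : M) (f : Module.Dual (ZMod p) M) :
    dualTwistAux ζ hζp M m f = zetaHom ζ hζp (f m) := rfl

/-- the `ℤ`-linear map `f ↦ (f m) • ζ` -/
def dualTwistLin (m : M) : ↑(homRep (toIntRep (M.dualTwist χ)) (Rep.of ρX)) :=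
  (dualTwistAux ζ hζp M m).toIntLinearMap

/-- `m ↦ dualTwistLin m` is additive -/
def dualTwistAdd : M →+ ↑(homRep (toIntRep (M.dualTwist χ)) (Rep.of ρX)) where
  toFun m := dualTwistLin χ ρX ζ hζp M m
  map_zero' := by
    apply LinearMap.ext
    intro f
    change zetaHom ζ hζp ((f : Module.Dual (ZMod p) M) 0) = 0
    rw [map_zero, map_zero]
  map_add' m m' := by
    apply LinearMap.ext
    intro f
    change zetaHom ζ hζp ((f : Module.Dual (ZMod p) M) (m + m')) =
      zetaHom ζ hζp ((f : Module.Dual (ZMod p) M) m) + zetaHom ζ hζp ((f : Module.Dual (ZMod p) M) m')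
    rw [map_add, map_add]

/-- the map `M → Hom_ℤ(M^∨(χ), X)`, `m ↦ (f ↦ (f m) • ζ)` -/
def dualTwistHom : ↑(toIntRep M) →ₗ[ℤ] ↑(homRep (toIntRep (M.dualTwist χ)) (Rep.of ρX)) :=
  (dualTwistAdd χ ρX ζ hζp M).toIntLinearMap

lemma dualTwistHom_apply (m : M) (f : Module.Dual (ZMod p) M) :
    (dualTwistHom χ ρX ζ hζp M m) f = zetaHom ζ hζp (f m) := rfl

variable (hχ : ∀ g : G, ρX g ζ = ((χ g : ZMod p).val : ℤ) • ζ)

include hχ in
lemma rho_zetaHom (g : G) (a : ZMod p) :
    ρX g (zetaHom ζ hζp a) = zetaHom ζ hζp ((χ g : ZMod p) * a) := by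
  obtain ⟨n, rfl⟩ := ZMod.intCast_surjective a
  have h1 : ((χ g : ZMod p) * (n : ZMod p)) = (((χ g : ZMod p).val * n : ℤ) : ZMod p) := by
    push_cast
    rw [ZMod.natCast_val, ZMod.cast_id]
  rw [h1, zetaHom_intCast, zetaHom_intCast, map_zsmul, hχ, smul_smul, mul_comm]

include hχ in
/-- `dualTwistHom` is `G`-equivariant for the conjugation action on `Hom` -/
lemma dualTwistHom_equivariant (g : G) (m : M) :
    dualTwistHom χ ρX ζ hζp M (M.ρ g m) =
      (homRep (toIntRep (M.dualTwist χ)) (Rep.of ρX)).ρ g (dualTwistHom χ ρX ζ hζp M m) := by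
  apply LinearMap.ext
  intro f
  rw [homRep.ρ_apply, dualTwistHom_apply, dualTwistHom_apply]
  change _ = ρX g _
  rw [rho_zetaHom χ ρX ζ hζp hχ]
  congr 1
  -- `(g⁻¹ f)(m) = χ(g)⁻¹ f(g m)`
  change f (M.ρ g m) = (χ g : ZMod p) * ((M.dualTwist χ).ρ g⁻¹ f) m
  rw [Rep.dualTwist_ρ_apply, LinearMap.smul_apply, LinearMap.comp_apply, inv_inv, smul_eq_mul,
    ← mul_assoc, map_inv, Units.mul_inv, one_mul]

lemma dualTwistHom_injective (hζ0 : ζ ≠ 0) : Function.Injective (dualTwistHom χ ρX ζ hζp M) := by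
  rw [← LinearMap.ker_eq_bot, LinearMap.ker_eq_bot']
  intro m hm
  apply (Module.forall_dual_apply_eq_zero_iff (ZMod p) (m : M)).1
  intro f
  have := congrArg (fun φ : ↑(homRep (toIntRep (M.dualTwist χ)) (Rep.of ρX)) => φ f) hm
  change zetaHom ζ hζp (f m) = 0 at this
  exact zetaHom_injective ζ hζp hζ0 (by rw [this, map_zero])

variable (hXp : ∀ x : V, (p : ℤ) • x = 0 → ∃ n : ℤ, x = n • ζ)

include hXp in
lemma dualTwistHom_surjective [FiniteDimensional (ZMod p) M] (hζ0 : ζ ≠ 0) :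
    Function.Surjective (dualTwistHom χ ρX ζ hζp M) := by
  classical
  intro φ
  -- the values of `φ` are `p`-torsion, hence in the image of `zetaHom`
  have hval : ∀ f : Module.Dual (ZMod p) M, ∃ a : ZMod p, zetaHom ζ hζp a = φ f := by
    intro f
    have hpf : (p : ℤ) • φ f = 0 := by
      rw [← map_zsmul]
      have : (p : ℤ) • f = 0 := by
        ext m
        simp
      change φ ((p : ℤ) • (f : toIntRep (M.dualTwist χ))) = 0
      rw [show ((p : ℤ) • (f : toIntRep (M.dualTwist χ))) = 0 from this, map_zero]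
    obtain ⟨n, hn⟩ := hXp _ hpf
    exact ⟨(n : ZMod p), by rw [zetaHom_intCast, hn]⟩
  choose ψ hψ using hval
  have hinj := zetaHom_injective ζ hζp hζ0
  -- `ψ` is additive, hence `ZMod p`-linear
  have hadd : ∀ f f', ψ (f + f') = ψ f + ψ f' := by
    intro f f'
    apply hinj
    rw [map_add, hψ, hψ, hψ]
    exact map_add φ _ _
  let ψ' : Module.Dual (ZMod p) M →+ ZMod p := AddMonoidHom.mk' ψ hadd
  let ψ'' : Module.Dual (ZMod p) (Module.Dual (ZMod p) M) := ψ'.toZModLinearMap p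
  obtain ⟨m, hm⟩ : ∃ m : M, Module.Dual.eval (ZMod p) M m = ψ'' :=
    (Module.evalEquiv (ZMod p) M).surjective ψ''
  refine ⟨m, ?_⟩
  apply LinearMap.ext
  intro f
  rw [dualTwistHom_apply, ← hψ]
  congr 1
  have := congrArg (fun Ψ => Ψ f) hm
  exact this

include hχ in
/-- `dualTwistHom` as an intertwining map -/
def dualTwistInt :
    (toIntRep M).ρ.IntertwiningMap (homRep (toIntRep (M.dualTwist χ)) (Rep.of ρX)).ρ where
  toLinearMap := dualTwistHom χ ρX ζ hζp M
  isIntertwining' := fun g => by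
    apply LinearMap.ext
    intro m
    exact dualTwistHom_equivariant χ ρX ζ hζp M hχ g m

/-- the morphism `M ⟶ Hom_ℤ(M^∨(χ), X)` of `ℤ[G]`-modules -/
def dualTwistMor : toIntRep M ⟶ homRep (toIntRep (M.dualTwist χ)) (Rep.of ρX) :=
  Rep.ofHom (dualTwistInt χ ρX ζ hζp M hχ)

lemma dualTwistMor_apply (m : M) (f : Module.Dual (ZMod p) M) :
    ((dualTwistMor χ ρX ζ hζp M hχ).hom m) f = zetaHom ζ hζp (f m) := rfl

include hXp in
lemma dualTwistMor_bijective [FiniteDimensional (ZMod p) M] (hζ0 : ζ ≠ 0) :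
    Function.Bijective (dualTwistMor χ ρX ζ hζp M hχ).hom :=
  ⟨dualTwistHom_injective χ ρX ζ hζp M hζ0, dualTwistHom_surjective χ ρX ζ hζp M hXp hζ0⟩

include hXp in
/-- **`M ≅ Hom_ℤ(M^∨(χ), X)` as `ℤ[G]`-modules** (when `X[p] = ℤ/p·ζ` with `G` acting on `ζ` through `χ`). -/
def dualTwistHomIso [FiniteDimensional (ZMod p) M] (hζ0 : ζ ≠ 0) :
    toIntRep M ≅ homRep (toIntRep (M.dualTwist χ)) (Rep.of ρX) :=
  Rep.mkIso
    { dualTwistInt χ ρX ζ hζp M hχ with
      invFun := (Equiv.ofBijective _ (dualTwistMor_bijective χ ρX ζ hζp M hχ hXp hζ0)).symm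
      left_inv := (Equiv.ofBijective _ (dualTwistMor_bijective χ ρX ζ hζp M hχ hXp hζ0)).left_inv
      right_inv := (Equiv.ofBijective _ (dualTwistMor_bijective χ ρX ζ hζp M hχ hXp hζ0)).right_inv }

@[simp] lemma dualTwistHomIso_hom [FiniteDimensional (ZMod p) M] (hζ0 : ζ ≠ 0) :
    (dualTwistHomIso χ ρX ζ hζp M hχ hXp hζ0).hom = dualTwistMor χ ρX ζ hζp M hχ := rfl

end DualTwist

end Fermat.Agent.S55lib
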