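/-
S55 library, interface (helper4).  **PTCoreAdd**: the additive form of `ptCore` (`Iface/PTCore.lean`).

Block (V) mixes `ZMod p`-modules (the `Sm.Hⁱ` of `M : Rep (ZMod p) G`) with plain abelian groups
(the `Ext`-groups computed over `ℤ`).  Here every map is an `AddMonoidHom`, duals are `→+ ZMod p`, and only
`H¹′`, `P¹′` (the groups whose functionals have to be extended) are required to be `ZMod p`-modules.
-/
import Mathlib

set_option autoImplicit false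

namespace Fermat.Agent.S55lib

variable {p : ℕ} [Fact p.Prime]

/-- additive functionals on `ZMod p`-vector spaces that kill the kernel of `l` factor through `l` -/
theorem exists_addHom_comp_eq {V W : Type*} [AddCommGroup V] [Module (ZMod p) V] [AddCommGroup W]
    [Module (ZMod p) W] (l : V →+ W) (f : V →+ ZMod p) (hf : ∀ v, l v = 0 → f v = 0) :
    ∃ g : W →+ ZMod p, ∀ v, g (l v) = f v := by
  let l' : V →ₗ[ZMod p] W := l.toZModLinearMap p
  let f' : Module.Dual (ZMod p) V := f.toZModLinearMap p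
  have h3 : f' ∈ (LinearMap.ker l').dualAnnihilator := by
    rw [Submodule.mem_dualAnnihilator]
    intro w hw
    exact hf w hw
  rw [← LinearMap.range_dualMap_eq_dualAnnihilator_ker] at h3
  obtain ⟨φ, hφ⟩ := h3
  refine ⟨φ.toAddMonoidHom, fun v => ?_⟩
  have := congrArg (fun ψ : Module.Dual (ZMod p) V => ψ v) hφ
  exact this

/-- additive functionals separate the points of a `ZMod p`-vector space -/
theorem eq_zero_of_forall_addHom_eq_zero {V : Type*} [AddCommGroup V] [Module (ZMod p) V] (v : V)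
    (h : ∀ f : V →+ ZMod p, f v = 0) : v = 0 :=
  (Module.forall_dual_apply_eq_zero_iff (ZMod p) v).1 fun φ => h φ.toAddMonoidHom

variable {P1 X H2 P2 H1' P1' : Type*}
  [AddCommGroup P1] [AddCommGroup X] [AddCommGroup H2] [AddCommGroup P2]
  [AddCommGroup H1'] [Module (ZMod p) H1'] [AddCommGroup P1'] [Module (ZMod p) P1']

/-- **PTCore, additive form.**  From `P¹ -a→ X -δ→ H² -λ²→ P²` exact at `X` and `H²`, a bijection
`α : X ≃ (H¹′)^∨`, a surjection `π : P¹ ↠ (P¹′)^∨` (duals `= →+ ZMod p`) and the compatibility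
`α(a y)(x) = π(y)(λ¹′ x)` one gets a pairing `ker λ¹′ × ker λ² → ZMod p`, `B y (δ ξ) = α ξ y`,
nondegenerate on both sides. -/
theorem ptCoreAdd
    (a : P1 →+ X) (δ : X →+ H2) (l2 : H2 →+ P2) (l1 : H1' →+ P1')
    (α : X →+ (H1' →+ ZMod p)) (π : P1 →+ (P1' →+ ZMod p))
    (h1 : ∀ ξ : X, δ ξ = 0 ↔ ∃ y, a y = ξ) (h2 : ∀ x : H2, l2 x = 0 ↔ ∃ ξ, δ ξ = x)
    (hα : Function.Bijective α) (hπ : Function.Surjective π)
    (hc : ∀ (y : P1) (x : H1'), α (a y) x = π y (l1 x)) :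
    ∃ B : l1.ker →+ l2.ker →+ ZMod p,
      (∀ ξ : X, ∀ (hξ : δ ξ ∈ l2.ker) (y : l1.ker), B y ⟨δ ξ, hξ⟩ = α ξ (y : H1')) ∧
      (∀ y, (∀ x, B y x = 0) → y = 0) ∧ (∀ x, (∀ y, B y x = 0) → x = 0) := by
  classical
  -- `δ` corestricted to `ker λ²`
  have hmem : ∀ ξ : X, δ ξ ∈ l2.ker := fun ξ => (AddMonoidHom.mem_ker).2 ((h2 _).2 ⟨ξ, rfl⟩)
  let δ' : X →+ l2.ker := δ.codRestrict _ hmem
  have hδ'surj : Function.Surjective δ' := by
    rintro ⟨x, hx⟩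
    obtain ⟨ξ, rfl⟩ := (h2 x).1 hx
    exact ⟨ξ, rfl⟩
  -- `C' ξ = (α ξ)|_{ker λ¹′}`
  let C' : X →+ (l1.ker →+ ZMod p) :=
    { toFun := fun ξ => (α ξ).comp l1.ker.subtype
      map_zero' := by ext; simp
      map_add' := fun ξ ξ' => by ext; simp }
  have hC'apply : ∀ ξ (y : l1.ker), C' ξ y = α ξ (y : H1') := fun _ _ => rfl
  have hC'ker : δ'.ker ≤ C'.ker := by
    intro ξ hξ
    have hδξ : δ ξ = 0 := congrArg Subtype.val (AddMonoidHom.mem_ker.1 hξ)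
    obtain ⟨y, rfl⟩ := (h1 ξ).1 hδξ
    rw [AddMonoidHom.mem_ker]
    ext x
    rw [hC'apply, hc, AddMonoidHom.mem_ker.1 x.2, map_zero]
    rfl
  let e := QuotientAddGroup.quotientKerEquivOfSurjective δ' hδ'surj
  let C : l2.ker →+ (l1.ker →+ ZMod p) :=
    (QuotientAddGroup.lift δ'.ker C' hC'ker).comp e.symm.toAddMonoidHom
  have hC : ∀ ξ : X, C (δ' ξ) = C' ξ := by
    intro ξ
    have : e.symm (δ' ξ) = (ξ : X ⧸ δ'.ker) := by
      rw [AddEquiv.symm_apply_eq]; rfl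
    simp only [C, AddMonoidHom.coe_comp, Function.comp_apply, AddEquiv.coe_toAddMonoidHom, this,
      QuotientAddGroup.lift_mk]
  refine ⟨C.flip, ?_, ?_, ?_⟩
  · intro ξ hξ y
    have : (⟨δ ξ, hξ⟩ : l2.ker) = δ' ξ := rfl
    rw [AddMonoidHom.flip_apply, this, hC]
    rfl
  · -- left kernel
    intro y hy
    have h0 : ∀ φ : H1' →+ ZMod p, φ (y : H1') = 0 := by
      intro φ
      obtain ⟨ξ, rfl⟩ := hα.2 φ
      have := hy (δ' ξ)
      rw [AddMonoidHom.flip_apply, hC] at this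
      exact this
    exact Subtype.ext (eq_zero_of_forall_addHom_eq_zero _ h0)
  · -- right kernel
    intro x hx
    obtain ⟨ξ, rfl⟩ := hδ'surj x
    have h0 : ∀ w, l1 w = 0 → α ξ w = 0 := by
      intro w hw
      have := hx ⟨w, AddMonoidHom.mem_ker.2 hw⟩
      rw [AddMonoidHom.flip_apply, hC] at this
      exact this
    obtain ⟨φ, hφ⟩ := exists_addHom_comp_eq l1 (α ξ) h0
    obtain ⟨y', rfl⟩ := hπ φ
    have h4 : α ξ = α (a y') := by
      ext w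
      rw [hc, hφ]
    have h5 : ξ = a y' := hα.1 h4
    have h6 : δ ξ = 0 := (h1 ξ).2 ⟨y', h5.symm⟩
    exact Subtype.ext h6

/-- **PTCore, additive form, with the kernels given as abstract groups** `j₁ : K₁ ↪ H¹′` (image `ker λ¹′`)
and `j₂ : K₂ ↪ H²` (image `ker λ²`). -/
theorem ptCoreAdd' {K1 K2 : Type*} [AddCommGroup K1] [AddCommGroup K2]
    (a : P1 →+ X) (δ : X →+ H2) (l2 : H2 →+ P2) (l1 : H1' →+ P1')
    (α : X →+ (H1' →+ ZMod p)) (π : P1 →+ (P1' →+ ZMod p))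
    (j1 : K1 →+ H1') (j2 : K2 →+ H2) (hj1 : Function.Injective j1) (hj2 : Function.Injective j2)
    (hK1 : ∀ y : H1', l1 y = 0 ↔ ∃ κ, j1 κ = y) (hK2 : ∀ x : H2, l2 x = 0 ↔ ∃ κ, j2 κ = x)
    (h1 : ∀ ξ : X, δ ξ = 0 ↔ ∃ y, a y = ξ) (h2 : ∀ x : H2, l2 x = 0 ↔ ∃ ξ, δ ξ = x)
    (hα : Function.Bijective α) (hπ : Function.Surjective π)
    (hc : ∀ (y : P1) (x : H1'), α (a y) x = π y (l1 x)) :
    ∃ B : K1 →+ K2 →+ ZMod p,
      (∀ (ξ : X) (κ₂ : K2) (κ₁ : K1), j2 κ₂ = δ ξ → B κ₁ κ₂ = α ξ (j1 κ₁)) ∧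
      (∀ y, (∀ x, B y x = 0) → y = 0) ∧ (∀ x, (∀ y, B y x = 0) → x = 0) := by
  obtain ⟨B, hB, hl, hr⟩ := ptCoreAdd a δ l2 l1 α π h1 h2 hα hπ hc
  let i1 : K1 →+ l1.ker := j1.codRestrict _ fun κ => AddMonoidHom.mem_ker.2 ((hK1 _).2 ⟨κ, rfl⟩)
  let i2 : K2 →+ l2.ker := j2.codRestrict _ fun κ => AddMonoidHom.mem_ker.2 ((hK2 _).2 ⟨κ, rfl⟩)
  have s1 : Function.Surjective i1 := by
    rintro ⟨y, hy⟩
    obtain ⟨κ, rfl⟩ := (hK1 y).1 (AddMonoidHom.mem_ker.1 hy)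
    exact ⟨κ, rfl⟩
  have s2 : Function.Surjective i2 := by
    rintro ⟨x, hx⟩
    obtain ⟨κ, rfl⟩ := (hK2 x).1 (AddMonoidHom.mem_ker.1 hx)
    exact ⟨κ, rfl⟩
  have n1 : Function.Injective i1 := fun κ κ' h => hj1 (congrArg Subtype.val h)
  have n2 : Function.Injective i2 := fun κ κ' h => hj2 (congrArg Subtype.val h)
  let B0 : K1 →+ K2 →+ ZMod p :=
    { toFun := fun y => (B (i1 y)).comp i2
      map_zero' := by ext; simp
      map_add' := fun y y' => by ext; simp }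
  have hB0 : ∀ y x, B0 y x = B (i1 y) (i2 x) := fun _ _ => rfl
  refine ⟨B0, ?_, ?_, ?_⟩
  · intro ξ κ₂ κ₁ h
    rw [hB0]
    have hξ : δ ξ ∈ l2.ker := AddMonoidHom.mem_ker.2 ((h2 _).2 ⟨ξ, rfl⟩)
    have : i2 κ₂ = ⟨δ ξ, hξ⟩ := Subtype.ext h
    rw [this, hB]
    rfl
  · intro y hy
    apply n1
    rw [map_zero]
    apply hl
    intro x
    obtain ⟨x, rfl⟩ := s2 x
    exact hy x
  · intro x hx
    apply n2
    rw [map_zero]
    apply hr
    intro y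
    obtain ⟨y, rfl⟩ := s1 y
    exact hx y

end Fermat.Agent.S55lib
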