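/-
S55 library, interface (helper4).  **Assembly**: `K12Statement` from the four-term exact sequence of block (V),
in the exact types of `Iface/Top.lean`.

`PTInput p S M` is what block (V) has to construct for each `(p, S, M)`:
an abelian group `X` (`= Ext¹_{G_S}(M′, C_S)`, `M′ = M^∨(1)`), additive maps
`a : ∏_{q∈S} H¹(G_q,M) → X`, `δ : X → H²(G_S,M)`, `α : X → H¹(G_S,M′)^∨`, `π : ∏ H¹(G_q,M) → (∏ H¹(G_q,M′))^∨`
with `P¹ → X → H² → P²` exact at `X` and `H²`, `α` bijective, `π` surjective, `α(a y)(x) = π(y)(loc x)`.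
-/
import Mathlib
import Fermat.Agent.S55lib.Iface.Top
import Fermat.Agent.S55lib.Iface.PTCoreAdd

set_option autoImplicit false

noncomputable section

namespace Fermat.Agent.S55lib

open groupCohomology CategoryTheory ExtCitation

variable (S : Finset Nat.Primes) {k : Type} [CommRing k] (A : Rep k GQ)

/-- `∏_{q∈S} H¹(G_q, A)` (a `def`, with explicitly built instances: instance search under the `Π`-binder
fails when the carrier of `A` is reducibly a `LinearMap` type, e.g. for `A = M.dualTwist χ`) -/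
def H1locAll : Type := ∀ q : S, H1loc A q.1

/-- `∏_{q∈S} H²(G_q, A)` -/
def H2locAll : Type := ∀ q : S, H2loc A q.1

instance : AddCommGroup (H1locAll S A) :=
  @Pi.addCommGroup S (fun q => H1loc A q.1) (fun _ => inferInstance)

instance : Module k (H1locAll S A) :=
  @Pi.module S (fun q => H1loc A q.1) k _ (fun _ => inferInstance) (fun _ => inferInstance)

instance : AddCommGroup (H2locAll S A) :=
  @Pi.addCommGroup S (fun q => H2loc A q.1) (fun _ => inferInstance)

instance : Module k (H2locAll S A) :=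
  @Pi.module S (fun q => H2loc A q.1) k _ (fun _ => inferInstance) (fun _ => inferInstance)

/-- all localisations `H¹(G_S, A) → ∏_{q∈S} H¹(G_q, A)` -/
def locAll1 : H1S S A →ₗ[k] H1locAll S A where
  toFun x q := loc1 S A q.1 x
  map_add' x y := by funext q; exact map_add (loc1 S A q.1) x y
  map_smul' c x := by funext q; exact map_smul (loc1 S A q.1) c x

/-- all localisations `H²(G_S, A) → ∏_{q∈S} H²(G_q, A)` -/
def locAll2 : H2S S A →ₗ[k] H2locAll S A where
  toFun x q := loc2 S A q.1 x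
  map_add' x y := by funext q; exact map_add (loc2 S A q.1) x y
  map_smul' c x := by funext q; exact map_smul (loc2 S A q.1) c x

lemma locAll1_apply (x : H1S S A) (q : S) : locAll1 S A x q = loc1 S A q.1 x := rfl

lemma locAll2_apply (x : H2S S A) (q : S) : locAll2 S A x q = loc2 S A q.1 x := rfl

lemma locAll1_eq_zero_iff (x : H1S S A) : locAll1 S A x = 0 ↔ x ∈ sha1Sm S A := by
  rw [mem_sha1Sm_iff]
  constructor
  · intro h q hq
    exact congrFun h ⟨q, hq⟩
  · intro h
    funext q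
    exact h q.1 q.2

lemma locAll2_eq_zero_iff (x : H2S S A) : locAll2 S A x = 0 ↔ x ∈ sha2Sm S A := by
  rw [mem_sha2Sm_iff]
  constructor
  · intro h q hq
    exact congrFun h ⟨q, hq⟩
  · intro h
    funext q
    exact h q.1 q.2

/-- **the input of block (V)** for one `(p, S, M)`; `M′ := M.dualTwist (cycloChar p)`. -/
structure PTInput (p : ℕ) [Fact p.Prime] (S : Finset Nat.Primes) (M : Rep (ZMod p) GQ) where
  /-- `Ext¹_{G_S}(M′, C_S)` -/
  X : Type
  /-- its group structure -/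
  grp : AddCommGroup X
  /-- `⊕ H¹(G_q, M) = Ext¹(M′, J_S) → Ext¹(M′, C_S)` -/
  a : H1locAll S M →+ X
  /-- the connecting map `Ext¹(M′, C_S) → Ext²(M′, E_S) = H²(G_S, M)` -/
  δ : X →+ H2S S M
  /-- the class-formation duality `Ext¹(M′, C_S) → H¹(G_S, M′)^∨` -/
  α : X →+ (H1S S (M.dualTwist (cycloChar p)) →+ ZMod p)
  /-- (sum of) local pairings -/
  π : H1locAll S M →+ (H1locAll S (M.dualTwist (cycloChar p)) →+ ZMod p)
  exact_X : ∀ ξ : X, δ ξ = 0 ↔ ∃ y, a y = ξ
  exact_H2 : ∀ x : H2S S M, locAll2 S M x = 0 ↔ ∃ ξ, δ ξ = x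
  α_bijective : Function.Bijective α
  π_surjective : Function.Surjective π
  compat : ∀ (y : H1locAll S M) (x : H1S S (M.dualTwist (cycloChar p))),
    α (a y) x = π y (locAll1 S (M.dualTwist (cycloChar p)) x)

attribute [instance] PTInput.grp

/-- the pairing `Ш¹_S(M′) × Ш²_S(M) → 𝔽_p` from a `PTInput` -/
theorem exists_pairing_of_PTInput {p : ℕ} [Fact p.Prime] {S : Finset Nat.Primes}
    {M : Rep (ZMod p) GQ} (D : PTInput p S M) :
    ∃ B : sha1Sm S (M.dualTwist (cycloChar p)) →ₗ[ZMod p] sha2Sm S M →ₗ[ZMod p] ZMod p,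
      (∀ y, (∀ x, B y x = 0) → y = 0) ∧ (∀ x, (∀ y, B y x = 0) → x = 0) := by
  obtain ⟨B, -, hl, hr⟩ := ptCoreAdd' D.a D.δ (locAll2 S M).toAddMonoidHom
    (locAll1 S (M.dualTwist (cycloChar p))).toAddMonoidHom D.α D.π
    (sha1Sm S (M.dualTwist (cycloChar p))).subtype.toAddMonoidHom
    (sha2Sm S M).subtype.toAddMonoidHom
    Subtype.val_injective Subtype.val_injective
    (fun y => by
      rw [LinearMap.toAddMonoidHom_coe, locAll1_eq_zero_iff]
      exact ⟨fun h => ⟨⟨y, h⟩, rfl⟩, by rintro ⟨κ, rfl⟩; exact κ.2⟩)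
    (fun x => by
      rw [LinearMap.toAddMonoidHom_coe, locAll2_eq_zero_iff]
      exact ⟨fun h => ⟨⟨x, h⟩, rfl⟩, by rintro ⟨κ, rfl⟩; exact κ.2⟩)
    D.exact_X D.exact_H2 D.α_bijective D.π_surjective D.compat
  let B1 : sha1Sm S (M.dualTwist (cycloChar p)) →ₗ[ZMod p] sha2Sm S M →ₗ[ZMod p] ZMod p :=
    (AddMonoidHom.toZModLinearMap p
      ({ toFun := fun y => (B y).toZModLinearMap p
         map_zero' := by ext; simp
         map_add' := fun y y' => by ext; simp } :
        sha1Sm S (M.dualTwist (cycloChar p)) →+ (sha2Sm S M →ₗ[ZMod p] ZMod p)))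
  exact ⟨B1, hl, hr⟩

/-- **`K12Statement` from `PTInput`s.** -/
theorem k12_of_PTInput
    (h : ∀ {p : ℕ} [Fact p.Prime] (_hp2 : p ≠ 2) (S : Finset Nat.Primes) (_hpS : pPrime p ∈ S)
      (M : Rep (ZMod p) GQ) [FiniteDimensional (ZMod p) M]
      (_hsm : ∀ m : M, ∃ F : FieldQ, FiniteDimensional ℚ F ∧ ∀ s ∈ F.fixingSubgroup, M.ρ s m = m)
      (_hMur : ∀ q : Nat.Primes, q ∉ S → ∀ A : ValuationSubring (AlgebraicClosure ℚ),
        A.LiesOverPrime (q : ℕ) → ∀ g ∈ A.inertiaSubgroupIn ℚ, M.ρ g = 1),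
      Nonempty (PTInput p S M)) : K12Statement := by
  intro p _ hp2 S hpS M _ hsm hMur
  obtain ⟨D⟩ := h hp2 S hpS M hsm hMur
  exact exists_pairing_of_PTInput D

end Fermat.Agent.S55lib
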