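/-
S55 library, interface (helper4).  **The finite-level ↔ smooth dictionary for the `S`-idele module `JSrep S`**,
parallel to `Iface/ClassDict.lean` (same index set `ClsLevel S f`, same groups `Γ_L`):
the level of `L` is `J_S(L) = ∏_{q ∈ S} J_q(L)` (`Jq` of `Iface/Layers`), embedded by `JSq.ofLevel`.
Also: the morphism of level systems over `JSrep S ⟶ CSfull S` (`pCS ≫ cmp`), level-wise
`J_S(L) → Idele L → 𝒞_S(L)`.
-/
import Mathlib
import Fermat.Agent.S55lib.Iface.ClassDict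

set_option autoImplicit false
set_option linter.style.haveILetI false
set_option linter.unusedSectionVars false

noncomputable section

namespace Fermat.Agent.S55lib

open IntermediateField CategoryTheory

variable (S : Finset Nat.Primes) {W : Type} [Group W] (f : W →* GQ)

/-- the `S`-ideles of a field `M`: `∏_{q ∈ S} J_q(M)` -/
def JSlev (M : Type) [Field M] [Algebra ℚ M] : Type := ∀ q : S, Jq (q.1 : ℕ) M

section Lev

variable (M : Type) [Field M] [Algebra ℚ M]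

instance jslevCommGroup : CommGroup (JSlev S M) :=
  inferInstanceAs (CommGroup (∀ q : S, Jq (q.1 : ℕ) M))

instance jslevAction : MulDistribMulAction (M ≃ₐ[ℚ] M) (JSlev S M) :=
  Pi.mulDistribMulAction (I := S) (f := fun q => ↥(Jq (q.1 : ℕ) M)) (M ≃ₐ[ℚ] M)

/-- shortcut instance -/
instance jslevSMul : SMul (M ≃ₐ[ℚ] M) (JSlev S M) := (jslevAction S M).toSMul

/-- components -/
def JSlev.comp (q : S) : JSlev S M →* Jq (q.1 : ℕ) M :=
  Pi.evalMonoidHom (fun q : S => ↥(Jq (q.1 : ℕ) M)) q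

variable {S M}

@[ext] lemma JSlev.ext {x x' : JSlev S M} (h : ∀ q : S, JSlev.comp S M q x = JSlev.comp S M q x') :
    x = x' := funext h

@[simp] lemma JSlev.comp_smul (γ : M ≃ₐ[ℚ] M) (x : JSlev S M) (q : S) :
    JSlev.comp S M q (γ • x) = γ • JSlev.comp S M q x := rfl

end Lev

/-- `J_S(M)` as a representation of `Aut(M/ℚ)` -/
abbrev jsLevRep (M : Type) [Field M] [Algebra ℚ M] : Rep.{0} ℤ (M ≃ₐ[ℚ] M) :=
  Rep.ofMulDistribMulAction (M ≃ₐ[ℚ] M) (JSlev S M)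

/-! ### Functoriality in the field -/

section Incl

variable {F M : Type} [Field F] [Field M] [Algebra ℚ F] [Algebra ℚ M] (φ : F →ₐ[ℚ] M)

/-- `J_S(F) → J_S(M)` -/
def JSlev.incl : JSlev S F →* JSlev S M where
  toFun x := fun q => Jq.incl φ (JSlev.comp S F q x)
  map_one' := by
    apply JSlev.ext
    intro q
    change Jq.incl φ (JSlev.comp S F q 1) = 1
    rw [map_one, map_one]
  map_mul' x y := by
    apply JSlev.ext
    intro q
    change Jq.incl φ (JSlev.comp S F q (x * y)) = Jq.incl φ (JSlev.comp S F q x) * Jq.incl φ (JSlev.comp S F q y)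
    rw [map_mul, map_mul]

lemma JSlev.comp_incl (x : JSlev S F) (q : S) :
    JSlev.comp S M q (JSlev.incl S φ x) = Jq.incl φ (JSlev.comp S F q x) := rfl

lemma JSlev.incl_smul (γF : F ≃ₐ[ℚ] F) (γM : M ≃ₐ[ℚ] M) (h : ∀ x, φ (γF x) = γM (φ x)) (x : JSlev S F) :
    JSlev.incl S φ (γF • x) = γM • JSlev.incl S φ x := by
  apply JSlev.ext
  intro q
  rw [JSlev.comp_incl, JSlev.comp_smul, JSlev.comp_smul, JSlev.comp_incl,
    Dev.Jq_incl_smul φ (q.1 : ℕ) γF γM h]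

end Incl

/-! ### `S`-ideles as ideles -/

section ToIdele

variable {M : Type} [Field M] [Algebra ℚ M]

open Classical in
/-- extension by `1` outside `S`: `J_S(M) → I(M)` -/
def JSlev.toIdele : JSlev S M →* Dev.Idele M where
  toFun x := ⟨fun q => if h : q ∈ S then JSlev.comp S M ⟨q, h⟩ x else 1, by
    refine (Finset.finite_toSet S).subset ?_
    intro q hq
    by_contra hqS
    apply hq
    have hqS' : q ∉ S := hqS
    have h1 : (if h : q ∈ S then JSlev.comp S M ⟨q, h⟩ x else 1 : Jq (q : ℕ) M) = 1 := dif_neg hqS'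
    change (if h : q ∈ S then JSlev.comp S M ⟨q, h⟩ x else 1 : Jq (q : ℕ) M) ∈ Uq (q : ℕ) M
    rw [h1]
    exact (Uq (q : ℕ) M).one_mem⟩
  map_one' := by
    apply Dev.Idele.ext
    intro q
    by_cases hq : q ∈ S
    · change dite _ _ _ = 1
      rw [dif_pos hq, map_one]
    · change dite _ _ _ = 1
      rw [dif_neg hq]
  map_mul' x y := by
    apply Dev.Idele.ext
    intro q
    rw [Dev.Idele.mul_apply]
    by_cases hq : q ∈ S
    · change dite _ _ _ = dite _ _ _ * dite _ _ _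
      rw [dif_pos hq, dif_pos hq, dif_pos hq, map_mul]
    · change dite _ _ _ = dite _ _ _ * dite _ _ _
      rw [dif_neg hq, dif_neg hq, dif_neg hq, mul_one]

lemma JSlev.toIdele_apply_of_mem (x : JSlev S M) {q : Nat.Primes} (h : q ∈ S) :
    (JSlev.toIdele S x).1 q = JSlev.comp S M ⟨q, h⟩ x := dif_pos h

lemma JSlev.toIdele_apply_of_notMem (x : JSlev S M) {q : Nat.Primes} (h : q ∉ S) :
    (JSlev.toIdele S x).1 q = 1 := dif_neg h

lemma JSlev.toIdele_smul (γ : M ≃ₐ[ℚ] M) (x : JSlev S M) :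
    JSlev.toIdele S (γ • x) = γ • JSlev.toIdele S x := by
  apply Dev.Idele.ext
  intro q
  rw [Dev.Idele.smul_apply]
  by_cases hq : q ∈ S
  · rw [JSlev.toIdele_apply_of_mem S _ hq, JSlev.toIdele_apply_of_mem S _ hq, JSlev.comp_smul]
  · rw [JSlev.toIdele_apply_of_notMem S _ hq, JSlev.toIdele_apply_of_notMem S _ hq, smul_one]

lemma JSlev.incl_toIdele {F : Type} [Field F] [Algebra ℚ F] (φ : F →ₐ[ℚ] M) (x : JSlev S F) :
    Dev.Idele.incl φ (JSlev.toIdele S x) = JSlev.toIdele S (JSlev.incl S φ x) := by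
  apply Dev.Idele.ext
  intro q
  rw [Dev.Idele.incl_apply]
  by_cases hq : q ∈ S
  · rw [JSlev.toIdele_apply_of_mem S _ hq, JSlev.toIdele_apply_of_mem S _ hq, JSlev.comp_incl]
  · rw [JSlev.toIdele_apply_of_notMem S _ hq, JSlev.toIdele_apply_of_notMem S _ hq, map_one]

/-- the components outside `S` are trivial -/
lemma JSlev.proj_comp_toIdele_of_notMem {q : Nat.Primes} (h : q ∉ S) (x : JSlev S M) :
    Dev.Idele.proj M q (JSlev.toIdele S x) = 1 := JSlev.toIdele_apply_of_notMem S x h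

lemma JSlev.proj_comp_toIdele_of_mem {q : Nat.Primes} (h : q ∈ S) (x : JSlev S M) :
    Dev.Idele.proj M q (JSlev.toIdele S x) = JSlev.comp S M ⟨q, h⟩ x :=
  JSlev.toIdele_apply_of_mem S x h

end ToIdele

/-! ### The level maps -/

section OfLevel

variable (L : FieldQ) [Normal ℚ L] (hL : L.IsUnramifiedOutside S)

/-- `J_S(L) → J_S`, componentwise `JSq.ofLevel` -/
def JSlev.ofLevel : JSlev S ↥L →* JS S where
  toFun x := JS.mk S fun q => JSq.ofLevel L S q.1 hL (JSlev.comp S ↥L q x)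
  map_one' := by
    apply JS.ext S
    intro q
    rw [JS.comp_mk, map_one, map_one, map_one]
  map_mul' x y := by
    apply JS.ext S
    intro q
    rw [JS.comp_mk, map_mul, map_mul, map_mul, JS.comp_mk, JS.comp_mk]

lemma JSlev.comp_ofLevel (x : JSlev S ↥L) (q : S) :
    JS.comp S q (JSlev.ofLevel S L hL x) = JSq.ofLevel L S q.1 hL (JSlev.comp S ↥L q x) := rfl

lemma JSlev.ofLevel_injective : Function.Injective (JSlev.ofLevel S L hL) := by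
  intro x y h
  apply JSlev.ext
  intro q
  apply JSq.ofLevel_injective L S q.1 hL
  rw [← JSlev.comp_ofLevel, ← JSlev.comp_ofLevel, h]

lemma JSlev.ofLevel_smul (h : GQ) (x : JSlev S ↥L) :
    JSlev.ofLevel S L hL (resL L h • x) = h • JSlev.ofLevel S L hL x := by
  apply JS.ext S
  intro q
  rw [JSlev.comp_ofLevel, JS.comp_smul, JSlev.comp_ofLevel, JSlev.comp_smul, JSq.ofLevel_smul]

lemma JSlev.mem_range_ofLevel_iff (y : JS S) :
    y ∈ (JSlev.ofLevel S L hL).range ↔ ∀ s ∈ L.fixingSubgroup, s • y = y := by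
  constructor
  · rintro ⟨x, rfl⟩ s hs
    apply JS.ext S
    intro q
    rw [JS.comp_smul, JSlev.comp_ofLevel]
    exact (JSq.mem_range_ofLevel_iff L S q.1 hL _).1 ⟨_, rfl⟩ s hs
  · intro hy
    have h1 : ∀ q : S, ∃ x : Jq (q.1 : ℕ) ↥L, JSq.ofLevel L S q.1 hL x = JS.comp S q y := fun q =>
      (JSq.mem_range_ofLevel_iff L S q.1 hL _).2 fun s hs => by
        rw [← JS.comp_smul, hy s hs]
    choose x hx using h1
    let x' : JSlev S ↥L := x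
    refine ⟨x', ?_⟩
    apply JS.ext S
    intro q
    exact (JSlev.comp_ofLevel S L hL x' q).trans (hx q)

end OfLevel

/-! ### The levels of `JSrep S` -/

namespace ClsLevel

variable {S f} (𝓛 : ClsLevel S f)

/-- the module of the level: `J_S(L)` as a `Γ_L`-module -/
abbrev modJ : Rep.{0} ℤ ↥𝓛.Gam := Rep.res 𝓛.Gam.subtype (jsLevRep S ↥𝓛.L)

/-- `J_S(L) → J_S` as a `ℤ`-linear map -/
def jLinJ : Additive (JSlev S ↥𝓛.L) →ₗ[ℤ] JSrep S :=
  (MonoidHom.toAdditive (JSlev.ofLevel S 𝓛.L 𝓛.unr)).toIntLinearMap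

lemma jLinJ_apply (x : Additive (JSlev S ↥𝓛.L)) :
    𝓛.jLinJ x = Additive.ofMul (JSlev.ofLevel S 𝓛.L 𝓛.unr x.toMul) := rfl

/-- `J_S(L) → J_S` as a morphism of representations of `W` -/
def inclJ : Rep.res 𝓛.proj 𝓛.modJ ⟶ Rep.res f (JSrep S) :=
  Rep.ofHom
    { toLinearMap := 𝓛.jLinJ
      isIntertwining' := fun w => by
        apply LinearMap.ext
        intro x
        exact congrArg Additive.ofMul (JSlev.ofLevel_smul S 𝓛.L 𝓛.unr (f w) x.toMul) }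

lemma inclJ_apply (x : 𝓛.modJ) :
    (𝓛.inclJ).hom x =
      Additive.ofMul (JSlev.ofLevel S 𝓛.L 𝓛.unr (Additive.toMul (show Additive (JSlev S ↥𝓛.L) from x))) := rfl

/-- the level of `Rep.res f (JSrep S)` attached to `L` -/
def lvlJ {𝒲 : OpenBasis W} (h𝒲 : ClsBasis S f 𝒲) : Lvl 𝒲 (Rep.res f (JSrep S)) where
  Γ := ↥𝓛.Gam
  r := 𝓛.proj
  B := 𝓛.modJ
  j := 𝓛.inclJ
  r_surj := MonoidHom.rangeRestrict_surjective _
  j_inj := by
    intro x x' h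
    have h1 := JSlev.ofLevel_injective S 𝓛.L 𝓛.unr (Additive.ofMul.injective h)
    exact congrArg Additive.ofMul h1
  open_ker := by
    obtain ⟨U, hU, hle⟩ := h𝒲.exists_le_fixing 𝓛.L 𝓛.unr 𝓛.normal
    exact ⟨U, hU, fun w hw => (𝓛.mem_ker_proj_iff w).2 (hle hw)⟩
  range_j := by
    intro a ha
    have hinv : ∀ s ∈ 𝓛.L.fixingSubgroup, s • (Additive.toMul (show Additive (JS S) from a)) =
        Additive.toMul (show Additive (JS S) from a) := by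
      intro s hs
      obtain ⟨w, rfl⟩ := 𝓛.le_range hs
      exact congrArg Additive.toMul (ha w ((𝓛.mem_ker_proj_iff w).2 hs))
    obtain ⟨x, hx⟩ := (JSlev.mem_range_ofLevel_iff S 𝓛.L 𝓛.unr _).2 hinv
    exact ⟨Additive.ofMul x, congrArg Additive.ofMul hx⟩

/-! ### Transition morphisms -/

variable (𝓛' : ClsLevel S f) (hle : 𝓛.L ≤ 𝓛'.L)

lemma ofLevel_inclQ (x : JSlev S ↥𝓛.L) :
    JSlev.ofLevel S 𝓛'.L 𝓛'.unr (JSlev.incl S (𝓛.inclQ 𝓛' hle) x) = JSlev.ofLevel S 𝓛.L 𝓛.unr x := by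
  apply JS.ext S
  intro q
  rw [JSlev.comp_ofLevel, JSlev.comp_ofLevel, JSlev.comp_incl]
  ext g
  rw [JSq.ofLevel_apply, JSq.ofLevel_apply, Jq.incl_apply,
    embOf_res 𝓛.L 𝓛'.L (𝓛.inclQ 𝓛' hle) (𝓛.coe_inclQ 𝓛' hle)]

/-- `J_S(L) → J_S(L′)` as a morphism of representations of `Γ_{L′}` -/
def inclBJ : Rep.res (𝓛.resGam 𝓛' hle) 𝓛.modJ ⟶ 𝓛'.modJ :=
  Rep.ofHom
    { toLinearMap := (MonoidHom.toAdditive (JSlev.incl S (𝓛.inclQ 𝓛' hle))).toIntLinearMap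
      isIntertwining' := fun γ' => by
        apply LinearMap.ext
        intro x
        obtain ⟨w, rfl⟩ := MonoidHom.rangeRestrict_surjective ((resL 𝓛'.L).comp f) γ'
        refine congrArg Additive.ofMul
          (JSlev.incl_smul S (𝓛.inclQ 𝓛' hle)
            ((𝓛.resGam 𝓛' hle (𝓛'.proj w) : ↥𝓛.Gam) : ↥𝓛.L ≃ₐ[ℚ] ↥𝓛.L)
            ((𝓛'.proj w : ↥𝓛'.Gam) : ↥𝓛'.L ≃ₐ[ℚ] ↥𝓛'.L) (fun x => ?_) x.toMul)
        rw [resGam_proj]
        apply Subtype.ext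
        rw [coe_proj, coe_proj, coe_inclQ, resL_apply, resL_apply, coe_inclQ] }

lemma inclBJ_apply (x : 𝓛.modJ) :
    (𝓛.inclBJ 𝓛' hle).hom x = Additive.ofMul (JSlev.incl S (𝓛.inclQ 𝓛' hle)
      (Additive.toMul (show Additive (JSlev S ↥𝓛.L) from x))) := rfl

/-- the transition morphism of levels -/
def lvlHomJ {𝒲 : OpenBasis W} (h𝒲 : ClsBasis S f 𝒲) : Lvl.Hom (𝓛.lvlJ h𝒲) (𝓛'.lvlJ h𝒲) where
  ρ := 𝓛.resGam 𝓛' hle
  φ := 𝓛.inclBJ 𝓛' hle
  hρ := 𝓛.resGam_proj 𝓛' hle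
  hφ := fun x => congrArg Additive.ofMul
    (𝓛.ofLevel_inclQ 𝓛' hle (Additive.toMul (show Additive (JSlev S ↥𝓛.L) from x)))

/-! ### The morphism `J_S → C_S` on levels -/

/-- the smooth-level map `J_S → J_S/E_S → CSfull S` -/
def _root_.Fermat.Agent.S55lib.jcMap (S : Finset Nat.Primes) : JSrep S ⟶ CSfull S := pCS S ≫ cmp S

lemma _root_.Fermat.Agent.S55lib.jcMap_apply (y : JSrep S) :
    (jcMap S).hom y = (pCSfull S).hom ((mdRepHom (JS.toFull S) (JS.toFull_smul S)).hom y) := rfl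

lemma ofLevelFull_toIdele (x : JSlev S ↥𝓛.L) :
    ofLevelFull S 𝓛.L 𝓛.unr (JSlev.toIdele S x) = JS.toFull S (JSlev.ofLevel S 𝓛.L 𝓛.unr x) := by
  apply Subtype.ext
  apply JSprod.ext S
  intro q g
  rw [ofLevelFull_val]
  by_cases hq : q ∈ S
  · rw [JS.toFull_val_of_mem S _ hq, JSlev.comp_ofLevel, JSq.ofLevel_apply]
    exact congrArg (fun F : Jq (q : ℕ) ↥𝓛.L =>
      ((F.1 (embOf 𝓛.L (q : ℕ) g) : (PadicAlgCl (q : ℕ))ˣ) : PadicAlgCl (q : ℕ)))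
      (JSlev.toIdele_apply_of_mem S x hq)
  · rw [JS.toFull_val_of_notMem S _ hq]
    exact congrArg (fun F : Jq (q : ℕ) ↥𝓛.L =>
      ((F.1 (embOf 𝓛.L (q : ℕ) g) : (PadicAlgCl (q : ℕ))ˣ) : PadicAlgCl (q : ℕ)))
      (JSlev.toIdele_apply_of_notMem S x hq)

/-- `J_S(L) → 𝒞_S(L)` -/
def toCls : JSlev S ↥𝓛.L →* Dev.ClassGrpS ↥𝓛.L (S : Set Nat.Primes) :=
  (QuotientGroup.mk' _).comp (JSlev.toIdele S)

lemma toCls_apply (x : JSlev S ↥𝓛.L) :
    𝓛.toCls x = QuotientGroup.mk (JSlev.toIdele S x) := rfl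

lemma toCls_smul (γ : ↥𝓛.L ≃ₐ[ℚ] ↥𝓛.L) (x : JSlev S ↥𝓛.L) : 𝓛.toCls (γ • x) = γ • 𝓛.toCls x := by
  rw [toCls_apply, toCls_apply, JSlev.toIdele_smul, Dev.ClassGrpS.smul_mk]

/-- `J_S(L) → 𝒞_S(L)` as a morphism of `Γ_L`-modules -/
def jcB : 𝓛.modJ ⟶ 𝓛.modB :=
  Rep.ofHom
    { toLinearMap := (MonoidHom.toAdditive 𝓛.toCls).toIntLinearMap
      isIntertwining' := fun γ => by
        apply LinearMap.ext
        intro x
        exact congrArg Additive.ofMul (𝓛.toCls_smul (γ : ↥𝓛.L ≃ₐ[ℚ] ↥𝓛.L) x.toMul) }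

lemma jcB_apply (x : 𝓛.modJ) :
    (𝓛.jcB).hom x = Additive.ofMul (𝓛.toCls (Additive.toMul (show Additive (JSlev S ↥𝓛.L) from x))) := rfl

lemma incl_jcB (hS : S.Nonempty) (x : 𝓛.modJ) :
    (𝓛.incl hS).hom ((𝓛.jcB).hom x) = (jcMap S).hom ((𝓛.inclJ).hom x) := by
  rw [jcMap_apply, incl_apply, inclJ_apply, jcB_apply]
  change (ideleToCSfull S 𝓛.L 𝓛.unr (JSlev.toIdele S _)).toAdd = _
  rw [ideleToCSfull_apply, ofLevelFull_toIdele]
  rfl

/-- **the morphism of levels over `jcMap S : J_S → C_S`** (over the identity of `W`) -/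
def jcOver (hS : S.Nonempty) {𝒲 : OpenBasis W} (h𝒲 : ClsBasis S f 𝒲) :
    Lvl.HomOver (h := MonoidHom.id W) ((Rep.resFunctor f).map (jcMap S)) (𝓛.lvlJ h𝒲) (𝓛.lvl hS h𝒲) where
  η := MonoidHom.id _
  β := 𝓛.jcB
  hη := fun _ => rfl
  hβ := fun b => 𝓛.incl_jcB hS b

end ClsLevel

variable {S f}

/-- **the cofinal system of levels of `Rep.res f (JSrep S)`**, indexed like `clsSystem` -/
def jSystem {𝒲 : OpenBasis W} (h𝒲 : ClsBasis S f 𝒲) : LvlSystem 𝒲 (Rep.res f (JSrep S)) where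
  ι := ClsLevel S f
  lvl := fun 𝓛 => 𝓛.lvlJ h𝒲
  le := fun 𝓛 𝓛' => 𝓛.L ≤ 𝓛'.L
  le_trans := fun h h' => le_trans h h'
  hom := fun {𝓛 𝓛'} hle => 𝓛.lvlHomJ 𝓛' hle h𝒲
  cofinal := by
    intro 𝓛₀ U hU
    obtain ⟨F, hF, hN, hle⟩ := h𝒲.exists_fixing_le U hU
    refine ⟨𝓛₀.sup F hF hN, le_sup_left, fun w hw => hle ?_⟩
    have h1 := ((𝓛₀.sup F hF hN).mem_ker_proj_iff w).1 hw
    exact IntermediateField.fixingSubgroup_antitone (le_sup_right : F ≤ 𝓛₀.L ⊔ F) h1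

/-- `Csm.map` is `Csm.mapG` over the identity -/
lemma Csm.map_eq_mapG_id {G : Type} [Group G] (𝒰 : OpenBasis G) {A B : Rep.{0} ℤ G} (φ : A ⟶ B) (n : ℕ)
    (x : Hsm 𝒰 A n) :
    (Csm.map 𝒰 φ).mapH n x =
      (Csm.mapG (f := MonoidHom.id G) (A := A) (B := B) 𝒰.isCont_id φ).mapH n x := by
  obtain ⟨a, ha, rfl⟩ := (Csm 𝒰 A).exists_rep x
  rw [Cpx.Hom.mapH_cl, Cpx.Hom.mapH_cl]
  exact Cpx.cl_congr _ rfl _

/-- **a class of `J_S` dying in `C_S` is represented at a finite level `L` by a class of `J_S(L)` dying in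
`𝒞_S(L)`** (levels above a given one). -/
theorem exists_level_of_jcMap_eq_zero (hS : S.Nonempty) {𝒲 : OpenBasis W} (h𝒲 : ClsBasis S f 𝒲)
    (𝓛₀ : ClsLevel S f) {n : ℕ} (z : Hsm 𝒲 (Rep.res f (JSrep S)) n)
    (hz : (Csm.map 𝒲 ((Rep.resFunctor f).map (jcMap S))).mapH n z = 0) :
    ∃ (𝓛 : ClsLevel S f) (_ : 𝓛₀.L ≤ 𝓛.L) (x : groupCohomology 𝓛.modJ n),
      (𝓛.lvlJ h𝒲).inflH n x = z ∧
        groupCohomology.map (A := 𝓛.modJ) (B := 𝓛.modB) (MonoidHom.id ↥𝓛.Gam) 𝓛.jcB n x = 0 := by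
  obtain ⟨𝓛₁, hle₁, x₁, rfl⟩ := (jSystem h𝒲).exists_inflH_eq 𝓛₀ z
  rw [Csm.map_eq_mapG_id] at hz
  have h1 := (𝓛₁.jcOver hS h𝒲).mapG_inflH 𝒲.isCont_id x₁
  have h1' : ((𝓛₁.lvl hS h𝒲).inflH n)
      (groupCohomology.map (A := 𝓛₁.modJ) (B := 𝓛₁.modB) (MonoidHom.id ↥𝓛₁.Gam) 𝓛₁.jcB n x₁) = 0 :=
    h1.symm.trans hz
  obtain ⟨𝓛₂, hle₂, h2⟩ := (clsSystem hS h𝒲).exists_inf_eq_zero 𝓛₁ _ h1'
  have hle₂' : 𝓛₁.L ≤ 𝓛₂.L := hle₂
  refine ⟨𝓛₂, le_trans hle₁ hle₂', (𝓛₁.lvlHomJ 𝓛₂ hle₂' h𝒲).inf n x₁,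
    (𝓛₁.lvlHomJ 𝓛₂ hle₂' h𝒲).inflH_inf x₁, ?_⟩
  have h3 := (𝓛₁.jcOver hS h𝒲).inf_map (𝓛₂.jcOver hS h𝒲) (𝓛₁.lvlHomJ 𝓛₂ hle₂' h𝒲)
    (𝓛₁.lvlHom hS 𝓛₂ hle₂' h𝒲) x₁
  exact h3.symm.trans h2

end Fermat.Agent.S55lib
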