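/-
S55 library, interface (helper4).  Cohomology of a finite group whose order is invertible in the
coefficient ring vanishes (averaging), for the smooth `H²` and the abstract `H¹`.  Used for the
archimedean place (`p` odd).
-/
import Mathlib
import Fermat.Agent.S55lib.Iface.Res

set_option autoImplicit false
set_option linter.style.haveILetI false

noncomputable section

namespace Fermat.Agent.S55lib

open groupCohomology CategoryTheory

variable {Γ : Type} [Group Γ] [Fintype Γ] {k : Type} [CommRing k] (A : Rep k Γ)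

/-- averaging a 2-cocycle over the second variable -/
lemma card_smul_cocycle₂_eq_d₁₂ {c : Γ × Γ → A} (hc : c ∈ cocycles₂ A) :
    (Fintype.card Γ : k) • c = (d₁₂ A).hom (fun g => ∑ j : Γ, c (g, j)) := by
  rw [mem_cocycles₂_iff] at hc
  ext ⟨g, h⟩
  rw [d₁₂_hom_apply]
  simp only [Pi.smul_apply, map_sum]
  have h1 : ∑ j : Γ, c (g * h, j) = ∑ j : Γ, (A.ρ g (c (h, j)) + c (g, h * j) - c (g, h)) := by
    refine Finset.sum_congr rfl fun j _ => ?_
    rw [← hc g h j]; abel
  have h2 : ∑ j : Γ, c (g, h * j) = ∑ j : Γ, c (g, j) :=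
    Fintype.sum_equiv (Equiv.mulLeft h) _ _ (fun j => rfl)
  rw [h1, Finset.sum_sub_distrib, Finset.sum_add_distrib, h2, Finset.sum_const, Finset.card_univ,
    Nat.cast_smul_eq_nsmul]
  abel

/-- averaging a 1-cocycle -/
lemma card_smul_cocycle₁_eq_d₀₁ {c : Γ → A} (hc : c ∈ cocycles₁ A) :
    (Fintype.card Γ : k) • c = (d₀₁ A).hom (- ∑ j : Γ, c j) := by
  rw [mem_cocycles₁_iff] at hc
  ext g
  rw [d₀₁_hom_apply]
  simp only [Pi.smul_apply, map_neg, map_sum]
  have h1 : ∑ j : Γ, c (g * j) = ∑ j : Γ, (A.ρ g (c j) + c g) :=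
    Finset.sum_congr rfl fun j _ => hc g j
  have h2 : ∑ j : Γ, c (g * j) = ∑ j : Γ, c j :=
    Fintype.sum_equiv (Equiv.mulLeft g) _ _ (fun j => rfl)
  rw [h2, Finset.sum_add_distrib, Finset.sum_const, Finset.card_univ] at h1
  rw [Nat.cast_smul_eq_nsmul, sub_neg_eq_add, neg_add_eq_sub]
  rw [h1]; abel

/-- the abstract `H¹` of a finite group of invertible order vanishes -/
lemma H1_eq_zero_of_isUnit_card (hu : IsUnit (Fintype.card Γ : k)) (x : groupCohomology.H1 A) :
    x = 0 := by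
  induction x using groupCohomology.H1_induction_on with | h c => ?_
  rw [groupCohomology.H1π_eq_zero_iff]
  obtain ⟨u, hu⟩ := hu
  have h : (Fintype.card Γ : k) • (⇑c : Γ → A) = (d₀₁ A).hom (- ∑ j : Γ, c j) :=
    card_smul_cocycle₁_eq_d₀₁ A c.2
  refine ⟨(↑u⁻¹ : k) • (- ∑ j : Γ, c j), ?_⟩
  rw [map_smul, ← h, smul_smul, ← hu, Units.inv_mul, one_smul]

variable (r : Γ →* GQ) (𝓛 : LevelClass)

/-- the smooth `H²` of a finite group of invertible order vanishes -/
lemma Sm.H2_eq_zero_of_isUnit_card (hu : IsUnit (Fintype.card Γ : k)) (x : Sm.H2 r 𝓛 A) :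
    x = 0 := by
  obtain ⟨c, rfl⟩ := Submodule.mkQ_surjective _ x
  rw [Submodule.mkQ_apply, Submodule.Quotient.mk_eq_zero, Submodule.mem_comap,
    Submodule.subtype_apply, Sm.mem_B2_iff]
  obtain ⟨u, hu⟩ := hu
  have h := card_smul_cocycle₂_eq_d₁₂ A c.2.1
  refine ⟨(↑u⁻¹ : k) • (fun g => ∑ j : Γ, (c : Γ × Γ → A) (g, j)), ?_, ?_⟩
  · obtain ⟨F, hF, hc⟩ := c.2.2
    refine ⟨F, hF, fun g s hs => ?_⟩
    simp only [Pi.smul_apply]
    congr 1
    refine Finset.sum_congr rfl fun j _ => ?_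
    have := hc g j s 1 hs (by rw [map_one]; exact Subgroup.one_mem _)
    rwa [mul_one] at this
  · rw [map_smul, ← h, smul_smul, ← hu, Units.inv_mul, one_smul]

end Fermat.Agent.S55lib
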