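/-
S55 library, block (VI) (helper4).  **Bridge** from the smooth Tate–Shafarevich groups of
`Iface/Top.lean` to the Prelude's `sha₁`, `sha₂`, and the frozen S55 statement from `K12Statement`.
-/
import Mathlib
import Fermat.Agent.S55lib.Iface.Top
import Fermat.Agent.S55lib.Iface.FiniteVanish

set_option autoImplicit false
set_option linter.style.haveILetI false

noncomputable section

namespace Fermat.Agent.S55lib

open groupCohomology CategoryTheory ExtCitation

/-! ### The archimedean decomposition group has order dividing `2` -/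

lemma orderOf_complexConjugation_dvd : orderOf complexConjugation ∣ 2 :=
  orderOf_dvd_of_pow_eq_one complexConjugation_sq

lemma natCard_archimedeanDecomposition_dvd : Nat.card ↥archimedeanDecomposition ∣ 2 := by
  unfold archimedeanDecomposition
  rw [Nat.card_zpowers]
  exact orderOf_complexConjugation_dvd

instance finite_archimedeanDecomposition : Finite ↥archimedeanDecomposition :=
  Nat.finite_of_card_ne_zero (fun h => by
    have := natCard_archimedeanDecomposition_dvd
    rw [h] at this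
    omega)

instance fintype_archimedeanDecomposition : Fintype ↥archimedeanDecomposition := Fintype.ofFinite _

lemma isUnit_card_archimedeanDecomposition {k : Type} [CommRing k] (h2 : IsUnit (2 : k)) :
    IsUnit (Fintype.card ↥archimedeanDecomposition : k) := by
  have hd : Fintype.card ↥archimedeanDecomposition ∣ 2 := by
    rw [← Nat.card_eq_fintype_card]; exact natCard_archimedeanDecomposition_dvd
  obtain ⟨m, hm⟩ := hd
  have : (2 : k) = (Fintype.card ↥archimedeanDecomposition : k) * (m : k) := by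
    rw [← Nat.cast_mul, ← hm]; norm_num
  rw [this] at h2
  exact isUnit_of_mul_isUnit_left h2

variable (S : Finset Nat.Primes) {k : Type} [CommRing k]

/-! ### `sha₂` -/

section Sha2
variable (M : Rep k GQ)

/-- the Prelude's localisation at `q` is `loc2` -/
lemma locRes₂S_eq_loc2 (q : Nat.Primes) (x : continuousH2S S M) :
    locRes₂S S M (primeLocalToGlobal q) x = loc2 S M q x := by
  obtain ⟨c, rfl⟩ := Submodule.mkQ_surjective _ x
  rfl

/-- the Prelude's `Ш²` is the smooth `Ш²` (finite places only) as soon as `2` is invertible -/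
lemma sha₂_eq_sha2Sm (h2 : IsUnit (2 : k)) :
    (sha₂ S M : Submodule k (continuousH2S S M)) = sha2Sm S M := by
  ext x
  refine Iff.trans ?_ (mem_sha2Sm_iff S M x).symm
  change locTotal₂S S M x = 0 ↔ _
  rw [funext_iff]
  constructor
  · intro h q hq
    have := h (Sum.inr ⟨q, hq⟩)
    change locRes₂S S M (primeLocalToGlobal q) x = 0 at this
    rw [← locRes₂S_eq_loc2]
    exact this
  · intro h v
    rcases v with u | q
    · exact Sm.H2_eq_zero_of_isUnit_card (Γ := ↥archimedeanDecomposition)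
        (Rep.res archimedeanLoc M) archimedeanLoc LevelClass.all
        (isUnit_card_archimedeanDecomposition h2) _
    · change locRes₂S S M (primeLocalToGlobal q.1) x = 0
      rw [locRes₂S_eq_loc2]
      exact h q.1 q.2

end Sha2

/-! ### `sha₁` -/

section Sha1
variable {K : Type} [Field K] (A : Rep K GQ)

/-- the comparison map from the smooth global `H¹` to the abstract `H¹` -/
abbrev cmp1 : H1S S A →ₗ[K] groupCohomology.H1 A :=
  Sm.H1ToH1 (MonoidHom.id GQ) (LevelClass.unr S) A

lemma range_cmp1 : LinearMap.range (cmp1 S A) = continuousH1S S A := by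
  ext x
  rw [Sm.mem_range_H1ToH1_iff, mem_continuousH1S_iff]
  rfl

/-- localisation at a finite place, compared with the abstract one -/
lemma locRes_cmp1 (q : S) (x : H1S S A) :
    (locRes (extArithLoc S) A (Sum.inr q)).hom (cmp1 S A x) =
      Sm.H1ToH1 (rloc q.1) LevelClass.all (Rep.res (rloc q.1) A) (loc1 S A q.1 x) :=
  (Sm.H1ToH1_resH1 (rloc q.1) (r := MonoidHom.id GQ) (r' := rloc q.1) (fun _ => rfl)
    (𝓛 := LevelClass.unr S) (𝓛' := LevelClass.all) (fun _ h => h.1) A x).symm

lemma sha₁_eq_map (h2 : IsUnit (2 : K)) : sha₁ S A = (sha1Sm S A).map (cmp1 S A) := by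
  ext y
  rw [sha₁, Submodule.mem_inf, ← range_cmp1, Submodule.mem_map]
  constructor
  · rintro ⟨⟨x, rfl⟩, hy⟩
    refine ⟨x, ?_, rfl⟩
    rw [mem_sha1Sm_iff]
    intro q hq
    rw [LinearMap.mem_ker, funext_iff] at hy
    have := hy (Sum.inr ⟨q, hq⟩)
    change (locRes (extArithLoc S) A (Sum.inr ⟨q, hq⟩)).hom (cmp1 S A x) = 0 at this
    rw [locRes_cmp1 S A ⟨q, hq⟩] at this
    exact Sm.H1ToH1_injective _ _ _ (by rw [this, map_zero]; rfl)

  · rintro ⟨x, hx, rfl⟩
    refine ⟨⟨x, rfl⟩, ?_⟩
    rw [LinearMap.mem_ker, funext_iff]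
    intro v
    rcases v with u | q
    · exact H1_eq_zero_of_isUnit_card (Γ := ↥archimedeanDecomposition)
        (Rep.res archimedeanLoc A) (isUnit_card_archimedeanDecomposition h2) _
    · change (locRes (extArithLoc S) A (Sum.inr q)).hom (cmp1 S A x) = 0
      rw [locRes_cmp1 S A q, (mem_sha1Sm_iff S A x).1 hx q.1 q.2, map_zero]
      rfl

/-- the Prelude's `Ш¹` is the smooth `Ш¹` -/
def sha1Equiv (h2 : IsUnit (2 : K)) : sha1Sm S A ≃ₗ[K] sha₁ S A :=
  (Submodule.equivMapOfInjective (cmp1 S A) (Sm.H1ToH1_injective _ _ _) (sha1Sm S A)).trans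
    (LinearEquiv.ofEq _ _ (sha₁_eq_map S A h2).symm)

end Sha1

/-! ### The frozen statement from `K12Statement` -/

theorem s55_of_K12 (hK12 : K12Statement)
    {p : ℕ} [Fact p.Prime] (hp2 : p ≠ 2) (S : Finset Nat.Primes) (hpS : pPrime p ∈ S)
    (M : Rep (ZMod p) (AlgebraicClosure ℚ ≃ₐ[ℚ] AlgebraicClosure ℚ))
    [FiniteDimensional (ZMod p) M]
    (hsm : ∀ m : M, ∃ F : IntermediateField ℚ (AlgebraicClosure ℚ), FiniteDimensional ℚ F ∧
      ∀ s ∈ F.fixingSubgroup, M.ρ s m = m)
    (hMur : ∀ q : Nat.Primes, q ∉ S → ∀ A : ValuationSubring (AlgebraicClosure ℚ),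
      A.LiesOverPrime (q : ℕ) → ∀ g ∈ A.inertiaSubgroupIn ℚ, M.ρ g = 1) :
    ∃ B : sha₁ S (M.dualTwist (cycloChar p)) →ₗ[ZMod p] sha₂ S M →ₗ[ZMod p] ZMod p,
      (∀ y, (∀ x, B y x = 0) → y = 0) ∧ (∀ x, (∀ y, B y x = 0) → x = 0) := by
  have h2 : IsUnit (2 : ZMod p) := by
    have hp : p.Prime := Fact.out
    have : ((2 : ℕ) : ZMod p) ≠ 0 := by
      rw [Ne, ZMod.natCast_eq_zero_iff]
      intro h
      exact hp2 ((Nat.prime_dvd_prime_iff_eq hp Nat.prime_two).1 h)
    exact (isUnit_iff_ne_zero.2 (by simpa using this))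
  obtain ⟨B, hB1, hB2⟩ := hK12 hp2 S hpS M hsm hMur
  let e1 := sha1Equiv S (M.dualTwist (cycloChar p)) h2
  let e2 : sha₂ S M ≃ₗ[ZMod p] sha2Sm S M := LinearEquiv.ofEq _ _ (sha₂_eq_sha2Sm S M h2)
  refine ⟨(B.compl₁₂ e1.symm.toLinearMap e2.toLinearMap), ?_, ?_⟩
  · intro y hy
    have : e1.symm y = 0 := hB1 _ (fun x => by
      have := hy (e2.symm x)
      simpa [LinearMap.compl₁₂_apply] using this)
    exact e1.symm.map_eq_zero_iff.1 this
  · intro x hx
    have : e2 x = 0 := hB2 _ (fun y => by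
      have := hx (e1 y)
      simpa [LinearMap.compl₁₂_apply] using this)
    exact e2.map_eq_zero_iff.1 this

end Fermat.Agent.S55lib
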